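/-
The group of `SL(2, ℤ[1/q])` matrices with lower left entry divisible by `N`, and its Iwasawa
decomposition over `Γ₀(N)`.
-/
import Mathlib

set_option autoImplicit false
set_option linter.unusedSectionVars false

noncomputable section

namespace Fermat.Agent.Raise

open CongruenceSubgroup
open scoped MatrixGroups

/-- Rational numbers with denominator a power of `q`. -/
def qInt (q : ℕ) : Subring ℚ where
  carrier := {r | ∃ (n : ℕ) (z : ℤ), r * (q : ℚ) ^ n = z}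
  zero_mem' := ⟨0, 0, by simp⟩
  one_mem' := ⟨0, 1, by simp⟩
  add_mem' := by
    rintro r r' ⟨n, z, hz⟩ ⟨n', z', hz'⟩
    refine ⟨n + n', z * (q : ℤ) ^ n' + z' * (q : ℤ) ^ n, ?_⟩
    push_cast
    rw [← hz, ← hz']
    ring
  neg_mem' := by
    rintro r ⟨n, z, hz⟩
    exact ⟨n, -z, by push_cast; rw [← hz]; ring⟩
  mul_mem' := by
    rintro r r' ⟨n, z, hz⟩ ⟨n', z', hz'⟩
    refine ⟨n + n', z * z', ?_⟩
    push_cast
    rw [← hz, ← hz']
    ring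

theorem mem_qInt {q : ℕ} {r : ℚ} : r ∈ qInt q ↔ ∃ (n : ℕ) (z : ℤ), r * (q : ℚ) ^ n = z := Iff.rfl

theorem intCast_mem_qInt (q : ℕ) (z : ℤ) : (z : ℚ) ∈ qInt q := ⟨0, z, by simp⟩

theorem natCast_mem_qInt (q n : ℕ) : (n : ℚ) ∈ qInt q := by
  exact_mod_cast intCast_mem_qInt q n

theorem inv_mem_qInt {q : ℕ} (hq : q ≠ 0) : (q : ℚ)⁻¹ ∈ qInt q :=
  ⟨1, 1, by rw [pow_one, inv_mul_cancel₀ (Nat.cast_ne_zero.mpr hq), Int.cast_one]⟩

theorem zpow_mem_qInt {q : ℕ} (hq : q ≠ 0) (k : ℤ) : (q : ℚ) ^ k ∈ qInt q := by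
  cases k with
  | ofNat n => simpa using pow_mem (natCast_mem_qInt q q) n
  | negSucc n =>
    rw [zpow_negSucc, ← inv_pow]
    exact pow_mem (inv_mem_qInt hq) _

/-- A torsion condition: multiplication by `q` is injective. -/
def QFree (q : ℕ) (F : Type) [AddCommGroup F] : Prop := ∀ v : F, q • v = 0 → v = 0

theorem QFree.pow {q : ℕ} {F : Type} [AddCommGroup F] (h : QFree q F) :
    ∀ (n : ℕ) (v : F), q ^ n • v = 0 → v = 0
  | 0, v, hv => by simpa using hv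
  | n + 1, v, hv => h v (h.pow n _ (by rwa [pow_succ, mul_smul] at hv))

/-- An additive function on `ℤ[1/q]` vanishing at the integers vanishes. -/
theorem eq_zero_of_additive {q : ℕ} {F : Type} [AddCommGroup F] (hF : QFree q F) {f : ℚ → F}
    (hadd : ∀ a ∈ qInt q, ∀ b ∈ qInt q, f (a + b) = f a + f b) (hint : ∀ z : ℤ, f z = 0)
    {a : ℚ} (ha : a ∈ qInt q) : f a = 0 := by
  obtain ⟨n, z, hz⟩ := id ha
  refine hF.pow n _ ?_
  have h : ∀ k : ℕ, f ((k : ℚ) * a) = k • f a := by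
    intro k
    induction k with
    | zero => simpa using hint 0
    | succ k ih =>
      rw [Nat.cast_succ, add_mul, one_mul,
        hadd _ (mul_mem (natCast_mem_qInt q k) ha) _ ha, ih, succ_nsmul]
  rw [← h, Nat.cast_pow, mul_comm, hz, hint]

/-- The group `SL(2, ℚ)`. -/
abbrev SLQ : Type := Matrix.SpecialLinearGroup (Fin 2) ℚ

/-- The inclusion of `SL(2, ℤ)`. -/
def toQ : SL(2, ℤ) →* SLQ := Matrix.SpecialLinearGroup.map (Int.castRingHom ℚ)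

theorem toQ_apply (γ : SL(2, ℤ)) (i j : Fin 2) : toQ γ i j = ((γ i j : ℤ) : ℚ) := rfl

theorem det_eq (g : SLQ) : g 0 0 * g 1 1 - g 0 1 * g 1 0 = 1 := by
  have := g.2
  rwa [Matrix.det_fin_two] at this

theorem mul_apply_two (g h : SLQ) (i j : Fin 2) :
    (g * h) i j = g i 0 * h 0 j + g i 1 * h 1 j := by
  rw [Matrix.SpecialLinearGroup.coe_mul, Matrix.mul_apply, Fin.sum_univ_two]

theorem inv_entries (g : SLQ) :
    g⁻¹ 0 0 = g 1 1 ∧ g⁻¹ 0 1 = -g 0 1 ∧ g⁻¹ 1 0 = -g 1 0 ∧ g⁻¹ 1 1 = g 0 0 := by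
  refine ⟨?_, ?_, ?_, ?_⟩ <;>
    simp [Matrix.SpecialLinearGroup.coe_inv, Matrix.adjugate_fin_two]

theorem ext_two {g h : SLQ} (h00 : g 0 0 = h 0 0) (h01 : g 0 1 = h 0 1) (h10 : g 1 0 = h 1 0)
    (h11 : g 1 1 = h 1 1) : g = h := by
  refine Matrix.SpecialLinearGroup.ext _ _ fun i j => ?_
  fin_cases i <;> fin_cases j <;> assumption

/-- Upper unipotent elements. -/
def xQ (s : ℚ) : SLQ := ⟨!![1, s; 0, 1], by simp [Matrix.det_fin_two_of]⟩

/-- Lower unipotent elements. -/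
def lQ (s : ℚ) : SLQ := ⟨!![1, 0; s, 1], by simp [Matrix.det_fin_two_of]⟩

/-- Diagonal elements, by their lower right entry. -/
def hQ (u : ℚˣ) : SLQ := ⟨!![((u⁻¹ : ℚˣ) : ℚ), 0; 0, (u : ℚ)], by simp [Matrix.det_fin_two_of]⟩

@[simp] theorem xQ_00 (s : ℚ) : xQ s 0 0 = 1 := rfl
@[simp] theorem xQ_01 (s : ℚ) : xQ s 0 1 = s := rfl
@[simp] theorem xQ_10 (s : ℚ) : xQ s 1 0 = 0 := rfl
@[simp] theorem xQ_11 (s : ℚ) : xQ s 1 1 = 1 := rfl
@[simp] theorem lQ_00 (s : ℚ) : lQ s 0 0 = 1 := rfl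
@[simp] theorem lQ_01 (s : ℚ) : lQ s 0 1 = 0 := rfl
@[simp] theorem lQ_10 (s : ℚ) : lQ s 1 0 = s := rfl
@[simp] theorem lQ_11 (s : ℚ) : lQ s 1 1 = 1 := rfl
@[simp] theorem hQ_00 (u : ℚˣ) : hQ u 0 0 = (u : ℚ)⁻¹ := Units.val_inv_eq_inv_val u
@[simp] theorem hQ_01 (u : ℚˣ) : hQ u 0 1 = 0 := rfl
@[simp] theorem hQ_10 (u : ℚˣ) : hQ u 1 0 = 0 := rfl
@[simp] theorem hQ_11 (u : ℚˣ) : hQ u 1 1 = u := rfl

theorem xQ_mul (s t : ℚ) : xQ s * xQ t = xQ (s + t) :=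
  ext_two (by simp [mul_apply_two]) (by simp [mul_apply_two]; ring) (by simp [mul_apply_two])
    (by simp [mul_apply_two])

theorem lQ_mul (s t : ℚ) : lQ s * lQ t = lQ (s + t) :=
  ext_two (by simp [mul_apply_two]) (by simp [mul_apply_two]) (by simp [mul_apply_two])
    (by simp [mul_apply_two])

theorem hQ_mul (u v : ℚˣ) : hQ u * hQ v = hQ (u * v) :=
  ext_two (by simp [mul_apply_two]; ring) (by simp [mul_apply_two]) (by simp [mul_apply_two])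
    (by simp [mul_apply_two])

theorem xQ_zero : xQ 0 = 1 := ext_two rfl rfl rfl rfl

theorem lQ_zero : lQ 0 = 1 := ext_two rfl rfl rfl rfl

theorem hQ_one : hQ 1 = 1 := ext_two (by simp) rfl rfl rfl

theorem xQ_inv (s : ℚ) : (xQ s)⁻¹ = xQ (-s) :=
  inv_eq_of_mul_eq_one_right (by rw [xQ_mul, add_neg_cancel, xQ_zero])

theorem lQ_inv (s : ℚ) : (lQ s)⁻¹ = lQ (-s) :=
  inv_eq_of_mul_eq_one_right (by rw [lQ_mul, add_neg_cancel, lQ_zero])

theorem hQ_inv (u : ℚˣ) : (hQ u)⁻¹ = hQ u⁻¹ :=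
  inv_eq_of_mul_eq_one_right (by rw [hQ_mul, mul_inv_cancel, hQ_one])

theorem hQ_xQ (u : ℚˣ) (s : ℚ) : hQ u * xQ s = xQ (s / (u : ℚ) ^ 2) * hQ u :=
  ext_two (by simp [mul_apply_two]) (by simp [mul_apply_two]; field_simp)
    (by simp [mul_apply_two]) (by simp [mul_apply_two])

theorem hQ_lQ (u : ℚˣ) (s : ℚ) : hQ u * lQ s = lQ (s * (u : ℚ) ^ 2) * hQ u :=
  ext_two (by simp [mul_apply_two]) (by simp [mul_apply_two])
    (by simp [mul_apply_two]; field_simp) (by simp [mul_apply_two])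

theorem toQ_T_zpow (n : ℤ) : toQ (ModularGroup.T ^ n) = xQ n := by
  refine ext_two ?_ ?_ ?_ ?_ <;>
    (rw [toQ_apply, ModularGroup.coe_T_zpow]; simp)

variable {q : ℕ} [hq : Fact q.Prime]

/-- `q` as a unit of `ℚ`. -/
def qU (q : ℕ) [Fact q.Prime] : ℚˣ :=
  Units.mk0 (q : ℚ) (Nat.cast_ne_zero.mpr (Fact.out : q.Prime).ne_zero)

@[simp] theorem qU_val : ((qU q : ℚˣ) : ℚ) = q := rfl

theorem qU_zpow (k : ℤ) : ((qU q ^ k : ℚˣ) : ℚ) = (q : ℚ) ^ k := by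
  rw [Units.val_zpow_eq_zpow_val]
  rfl

/-- `SL(2, ℤ[1/q])` matrices with lower left entry divisible by `N`. -/
def gLev (q N : ℕ) : Subgroup SLQ where
  carrier := {g | (∀ i j, g i j ∈ qInt q) ∧ ∃ t ∈ qInt q, g 1 0 = N * t}
  one_mem' := ⟨fun i j => by fin_cases i <;> fin_cases j <;> simp [zero_mem, one_mem],
    0, zero_mem _, by simp⟩
  mul_mem' := by
    rintro g h ⟨hg, t, ht, ht'⟩ ⟨hh, u, hu, hu'⟩
    refine ⟨fun i j => ?_, t * h 0 0 + g 1 1 * u, add_mem (mul_mem ht (hh _ _))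
      (mul_mem (hg _ _) hu), ?_⟩
    · rw [mul_apply_two]
      exact add_mem (mul_mem (hg _ _) (hh _ _)) (mul_mem (hg _ _) (hh _ _))
    · rw [mul_apply_two, ht', hu']
      ring
  inv_mem' := by
    rintro g ⟨hg, t, ht, ht'⟩
    obtain ⟨e00, e01, e10, e11⟩ := inv_entries g
    refine ⟨fun i j => ?_, -t, neg_mem ht, by rw [e10, ht', mul_neg]⟩
    fin_cases i <;> fin_cases j <;> simp only [Fin.zero_eta, Fin.mk_one, Fin.isValue]
    · rw [e00]; exact hg _ _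
    · rw [e01]; exact neg_mem (hg _ _)
    · rw [e10]; exact neg_mem (hg _ _)
    · rw [e11]; exact hg _ _

variable {N : ℕ}

theorem xQ_mem {s : ℚ} (hs : s ∈ qInt q) : xQ s ∈ gLev q N :=
  ⟨fun i j => by fin_cases i <;> fin_cases j <;> simp [zero_mem, one_mem, hs],
    0, zero_mem _, by simp⟩

theorem lQ_mem {s : ℚ} (hs : s ∈ qInt q) : lQ ((N : ℚ) * s) ∈ gLev q N :=
  ⟨fun i j => by
    fin_cases i <;> fin_cases j <;>
      simp [zero_mem, one_mem, mul_mem (natCast_mem_qInt q N) hs], s, hs, rfl⟩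

theorem hQ_mem (k : ℤ) : hQ (qU q ^ k) ∈ gLev q N := by
  refine ⟨fun i j => ?_, 0, zero_mem _, by simp⟩
  have h0 := (Fact.out : q.Prime).ne_zero
  fin_cases i <;> fin_cases j <;>
    simp [zero_mem, qU_zpow, zpow_mem_qInt h0, ← zpow_neg]

theorem toQ_mem {γ : SL(2, ℤ)} (hγ : γ ∈ Gamma0 N) : toQ γ ∈ gLev q N := by
  refine ⟨fun i j => intCast_mem_qInt q _, ?_⟩
  obtain ⟨t, ht⟩ := (ZMod.intCast_zmod_eq_zero_iff_dvd _ _).mp (Gamma0_mem.mp hγ)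
  exact ⟨t, intCast_mem_qInt q t, by rw [toQ_apply, ht, Int.cast_mul, Int.cast_natCast]⟩

/-- Iwasawa decomposition over `Γ₀(N)`. -/
theorem exists_iwasawa (hqN : ¬ q ∣ N) {g : SLQ} (hg : g ∈ gLev q N) :
    ∃ (k : ℤ) (s : ℚ) (γ : SL(2, ℤ)), s ∈ qInt q ∧ γ ∈ Gamma0 N ∧
      g = xQ s * hQ (qU q ^ k) * toQ γ := by
  have hq' := (Fact.out : q.Prime)
  have hq0 : (q : ℚ) ≠ 0 := Nat.cast_ne_zero.mpr hq'.ne_zero
  obtain ⟨he, t, ⟨nt, zt, hzt⟩, hct⟩ := id hg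
  obtain ⟨na, za, hza⟩ := he 0 0
  obtain ⟨nb, zb, hzb⟩ := he 0 1
  obtain ⟨nd, zd, hzd⟩ := he 1 1
  -- integral bottom row
  set n := na + nb + nd + nt
  have hA : g 0 0 * (q : ℚ) ^ n = ((za * (q : ℤ) ^ (nb + nd + nt) : ℤ) : ℚ) := by
    push_cast; rw [← hza, mul_assoc, ← pow_add]; congr 2; omega
  have hB : g 0 1 * (q : ℚ) ^ n = ((zb * (q : ℤ) ^ (na + nd + nt) : ℤ) : ℚ) := by
    push_cast; rw [← hzb, mul_assoc, ← pow_add]; congr 2; omega
  have hC : g 1 0 * (q : ℚ) ^ n = ((N * (zt * (q : ℤ) ^ (na + nb + nd)) : ℤ) : ℚ) := by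
    push_cast; rw [← hzt, hct, mul_assoc t, ← pow_add, mul_assoc]; congr 3; omega
  have hD : g 1 1 * (q : ℚ) ^ n = ((zd * (q : ℤ) ^ (na + nb + nt) : ℤ) : ℚ) := by
    push_cast; rw [← hzd, mul_assoc, ← pow_add]; congr 2; omega
  set a := za * (q : ℤ) ^ (nb + nd + nt)
  set b := zb * (q : ℤ) ^ (na + nd + nt)
  set c₀ := zt * (q : ℤ) ^ (na + nb + nd)
  set c := (N : ℤ) * c₀
  set d := zd * (q : ℤ) ^ (na + nb + nt)
  have hdet : a * d - b * c = ((q ^ (2 * n) : ℕ) : ℤ) := by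
    have : ((a * d - b * c : ℤ) : ℚ) = (((q ^ (2 * n) : ℕ) : ℤ) : ℚ) := by
      rw [Int.cast_sub, Int.cast_mul a d, Int.cast_mul b c, ← hA, ← hB, ← hC, ← hD, Int.cast_natCast,
        Nat.cast_pow, two_mul n, pow_add]
      linear_combination ((q : ℚ) ^ n * (q : ℚ) ^ n) * det_eq g
    exact_mod_cast this
  -- the content is a power of `q`
  have hgdvd : (Int.gcd c d : ℤ) ∣ ((q ^ (2 * n) : ℕ) : ℤ) := hdet ▸
    dvd_sub (dvd_mul_of_dvd_right (Int.gcd_dvd_right _ _) _)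
      (dvd_mul_of_dvd_right (Int.gcd_dvd_left _ _) _)
  obtain ⟨j, -, hj⟩ := (Nat.dvd_prime_pow hq').mp (Int.natCast_dvd_natCast.mp hgdvd)
  have hgpos : 0 < Int.gcd c d := by rw [hj]; exact pow_pos hq'.pos j
  obtain ⟨c', hc'⟩ : (Int.gcd c d : ℤ) ∣ c := Int.gcd_dvd_left _ _
  obtain ⟨d', hd'⟩ : (Int.gcd c d : ℤ) ∣ d := Int.gcd_dvd_right _ _
  have hcop : IsCoprime c' d' := by
    refine ⟨Int.gcdA c d, Int.gcdB c d, mul_left_cancel₀
      (Int.natCast_ne_zero.mpr hgpos.ne') ?_⟩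
    linear_combination -Int.gcd_eq_gcd_ab c d - Int.gcdA c d * hc' - Int.gcdB c d * hd'
  obtain ⟨u, v, huv⟩ := id hcop
  let γ : SL(2, ℤ) := ⟨!![v, -u; c', d'], by rw [Matrix.det_fin_two_of]; linarith⟩
  have hNc : (N : ℤ) ∣ c' := by
    refine (IsCoprime.pow_right (n := j) (Nat.isCoprime_iff_coprime.mpr
      ((hq'.coprime_iff_not_dvd.mpr hqN).symm))).dvd_of_dvd_mul_left ?_
    rw [← Nat.cast_pow, ← hj, ← hc']
    exact dvd_mul_right _ _
  have hγ : γ ∈ Gamma0 N := Gamma0_mem.mpr ((ZMod.intCast_zmod_eq_zero_iff_dvd _ _).mpr hNc)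
  -- what is left is upper triangular
  set k : ℤ := (j : ℤ) - n
  have hk : (q : ℚ) ^ k * (q : ℚ) ^ n = ((Int.gcd c d : ℤ) : ℚ) := by
    rw [← zpow_natCast (q : ℚ) n, ← zpow_add₀ hq0, show k + (n : ℤ) = (j : ℤ) by omega,
      zpow_natCast, hj]
    push_cast; ring
  have hc2 : g 1 0 = (q : ℚ) ^ k * c' := mul_right_cancel₀ (pow_ne_zero n hq0) (by
    rw [hC, mul_right_comm, hk, ← Int.cast_mul, ← hc'])
  have hd2 : g 1 1 = (q : ℚ) ^ k * d' := mul_right_cancel₀ (pow_ne_zero n hq0) (by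
    rw [hD, mul_right_comm, hk, ← Int.cast_mul, ← hd'])
  set r := g * (toQ γ)⁻¹ with hr
  have hrm : r ∈ gLev q N := mul_mem hg (inv_mem (toQ_mem hγ))
  have e10 : r 1 0 = 0 := by
    rw [hr, mul_apply_two, (inv_entries _).1, (inv_entries _).2.2.1, toQ_apply, toQ_apply, hc2, hd2]
    show _ * ((d' : ℤ) : ℚ) + _ * -((c' : ℤ) : ℚ) = 0
    ring
  have e11 : r 1 1 = (q : ℚ) ^ k := by
    rw [hr, mul_apply_two, (inv_entries _).2.1, (inv_entries _).2.2.2, toQ_apply, toQ_apply, hc2, hd2]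
    show _ * -((-u : ℤ) : ℚ) + _ * ((v : ℤ) : ℚ) = _
    have h1 : (u : ℚ) * c' + v * d' = 1 := by exact_mod_cast huv
    push_cast
    linear_combination ((q : ℚ) ^ k) * h1
  have e00 : r 0 0 = ((q : ℚ) ^ k)⁻¹ := by
    have := det_eq r
    rw [e10, e11, mul_zero, sub_zero] at this
    exact eq_inv_of_mul_eq_one_left this
  refine ⟨k, r 0 1 / (q : ℚ) ^ k, γ, ?_, hγ, ?_⟩
  · rw [div_eq_mul_inv, ← zpow_neg]
    exact mul_mem (hrm.1 0 1) (zpow_mem_qInt hq'.ne_zero _)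
  · have hxh : xQ (r 0 1 / (q : ℚ) ^ k) * hQ (qU q ^ k) = r := by
      refine ext_two ?_ ?_ ?_ ?_
      · simp [mul_apply_two, qU_zpow, e00]
      · simp [mul_apply_two, qU_zpow, div_mul_cancel₀ _ (zpow_ne_zero k hq0)]
      · simp [mul_apply_two, e10]
      · simp [mul_apply_two, qU_zpow, e11]
    rw [hxh, hr, inv_mul_cancel_right]

/-- The decomposition is unique up to translations. -/
theorem iwasawa_unique {k k' : ℤ} {s s' : ℚ} {γ γ' : SL(2, ℤ)}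
    (h : xQ s * hQ (qU q ^ k) * toQ γ = xQ s' * hQ (qU q ^ k') * toQ γ') :
    k = k' ∧ ∃ n : ℤ, γ' = ModularGroup.T ^ n * γ := by
  have hq' := (Fact.out : q.Prime)
  set δ := γ' * γ⁻¹ with hδ
  have e : toQ δ = hQ (qU q ^ k')⁻¹ * xQ (s - s') * hQ (qU q ^ k) := by
    rw [hδ, map_mul, map_inv, sub_eq_neg_add, ← xQ_mul, ← xQ_inv, ← hQ_inv]
    rw [eq_inv_mul_iff_mul_eq.mpr h.symm]
    group
  have e10 : ((δ 1 0 : ℤ) : ℚ) = 0 := by
    have := congrArg (fun g : SLQ => g 1 0) e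
    simpa [mul_apply_two, toQ_apply] using this
  have e11 : ((δ 1 1 : ℤ) : ℚ) = (q : ℚ) ^ (k - k') := by
    have := congrArg (fun g : SLQ => g 1 1) e
    simp [mul_apply_two, toQ_apply, qU_zpow] at this
    rw [this, zpow_sub₀ (Nat.cast_ne_zero.mpr hq'.ne_zero), div_eq_inv_mul]
  have h10 : δ 1 0 = 0 := by exact_mod_cast e10
  have hdet : δ 0 0 * δ 1 1 = 1 := by
    have := δ.2
    rw [Matrix.det_fin_two, h10, mul_zero, sub_zero] at this
    exact this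
  have h11 : δ 1 1 = 1 := by
    rcases Int.eq_one_or_neg_one_of_mul_eq_one' hdet with ⟨-, h⟩ | ⟨-, h⟩
    · exact h
    · exfalso
      rw [h] at e11
      have : (0 : ℚ) < (q : ℚ) ^ (k - k') := zpow_pos (Nat.cast_pos.mpr hq'.pos) _
      rw [← e11] at this
      norm_num at this
  refine ⟨?_, δ 0 1, ?_⟩
  · rw [h11, Int.cast_one] at e11
    have := (zpow_right_strictMono₀ (show (1 : ℚ) < q by exact_mod_cast hq'.one_lt)).injective
      (a₁ := k - k') (a₂ := 0) (by simpa using e11.symm)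
    omega
  · have hT : δ = ModularGroup.T ^ (δ 0 1) := by
      refine Matrix.SpecialLinearGroup.ext _ _ fun i j => ?_
      rw [h11, mul_one] at hdet
      fin_cases i <;> fin_cases j <;> simp [ModularGroup.coe_T_zpow, h10, h11, hdet]
    rw [← hT, hδ, inv_mul_cancel_right]

end Fermat.Agent.Raise
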