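/-
Homomorphisms out of a principal congruence subgroup of `SL(2, ℤ[1/q])` killing the elementary
unipotents are invariant under a fixed power of the torus.
-/
import Fermat.Agent.Raise.SLQ

set_option autoImplicit false
set_option linter.unusedSectionVars false

noncomputable section

namespace Fermat.Agent.Raise

open scoped MatrixGroups

/-- If `g` divides `m s` whenever `1 + m s` is prime to `g`, then `g` divides `2 m`. -/
theorem dvd_two_mul_of_forall {m : ℤ} : ∀ {g : ℕ}, g ≠ 0 →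
    (∀ s : ℤ, IsCoprime (1 + m * s) (g : ℤ) → (g : ℤ) ∣ m * s) → (g : ℤ) ∣ 2 * m := by
  intro g
  induction g using Nat.recOnPosPrimePosCoprime with
  | zero => exact fun h => absurd rfl h
  | one => intro _ _; simp
  | prime_pow r v hr hv =>
    intro _ h
    have hpr : Prime (r : ℤ) := Nat.prime_iff_prime_int.mp hr
    have hcop : ∀ {x : ℤ}, ¬ (r : ℤ) ∣ x → IsCoprime x (((r ^ v : ℕ) : ℤ)) := fun hx => by
      rw [Nat.cast_pow]
      exact (hpr.coprime_iff_not_dvd.mpr hx).symm.pow_right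
    by_cases h1 : (r : ℤ) ∣ 1 + m
    · have h2 := h 2 (hcop fun h2 => hpr.not_unit (isUnit_of_dvd_one (by
        have := dvd_sub ((dvd_mul_right (r : ℤ) 2).trans (mul_dvd_mul_right h1 2)) h2
        ring_nf at this
        simpa using this)))
      rwa [mul_comm]
    · exact dvd_mul_of_dvd_right (by simpa using h 1 (hcop (by rwa [mul_one]))) _
  | coprime a b ha hb hab iha ihb =>
    intro _ h
    have hab' : IsCoprime (a : ℤ) (b : ℤ) := Nat.isCoprime_iff_coprime.mpr hab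
    have key : ∀ {x y : ℕ}, IsCoprime (x : ℤ) (y : ℤ) → (∀ s : ℤ,
        IsCoprime (1 + m * s) ((x : ℤ) * y) → (x : ℤ) * y ∣ m * s) →
        ∀ s : ℤ, IsCoprime (1 + m * s) (x : ℤ) → (x : ℤ) ∣ m * s := by
      intro x y hxy hs s hcs
      obtain ⟨u, v, huv⟩ := id hxy
      have hx : IsCoprime (1 + m * (s * v * y)) (x : ℤ) := by
        have e : 1 + m * (s * v * y) = (1 + m * s) + (x : ℤ) * (-m * s * u) := by
          linear_combination (m * s) * huv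
        rw [e]
        exact IsCoprime.add_mul_left_left hcs _
      have hy : IsCoprime (1 + m * (s * v * y)) (y : ℤ) := by
        have e : 1 + m * (s * v * y) = 1 + (y : ℤ) * (m * s * v) := by ring
        rw [e]
        exact IsCoprime.add_mul_left_left isCoprime_one_left _
      have h1 := (dvd_mul_right (x : ℤ) y).trans (hs _ (hx.mul_right hy))
      have e : m * s = m * (s * v * y) + (x : ℤ) * (m * s * u) := by
        linear_combination (-(m * s)) * huv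
      rw [e]
      exact dvd_add h1 (dvd_mul_right _ _)
    rw [Nat.cast_mul] at h ⊢
    refine hab'.mul_dvd (iha (by omega) (key hab' h)) (ihb (by omega) (key hab'.symm ?_))
    intro s hs
    have h' := h s (by rwa [mul_comm (a : ℤ)])
    rwa [mul_comm (b : ℤ)]

variable {q : ℕ} [Fact q.Prime]

/-- The principal congruence subgroup of `SL(2, ℤ[1/q])` of level `M`. -/
def gPrin (q M : ℕ) : Subgroup SLQ where
  carrier := {g | ∀ i j, ∃ t ∈ qInt q, g i j = (1 : Matrix (Fin 2) (Fin 2) ℚ) i j + M * t}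
  one_mem' := fun i j => ⟨0, zero_mem _, by simp⟩
  mul_mem' := by
    intro g h hg hh i j
    obtain ⟨a₀, ha₀, e₀⟩ := hg i 0
    obtain ⟨a₁, ha₁, e₁⟩ := hg i 1
    obtain ⟨b₀, hb₀, f₀⟩ := hh 0 j
    obtain ⟨b₁, hb₁, f₁⟩ := hh 1 j
    have hint : ∀ k l, (1 : Matrix (Fin 2) (Fin 2) ℚ) k l ∈ qInt q := fun k l => by
      fin_cases k <;> fin_cases l <;> simp [zero_mem, one_mem]
    refine ⟨(1 : Matrix (Fin 2) (Fin 2) ℚ) i 0 * b₀ + (1 : Matrix (Fin 2) (Fin 2) ℚ) i 1 * b₁ +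
        (a₀ * h 0 j + a₁ * h 1 j),
      add_mem (add_mem (mul_mem (hint _ _) hb₀) (mul_mem (hint _ _) hb₁))
        (add_mem (mul_mem ha₀ (f₀ ▸ add_mem (hint _ _) (mul_mem (natCast_mem_qInt q M) hb₀)))
          (mul_mem ha₁ (f₁ ▸ add_mem (hint _ _) (mul_mem (natCast_mem_qInt q M) hb₁)))), ?_⟩
    rw [mul_apply_two, e₀, e₁]
    rw [f₀, f₁]
    fin_cases i <;> fin_cases j <;> simp [Matrix.one_apply] <;> ring
  inv_mem' := by
    intro g hg i j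
    obtain ⟨e00, e01, e10, e11⟩ := inv_entries g
    fin_cases i <;> fin_cases j
    · obtain ⟨t, ht, e⟩ := hg 1 1
      exact ⟨t, ht, e00.trans e⟩
    · obtain ⟨t, ht, e⟩ := hg 0 1
      exact ⟨-t, neg_mem ht, e01.trans (by rw [e]; simp)⟩
    · obtain ⟨t, ht, e⟩ := hg 1 0
      exact ⟨-t, neg_mem ht, e10.trans (by rw [e]; simp)⟩
    · obtain ⟨t, ht, e⟩ := hg 0 0
      exact ⟨t, ht, e11.trans e⟩

variable {M : ℕ}

theorem gPrin_mem_qInt {g : SLQ} (hg : g ∈ gPrin q M) (i j : Fin 2) : g i j ∈ qInt q := by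
  obtain ⟨t, ht, e⟩ := hg i j
  rw [e]
  refine add_mem ?_ (mul_mem (natCast_mem_qInt q M) ht)
  fin_cases i <;> fin_cases j <;> simp [zero_mem, one_mem]

theorem xQ_mem_gPrin {s : ℚ} (hs : s ∈ qInt q) : xQ ((M : ℚ) * s) ∈ gPrin q M := by
  intro i j
  fin_cases i <;> fin_cases j
  · exact ⟨0, zero_mem _, by simp⟩
  · exact ⟨s, hs, by simp⟩
  · exact ⟨0, zero_mem _, by simp⟩
  · exact ⟨0, zero_mem _, by simp⟩

theorem lQ_mem_gPrin {s : ℚ} (hs : s ∈ qInt q) : lQ ((M : ℚ) * s) ∈ gPrin q M := by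
  intro i j
  fin_cases i <;> fin_cases j
  · exact ⟨0, zero_mem _, by simp⟩
  · exact ⟨0, zero_mem _, by simp⟩
  · exact ⟨s, hs, by simp⟩
  · exact ⟨0, zero_mem _, by simp⟩

/-- The principal subgroup is normalised by integral elements. -/
theorem conj_mem_gPrin {x g : SLQ} (hx : ∀ i j, x i j ∈ qInt q) (hg : g ∈ gPrin q M) :
    x * g * x⁻¹ ∈ gPrin q M := by
  obtain ⟨a, ha, ea⟩ := hg 0 0
  obtain ⟨b, hb, eb⟩ := hg 0 1
  obtain ⟨c, hc, ec⟩ := hg 1 0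
  obtain ⟨d, hd, ed⟩ := hg 1 1
  obtain ⟨i00, i01, i10, i11⟩ := inv_entries x
  simp at ea eb ec ed
  have hdet := det_eq x
  have h3 : ∀ i j k l {t : ℚ}, t ∈ qInt q → x i j * t * x k l ∈ qInt q := fun i j k l t ht =>
    mul_mem (mul_mem (hx i j) ht) (hx k l)
  intro i j
  fin_cases i <;> fin_cases j
  · refine ⟨x 0 0 * a * x 1 1 + x 0 1 * c * x 1 1 - x 0 0 * b * x 1 0 - x 0 1 * d * x 1 0,
      sub_mem (sub_mem (add_mem (h3 _ _ _ _ ha) (h3 _ _ _ _ hc)) (h3 _ _ _ _ hb))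
        (h3 _ _ _ _ hd), ?_⟩
    simp [mul_apply_two, i00, i10, ea, eb, ec, ed]
    linear_combination hdet
  · refine ⟨-(x 0 0 * a * x 0 1) - x 0 1 * c * x 0 1 + x 0 0 * b * x 0 0 + x 0 1 * d * x 0 0,
      add_mem (add_mem (sub_mem (neg_mem (h3 _ _ _ _ ha)) (h3 _ _ _ _ hc)) (h3 _ _ _ _ hb))
        (h3 _ _ _ _ hd), ?_⟩
    simp [mul_apply_two, i01, i11, ea, eb, ec, ed]
    ring
  · refine ⟨x 1 0 * a * x 1 1 + x 1 1 * c * x 1 1 - x 1 0 * b * x 1 0 - x 1 1 * d * x 1 0,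
      sub_mem (sub_mem (add_mem (h3 _ _ _ _ ha) (h3 _ _ _ _ hc)) (h3 _ _ _ _ hb))
        (h3 _ _ _ _ hd), ?_⟩
    simp [mul_apply_two, i00, i10, ea, eb, ec, ed]
    ring
  · refine ⟨-(x 1 0 * a * x 0 1) - x 1 1 * c * x 0 1 + x 1 0 * b * x 0 0 + x 1 1 * d * x 0 0,
      add_mem (add_mem (sub_mem (neg_mem (h3 _ _ _ _ ha)) (h3 _ _ _ _ hc)) (h3 _ _ _ _ hb))
        (h3 _ _ _ _ hd), ?_⟩
    simp [mul_apply_two, i01, i11, ea, eb, ec, ed]
    linear_combination hdet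

/-- Conjugation by a power of the torus element. -/
def hConj (q : ℕ) [Fact q.Prime] (k : ℤ) (g : SLQ) : SLQ :=
  hQ (qU q ^ k) * g * (hQ (qU q ^ k))⁻¹

theorem hConj_mul (k : ℤ) (g h : SLQ) : hConj q k (g * h) = hConj q k g * hConj q k h := by
  simp [hConj, mul_assoc]

theorem hConj_add (k l : ℤ) (g : SLQ) : hConj q (k + l) g = hConj q k (hConj q l g) := by
  simp [hConj, zpow_add, ← hQ_mul, mul_assoc]

theorem hConj_zero (g : SLQ) : hConj q 0 g = g := by simp [hConj, hQ_one]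

theorem hConj_mem_gPrin (k : ℤ) {g : SLQ} (hg : g ∈ gPrin q M) : hConj q k g ∈ gPrin q M :=
  conj_mem_gPrin (hQ_mem (q := q) (N := 1) k).1 hg

theorem hConj_row (k : ℤ) (g : SLQ) :
    hConj q k g 1 0 = g 1 0 * ((q : ℚ) ^ k) ^ 2 ∧ hConj q k g 1 1 = g 1 1 := by
  have h0 : (q : ℚ) ^ k ≠ 0 := zpow_ne_zero k (Nat.cast_ne_zero.mpr (Fact.out : q.Prime).ne_zero)
  constructor
  · simp [hConj, mul_apply_two, hQ_inv, qU_zpow]
    ring
  · simp [hConj, mul_apply_two, hQ_inv, qU_zpow]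
    field_simp

theorem hConj_xQ (k : ℤ) (s : ℚ) :
    hConj q k (xQ s) = xQ (s / ((q : ℚ) ^ k) ^ 2) := by
  rw [hConj, hQ_xQ, mul_inv_cancel_right, qU_zpow]

theorem hConj_lQ (k : ℤ) (s : ℚ) :
    hConj q k (lQ s) = lQ (s * ((q : ℚ) ^ k) ^ 2) := by
  rw [hConj, hQ_lQ, mul_inv_cancel_right, qU_zpow]

theorem isUnit_natCast_zmod {n : ℕ} (h : ¬ q ∣ n) : IsUnit (q : ZMod n) :=
  (ZMod.isUnit_iff_coprime q n).mpr ((Fact.out : q.Prime).coprime_iff_not_dvd.mpr h)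

variable {F : Type} [AddCommGroup F] (hM : M ≠ 0) (hqM : ¬ q ∣ M) {ψ : SLQ → F}
  (hadd : ∀ g ∈ gPrin q M, ∀ h ∈ gPrin q M, ψ (g * h) = ψ g + ψ h)
  (hx : ∀ s ∈ qInt q, ψ (xQ ((M : ℚ) * s)) = 0)
  (hl : ∀ s ∈ qInt q, ψ (lQ ((M : ℚ) * s)) = 0)

include hadd hx in
/-- The value depends only on the bottom row. -/
theorem eq_of_row {g g' : SLQ} (hg : g ∈ gPrin q M) (hg' : g' ∈ gPrin q M)
    (h0 : g 1 0 = g' 1 0) (h1 : g 1 1 = g' 1 1) : ψ g = ψ g' := by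
  have hr : g * g'⁻¹ ∈ gPrin q M := mul_mem hg (inv_mem hg')
  obtain ⟨t, ht, et⟩ := hr 0 1
  obtain ⟨i00, i01, i10, i11⟩ := inv_entries g'
  have e10 : (g * g'⁻¹) 1 0 = 0 := by rw [mul_apply_two, i00, i10, h0, h1]; ring
  have e11 : (g * g'⁻¹) 1 1 = 1 := by
    rw [mul_apply_two, i01, i11, h0, h1]
    linear_combination det_eq g'
  have e : g * g'⁻¹ = xQ ((M : ℚ) * t) := by
    refine ext_two ?_ ?_ ?_ ?_
    · have := det_eq (g * g'⁻¹)
      rw [e10, e11, mul_one, mul_zero, sub_zero] at this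
      exact this
    · simpa using et
    · exact e10
    · exact e11
  have : ψ g = ψ (g * g'⁻¹ * g') := by rw [inv_mul_cancel_right]
  rw [this, hadd _ hr _ hg', e, hx t ht, zero_add]

include hadd hx hl hqM hM

/-- Invariance under the torus element of exponent `2 M²`. -/
theorem torus_invariant {γ : SLQ} (hγ : γ ∈ gPrin q M) :
    ψ (hConj q (2 * M ^ 2 : ℕ) γ) = ψ γ := by
  have hq' := (Fact.out : q.Prime)
  have hq0 : (q : ℚ) ≠ 0 := Nat.cast_ne_zero.mpr hq'.ne_zero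
  have hMQ : (M : ℚ) ≠ 0 := Nat.cast_ne_zero.mpr hM
  -- right translations do not change the orbit function
  have stepx : ∀ {g : SLQ}, g ∈ gPrin q M → ∀ {s : ℚ}, s ∈ qInt q →
      ∀ j, ψ (hConj q j (g * xQ ((M : ℚ) * s))) = ψ (hConj q j g) := by
    intro g hg s hs j
    have hs' : s / ((q : ℚ) ^ j) ^ 2 ∈ qInt q := by
      rw [div_eq_mul_inv, ← inv_pow, ← zpow_neg]
      exact mul_mem hs (pow_mem (zpow_mem_qInt hq'.ne_zero _) _)
    rw [hConj_mul, hConj_xQ, mul_div_assoc,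
      hadd _ (hConj_mem_gPrin j hg) _ (xQ_mem_gPrin hs'), hx _ hs', add_zero]
  have stepl : ∀ {g : SLQ}, g ∈ gPrin q M → ∀ {s : ℚ}, s ∈ qInt q →
      ∀ j, ψ (hConj q j (g * lQ ((M : ℚ) * s))) = ψ (hConj q j g) := by
    intro g hg s hs j
    have hs' : s * ((q : ℚ) ^ j) ^ 2 ∈ qInt q :=
      mul_mem hs (pow_mem (zpow_mem_qInt hq'.ne_zero _) _)
    rw [hConj_mul, hConj_lQ, mul_assoc,
      hadd _ (hConj_mem_gPrin j hg) _ (lQ_mem_gPrin hs'), hl _ hs', add_zero]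
  -- a lower left entry that does not vanish
  obtain ⟨γ₁, hγ₁, hc₁, hrel₁⟩ : ∃ g ∈ gPrin q M, g 1 0 ≠ 0 ∧
      ∀ j, ψ (hConj q j g) = ψ (hConj q j γ) := by
    by_cases hc : γ 1 0 = 0
    · refine ⟨γ * lQ ((M : ℚ) * 1), mul_mem hγ (lQ_mem_gPrin (one_mem _)), ?_,
        stepl hγ (one_mem _)⟩
      have hd : γ 1 1 ≠ 0 := fun hd => by
        have := det_eq γ
        rw [hc, hd, mul_zero, mul_zero, sub_zero] at this
        exact zero_ne_one this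
      simp [mul_apply_two, hc, hd, hMQ]
    · exact ⟨γ, hγ, hc, fun _ => rfl⟩
  -- integral data
  obtain ⟨tc, ⟨mc, C₀, hC₀⟩, etc⟩ := hγ₁ 1 0
  simp at etc
  obtain ⟨nd, D₀, hD₀⟩ := gPrin_mem_qInt hγ₁ 1 1
  obtain ⟨na, za, hza⟩ := gPrin_mem_qInt hγ₁ 0 0
  obtain ⟨nb, zb, hzb⟩ := gPrin_mem_qInt hγ₁ 0 1
  have hC0 : C₀ ≠ 0 := fun h => hc₁ (by
    rw [h, Int.cast_zero, mul_eq_zero] at hC₀
    rw [etc, hC₀.resolve_right (pow_ne_zero _ hq0), mul_zero])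
  obtain ⟨i, C₁, hC₁q, hC₁⟩ : ∃ (i : ℕ) (C₁ : ℤ), ¬ (q : ℤ) ∣ C₁ ∧ C₀ = (q : ℤ) ^ i * C₁ := by
    obtain ⟨i, C₁, h1, h2⟩ := WfDvdMonoid.max_power_factor hC0
      (Nat.prime_iff_prime_int.mp hq').irreducible
    exact ⟨i, C₁, h1, h2⟩
  have hident : za * D₀ * (q : ℤ) ^ (nb + mc) - zb * (M * C₀) * (q : ℤ) ^ (na + nd) =
      (q : ℤ) ^ (na + nd + nb + mc) := by
    have h := det_eq γ₁
    rw [etc] at h
    have : ((za * D₀ * (q : ℤ) ^ (nb + mc) - zb * (M * C₀) * (q : ℤ) ^ (na + nd) : ℤ) : ℚ) =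
        (((q : ℤ) ^ (na + nd + nb + mc) : ℤ) : ℚ) := by
      push_cast
      rw [← hza, ← hzb, ← hC₀, ← hD₀]
      simp only [pow_add]
      linear_combination ((q : ℚ) ^ na * (q : ℚ) ^ nd * (q : ℚ) ^ nb * (q : ℚ) ^ mc) * h
    exact_mod_cast this
  have hqM' : IsCoprime (q : ℤ) (M : ℤ) :=
    Nat.isCoprime_iff_coprime.mpr (hq'.coprime_iff_not_dvd.mpr hqM)
  have hqC₁ : IsCoprime (q : ℤ) C₁ := (Nat.prime_iff_prime_int.mp hq').coprime_iff_not_dvd.mpr hC₁q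
  have hcopD : ∀ {x : ℤ}, IsCoprime (q : ℤ) x → x ∣ (M : ℤ) * C₀ → IsCoprime D₀ x := by
    rintro x hqx ⟨w, hw⟩
    obtain ⟨u, v, huv⟩ := hqx.pow_left (m := na + nd + nb + mc)
    rw [← hident] at huv
    exact ⟨u * (za * (q : ℤ) ^ (nb + mc)), v - u * (zb * w * (q : ℤ) ^ (na + nd)), by
      rw [hw] at huv
      linear_combination huv⟩
  set m₁ : ℕ := M * M * C₁.natAbs with hm₁
  have hm₁0 : m₁ ≠ 0 := by
    refine mul_ne_zero (mul_ne_zero hM hM) (Int.natAbs_ne_zero.mpr fun h => hC₁q (h ▸ dvd_zero _))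
  have hqm₁ : ¬ q ∣ m₁ := fun h => by
    rcases (Nat.Prime.dvd_mul hq').mp h with h | h
    · exact hqM ((Nat.Prime.dvd_mul hq').mp h |>.elim id id)
    · exact hC₁q (Int.natCast_dvd.mpr h)
  have hDm : IsCoprime D₀ (m₁ : ℤ) := by
    have e1 := hcopD hqM' (dvd_mul_right _ _)
    have e2 := hcopD hqC₁ (dvd_mul_of_dvd_right ⟨(q : ℤ) ^ i, by rw [hC₁, mul_comm]⟩ _)
    have e3 : IsCoprime D₀ (C₁.natAbs : ℤ) := by
      rcases Int.natAbs_eq C₁ with h | h <;> rw [h] at e2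
      · exact e2
      · exact IsCoprime.neg_right_iff _ _ |>.mp e2
    rw [hm₁, Nat.cast_mul, Nat.cast_mul]
    exact (e1.mul_right e1).mul_right e3
  -- a prime lower right entry
  haveI : NeZero m₁ := ⟨hm₁0⟩
  have hu : IsUnit ((D₀ : ZMod m₁) * ((q : ZMod m₁) ^ nd)⁻¹) := by
    have h1 := isUnit_natCast_zmod hqm₁
    obtain ⟨u, v, huv⟩ := hDm
    refine (IsUnit.of_mul_eq_one (a := (D₀ : ZMod m₁)) (u : ZMod m₁) ?_).mul ?_
    · have := congrArg (fun z : ℤ => (z : ZMod m₁)) huv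
      simpa [mul_comm] using this
    · exact IsUnit.of_mul_eq_one _ (ZMod.inv_mul_of_unit _ (h1.pow nd))
  obtain ⟨D, hDgt, hDp, hDmod⟩ := Nat.forall_exists_prime_gt_and_eq_mod hu (m₁ * q + q)
  have hDdvd : (m₁ : ℤ) ∣ (D : ℤ) * (q : ℤ) ^ nd - D₀ := by
    rw [← ZMod.intCast_zmod_eq_zero_iff_dvd]
    push_cast
    rw [hDmod, mul_assoc, ZMod.inv_mul_of_unit _ ((isUnit_natCast_zmod hqm₁).pow nd), mul_one,
      sub_self]
  have hC₁dvd : (C₁ : ℤ) ∣ (C₁.natAbs : ℤ) := Int.dvd_natAbs.mpr dvd_rfl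
  obtain ⟨k, hk⟩ : (M : ℤ) * M * C₁ ∣ (D : ℤ) * (q : ℤ) ^ nd - D₀ := by
    refine dvd_trans ?_ hDdvd
    rw [hm₁]; push_cast
    exact mul_dvd_mul_left _ (by rw [← Int.natCast_natAbs]; exact hC₁dvd)
  set s₂ : ℚ := (k : ℚ) * (q : ℚ) ^ mc * ((q : ℚ)⁻¹) ^ nd * ((q : ℚ)⁻¹) ^ i
  have hs₂ : s₂ ∈ qInt q := mul_mem (mul_mem (mul_mem (intCast_mem_qInt q k)
    (pow_mem (natCast_mem_qInt q q) _)) (pow_mem (inv_mem_qInt hq'.ne_zero) _))
      (pow_mem (inv_mem_qInt hq'.ne_zero) _)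
  set γ₂ := γ₁ * xQ ((M : ℚ) * s₂) with hγ₂def
  have hγ₂ : γ₂ ∈ gPrin q M := mul_mem hγ₁ (xQ_mem_gPrin hs₂)
  have hc₂ : γ₂ 1 0 = M * tc := by simp [hγ₂def, mul_apply_two, etc]
  have hd₂ : γ₂ 1 1 = D := by
    have hk' : ((D : ℚ) * (q : ℚ) ^ nd - D₀) = (M : ℚ) * M * C₁ * k := by exact_mod_cast hk
    have htc : tc = (q : ℚ) ^ i * C₁ / (q : ℚ) ^ mc := by
      rw [eq_div_iff (pow_ne_zero _ hq0), hC₀, hC₁]; push_cast; ring
    simp only [hγ₂def, mul_apply_two, xQ_01, xQ_11, etc, mul_one, s₂, htc, inv_pow]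
    rw [show γ₁ 1 1 = (D₀ : ℚ) / (q : ℚ) ^ nd by rw [eq_div_iff (pow_ne_zero _ hq0), hD₀]]
    field_simp
    linear_combination -hk'
  -- a prime lower left entry
  haveI := Fact.mk hDp
  have hqD : q ≠ D := by nlinarith [Nat.zero_le (m₁ * q)]
  have hC₁D : ¬ (D : ℤ) ∣ C₁ := fun h => by
    have h1 := Nat.le_of_dvd (Int.natAbs_pos.mpr fun h0 => hC₁q (by rw [h0]; exact dvd_zero _))
      (Int.natCast_dvd.mp h)
    have h2 : C₁.natAbs ≤ m₁ := Nat.le_of_dvd (Nat.pos_of_ne_zero hm₁0) (dvd_mul_left _ _)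
    nlinarith [hq'.two_le]
  have hqD' : (q : ZMod D) ≠ 0 := fun h => hqD
    (((Nat.prime_dvd_prime_iff_eq hDp hq').mp ((ZMod.natCast_eq_zero_iff _ _).mp h)).symm)
  have hu₂ : IsUnit ((C₀ : ZMod D) * ((q : ZMod D) ^ mc)⁻¹) := by
    refine Ne.isUnit (mul_ne_zero ?_ (inv_ne_zero (pow_ne_zero _ hqD')))
    rw [hC₁]; push_cast
    exact mul_ne_zero (pow_ne_zero _ hqD') fun h =>
      hC₁D ((ZMod.intCast_zmod_eq_zero_iff_dvd _ _).mp h)
  obtain ⟨y, hygt, hyp, hymod⟩ := Nat.forall_exists_prime_gt_and_eq_mod hu₂ (D + q + M)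
  obtain ⟨k₃, hk₃⟩ : (D : ℤ) ∣ (y : ℤ) * (q : ℤ) ^ mc - C₀ := by
    rw [← ZMod.intCast_zmod_eq_zero_iff_dvd]
    push_cast
    rw [hymod, mul_assoc, inv_mul_cancel₀ (pow_ne_zero _ hqD'), mul_one, sub_self]
  set s₃ : ℚ := (k₃ : ℚ) * ((q : ℚ)⁻¹) ^ mc
  have hs₃ : s₃ ∈ qInt q :=
    mul_mem (intCast_mem_qInt q k₃) (pow_mem (inv_mem_qInt hq'.ne_zero) _)
  set γ₃ := γ₂ * lQ ((M : ℚ) * s₃) with hγ₃def
  have hγ₃ : γ₃ ∈ gPrin q M := mul_mem hγ₂ (lQ_mem_gPrin hs₃)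
  have hd₃ : γ₃ 1 1 = D := by simp [hγ₃def, mul_apply_two, hd₂]
  have hc₃ : γ₃ 1 0 = (M : ℚ) * y := by
    have hk' : ((y : ℚ) * (q : ℚ) ^ mc - C₀) = (D : ℚ) * k₃ := by exact_mod_cast hk₃
    simp only [hγ₃def, mul_apply_two, lQ_00, lQ_10, mul_one, hc₂, hd₂, s₃, inv_pow]
    rw [show tc = (C₀ : ℚ) / (q : ℚ) ^ mc by rw [eq_div_iff (pow_ne_zero _ hq0), hC₀]]
    field_simp
    linear_combination -hk'
  have hrel : ∀ j, ψ (hConj q j γ₃) = ψ (hConj q j γ) := fun j => by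
    rw [stepl hγ₂ hs₃, stepx hγ₁ hs₂, hrel₁]
  have hMD : (M : ℤ) ∣ (D : ℤ) - 1 := by
    obtain ⟨t, ⟨n, z, hz⟩, e⟩ := hγ₃ 1 1
    simp [hd₃] at e
    refine (IsCoprime.pow_right (n := n) hqM'.symm).dvd_of_dvd_mul_right ⟨z, ?_⟩
    have : ((((D : ℤ) - 1) * (q : ℤ) ^ n : ℤ) : ℚ) = (((M : ℤ) * z : ℤ) : ℚ) := by
      push_cast
      rw [← hz]
      linear_combination ((q : ℚ) ^ n) * e
    exact_mod_cast this
  -- the periods
  set f : ℤ → F := fun j => ψ (hConj q j γ) with hf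
  let per : AddSubgroup ℤ :=
    { carrier := {L | ∀ j, f (j + L) = f j}
      zero_mem' := fun j => by rw [add_zero]
      add_mem' := fun {a b} ha hb j => by rw [← add_assoc, hb, ha]
      neg_mem' := fun {a} ha j => by
        have := ha (j + -a)
        rw [neg_add_cancel_right] at this
        exact this.symm }
  have hperiod : ∀ ℓ : ℕ, ℓ.Prime → q ≠ ℓ → ((M : ℤ) * M * y) ∣ (ℓ : ℤ) - D →
      ((ℓ : ℤ) - 1) ∈ per := by
    intro ℓ hℓ hqℓ ⟨t, ht⟩ j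
    haveI := Fact.mk hℓ
    set γ₄ := γ₃ * xQ ((M : ℚ) * (t : ℚ)) with hγ₄def
    have hγ₄ : γ₄ ∈ gPrin q M := mul_mem hγ₃ (xQ_mem_gPrin (intCast_mem_qInt q t))
    have hd₄ : γ₄ 1 1 = (ℓ : ℚ) := by
      have ht' : ((ℓ : ℚ) - D) = (M : ℚ) * M * y * t := by exact_mod_cast ht
      simp [hγ₄def, mul_apply_two, hc₃, hd₃]
      linear_combination -ht'
    have hc₄ : γ₄ 1 0 = (M : ℚ) * y := by simp [hγ₄def, mul_apply_two, hc₃]
    have hrel₄ : ∀ j, f j = ψ (hConj q j γ₄) := fun j => by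
      rw [stepx hγ₃ (intCast_mem_qInt q t), hrel]
    obtain ⟨kk, hkk⟩ : (ℓ : ℤ) ∣ (q : ℤ) ^ (2 * (ℓ - 1)) - 1 := by
      rw [← ZMod.intCast_zmod_eq_zero_iff_dvd]
      push_cast
      rw [mul_comm 2, pow_mul, ZMod.pow_card_sub_one_eq_one (fun h => hqℓ
        (((Nat.prime_dvd_prime_iff_eq hℓ hq').mp ((ZMod.natCast_eq_zero_iff _ _).mp h)).symm)),
        one_pow, sub_self]
    set s : ℚ := (y : ℚ) * ((q : ℚ) ^ j) ^ 2 * kk
    have hs : s ∈ qInt q := mul_mem (mul_mem (natCast_mem_qInt q y)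
      (pow_mem (zpow_mem_qInt hq'.ne_zero _) _)) (intCast_mem_qInt q kk)
    rw [hrel₄, hrel₄]
    clear_value γ₄
    have hmem := hConj_mem_gPrin j hγ₄
    calc ψ (hConj q (j + ((ℓ : ℤ) - 1)) γ₄) = ψ (hConj q j γ₄ * lQ ((M : ℚ) * s)) := by
          refine eq_of_row hadd hx (hConj_mem_gPrin _ hγ₄) (mul_mem hmem (lQ_mem_gPrin hs)) ?_ ?_
          · have hkk' : ((q : ℚ) ^ (2 * (ℓ - 1)) - 1) = (ℓ : ℚ) * kk := by exact_mod_cast hkk
            rw [(hConj_row _ _).1, mul_apply_two, (hConj_row _ _).1, (hConj_row _ _).2, lQ_00,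
              lQ_10, hc₄, hd₄, show (ℓ : ℤ) - 1 = ((ℓ - 1 : ℕ) : ℤ) by
                rw [Nat.cast_sub hℓ.one_le]; simp, zpow_add₀ hq0, zpow_natCast]
            rw [pow_mul'] at hkk'
            linear_combination ((M : ℚ) * y * ((q : ℚ) ^ j) ^ 2) * hkk'
          · rw [(hConj_row _ _).2, mul_apply_two, (hConj_row _ _).2, lQ_01, lQ_11]
            ring
      _ = ψ (hConj q j γ₄) := by
          rw [hadd _ hmem _ (lQ_mem_gPrin hs), hl s hs, add_zero]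
  obtain ⟨g, hg⟩ := Int.subgroup_cyclic per
  have hgmem : ∀ {L : ℤ}, L ∈ per → (g.natAbs : ℤ) ∣ L := fun {L} hL => by
    rw [hg, AddSubgroup.mem_closure_singleton] at hL
    obtain ⟨n, rfl⟩ := hL
    rw [zsmul_eq_mul, Int.natAbs_dvd]
    exact dvd_mul_left _ _
  have hD1 : (g.natAbs : ℤ) ∣ (D : ℤ) - 1 := hgmem (hperiod D hDp hqD (by simp))
  have hD2 : 2 ≤ D := hDp.two_le
  have hg0 : g.natAbs ≠ 0 := fun h => by
    rw [h, Nat.cast_zero, zero_dvd_iff] at hD1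
    omega
  have hgD : g.natAbs < D := by
    have := Int.le_of_dvd (by omega) hD1
    omega
  have hyg : ¬ y ∣ g.natAbs := fun h => by
    have := Nat.le_of_dvd (Nat.pos_of_ne_zero hg0) h
    omega
  have key : (g.natAbs : ℤ) ∣ 2 * ((M : ℤ) * M) := by
    refine dvd_two_mul_of_forall hg0 fun s hs => ?_
    set g' := g.natAbs
    obtain ⟨u₁, u₂, hu12⟩ := Nat.isCoprime_iff_coprime.mpr (hyp.coprime_iff_not_dvd.mpr hyg)
    set u : ℤ := D + (M : ℤ) * M * y * (u₁ * s) with hu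
    obtain ⟨e, he⟩ := hD1
    have huu : u = (1 + (M : ℤ) * M * s) + (g' : ℤ) * (e - (M : ℤ) * M * u₂ * s) := by
      rw [hu]
      linear_combination ((M : ℤ) * M * s) * hu12 + he
    have hug : IsCoprime u (g' : ℤ) := by rw [huu]; exact IsCoprime.add_mul_left_left hs _
    have huM : IsCoprime u (M : ℤ) := by
      obtain ⟨eM, heM⟩ := hMD
      rw [show u = 1 + (M : ℤ) * (eM + (M : ℤ) * y * (u₁ * s)) by
        rw [hu]; linear_combination heM]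
      exact IsCoprime.add_mul_left_left isCoprime_one_left _
    have huy : IsCoprime u (y : ℤ) := by
      rw [show u = (D : ℤ) + (y : ℤ) * ((M : ℤ) * M * (u₁ * s)) by rw [hu]; ring]
      refine IsCoprime.add_mul_left_left (Nat.isCoprime_iff_coprime.mpr ?_) _
      exact (Nat.coprime_primes hDp hyp).mpr (by omega)
    have hn0 : M * M * y * g' ≠ 0 :=
      mul_ne_zero (mul_ne_zero (mul_ne_zero hM hM) hyp.ne_zero) hg0
    obtain ⟨ℓ, hℓgt, hℓ, hℓmod⟩ := Nat.forall_exists_prime_gt_and_zmodEq q (q := M * M * y * g')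
      (a := u) hn0 (by push_cast; exact ((huM.mul_right huM).mul_right huy).mul_right hug)
    obtain ⟨w, hw⟩ := (Int.modEq_iff_dvd.mp hℓmod.symm)
    push_cast at hw
    have hℓ1 := hgmem (hperiod ℓ hℓ (by omega)
      ⟨u₁ * s + (g' : ℤ) * w, by linear_combination hw⟩)
    obtain ⟨o, ho⟩ := hℓ1
    exact ⟨o - (M : ℤ) * M * y * w - (e - (M : ℤ) * M * u₂ * s), by
      linear_combination ho - hw - huu⟩
  have hmem : ((2 * M ^ 2 : ℕ) : ℤ) ∈ per := by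
    rw [hg, AddSubgroup.mem_closure_singleton]
    obtain ⟨n, hn⟩ := Int.natAbs_dvd.mp key
    exact ⟨n, by rw [zsmul_eq_mul, Int.cast_eq]; push_cast; linear_combination -hn⟩
  have := hmem 0
  simp only [zero_add, hf, hConj_zero] at this
  exact this

end Fermat.Agent.Raise
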