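/-
The key lemma of level raising: a homomorphism out of `Γ₀(N)[1/q]` killing parabolic elements,
eigen for one Hecke operator away from the Eisenstein values, vanishes on `Γ₀(N)`.
-/
import Fermat.Agent.Raise.Periodic
import Fermat.Agent.GalRep.HeckeHom

set_option autoImplicit false
set_option linter.unusedSectionVars false

noncomputable section

namespace Fermat.Agent.Raise

open CongruenceSubgroup
open Fermat.Agent.GalRep (GoodIndex heckeRep trCoef tr_unique trSpec trIdx gMat)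
open scoped MatrixGroups

/-- An element of `SL(2, ℤ)` from its entries. -/
def mkSL (a b c d : ℤ) (h : a * d - b * c = 1) : SL(2, ℤ) :=
  ⟨!![a, b; c, d], by rw [Matrix.det_fin_two_of]; exact h⟩

section Entries

variable (a b c d : ℤ) (h : a * d - b * c = 1)

@[simp] theorem mkSL_00 : mkSL a b c d h 0 0 = a := rfl
@[simp] theorem mkSL_01 : mkSL a b c d h 0 1 = b := rfl
@[simp] theorem mkSL_10 : mkSL a b c d h 1 0 = c := rfl
@[simp] theorem mkSL_11 : mkSL a b c d h 1 1 = d := rfl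

end Entries

/-- Lower unipotent elements of `SL(2, ℤ)`. -/
def lZ (c : ℤ) : SL(2, ℤ) := mkSL 1 0 c 1 (by ring)

@[simp] theorem lZ_00 (c : ℤ) : lZ c 0 0 = 1 := rfl
@[simp] theorem lZ_01 (c : ℤ) : lZ c 0 1 = 0 := rfl
@[simp] theorem lZ_10 (c : ℤ) : lZ c 1 0 = c := rfl
@[simp] theorem lZ_11 (c : ℤ) : lZ c 1 1 = 1 := rfl

theorem lZ_mul (a b : ℤ) : lZ a * lZ b = lZ (a + b) :=
  Matrix.SpecialLinearGroup.ext _ _ fun i j => by
    fin_cases i <;> fin_cases j <;> simp [Matrix.mul_apply, Fin.sum_univ_two]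

theorem lZ_zpow (c n : ℤ) : lZ c ^ n = lZ (n * c) := by
  have h0 : lZ 0 = 1 := Matrix.SpecialLinearGroup.ext _ _ fun i j => by
    fin_cases i <;> fin_cases j <;> simp
  let L : Multiplicative ℤ →* SL(2, ℤ) := MonoidHom.mk' (fun a => lZ (Multiplicative.toAdd a))
    fun a b => (lZ_mul _ _).symm
  show L (Multiplicative.ofAdd c) ^ n = L (Multiplicative.ofAdd (n * c))
  rw [← map_zpow, ← ofAdd_zsmul, zsmul_eq_mul, Int.cast_eq]

theorem toQ_lZ (c : ℤ) : toQ (lZ c) = lQ c :=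
  ext_two (by rw [toQ_apply]; simp) (by rw [toQ_apply]; simp) (by rw [toQ_apply]; simp)
    (by rw [toQ_apply]; simp)

theorem lZ_mem {N : ℕ} {c : ℤ} (h : (N : ℤ) ∣ c) : lZ c ∈ Gamma0 N :=
  Gamma0_mem.mpr ((ZMod.intCast_zmod_eq_zero_iff_dvd _ _).mpr (by simpa using h))

theorem intCast_eq_one_iff {n : ℕ} {x : ℤ} : (x : ZMod n) = 1 ↔ (n : ℤ) ∣ x - 1 := by
  rw [← ZMod.intCast_zmod_eq_zero_iff_dvd, Int.cast_sub, Int.cast_one, sub_eq_zero]

theorem mem_gamma0_iff_dvd {N : ℕ} {γ : SL(2, ℤ)} : γ ∈ Gamma0 N ↔ (N : ℤ) ∣ γ 1 0 := by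
  rw [Gamma0_mem, ZMod.intCast_zmod_eq_zero_iff_dvd]

/-- Conjugation by `diag(t, 1)`. -/
def dFun (t : ℚˣ) (g : SLQ) : SLQ :=
  ⟨!![g 0 0, (t : ℚ) * g 0 1; g 1 0 / (t : ℚ), g 1 1], by
    rw [Matrix.det_fin_two_of]
    field_simp
    linear_combination det_eq g⟩

@[simp] theorem dFun_00 (t : ℚˣ) (g : SLQ) : dFun t g 0 0 = g 0 0 := rfl
@[simp] theorem dFun_01 (t : ℚˣ) (g : SLQ) : dFun t g 0 1 = (t : ℚ) * g 0 1 := rfl
@[simp] theorem dFun_10 (t : ℚˣ) (g : SLQ) : dFun t g 1 0 = g 1 0 / (t : ℚ) := rfl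
@[simp] theorem dFun_11 (t : ℚˣ) (g : SLQ) : dFun t g 1 1 = g 1 1 := rfl

/-- Conjugation by `diag(t, 1)`, as a homomorphism. -/
def dConj (t : ℚˣ) : SLQ →* SLQ where
  toFun := dFun t
  map_one' := ext_two (by simp) (by simp) (by simp) (by simp)
  map_mul' g h := by
    refine ext_two ?_ ?_ ?_ ?_
    · simp [mul_apply_two]; field_simp
    · simp [mul_apply_two]; ring
    · simp [mul_apply_two]; ring
    · simp [mul_apply_two]; field_simp

@[simp] theorem dConj_00 (t : ℚˣ) (g : SLQ) : dConj t g 0 0 = g 0 0 := rfl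
@[simp] theorem dConj_01 (t : ℚˣ) (g : SLQ) : dConj t g 0 1 = (t : ℚ) * g 0 1 := rfl
@[simp] theorem dConj_10 (t : ℚˣ) (g : SLQ) : dConj t g 1 0 = g 1 0 / (t : ℚ) := rfl
@[simp] theorem dConj_11 (t : ℚˣ) (g : SLQ) : dConj t g 1 1 = g 1 1 := rfl

theorem dConj_mem {q N ℓ : ℕ} [Fact q.Prime] (hℓ : (ℓ : ℚ) ≠ 0) {g : SLQ} (hg : g ∈ gLev q (N * ℓ)) :
    dConj (Units.mk0 (ℓ : ℚ) hℓ) g ∈ gLev q N := by
  obtain ⟨he, t, ht, hc⟩ := hg
  have hc' : dConj (Units.mk0 (ℓ : ℚ) hℓ) g 1 0 = N * t := by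
    simp [hc]
    field_simp
  refine ⟨fun i j => ?_, t, ht, hc'⟩
  fin_cases i <;> fin_cases j
  · exact he 0 0
  · exact mul_mem (natCast_mem_qInt q ℓ) (he 0 1)
  · exact hc' ▸ mul_mem (natCast_mem_qInt q N) ht
  · exact he 1 1

theorem gPrin_le_gLev {q M : ℕ} [Fact q.Prime] : gPrin q M ≤ gLev q M := by
  intro g hg
  obtain ⟨t, ht, e⟩ := hg 1 0
  exact ⟨fun i j => gPrin_mem_qInt hg i j, t, ht, by simpa using e⟩

theorem gLev_mono {q N M : ℕ} [Fact q.Prime] (h : N ∣ M) : gLev q M ≤ gLev q N := by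
  intro g hg
  obtain ⟨k, rfl⟩ := h
  obtain ⟨he, t, ht, hc⟩ := hg
  exact ⟨he, k * t, mul_mem (natCast_mem_qInt q k) ht, by rw [hc]; push_cast; ring⟩

theorem toQ_mem_gPrin {q M : ℕ} [Fact q.Prime] {γ : SL(2, ℤ)} (h00 : (M : ℤ) ∣ γ 0 0 - 1)
    (h01 : (M : ℤ) ∣ γ 0 1) (h10 : (M : ℤ) ∣ γ 1 0) (h11 : (M : ℤ) ∣ γ 1 1 - 1) :
    toQ γ ∈ gPrin q M := by
  intro i j
  fin_cases i <;> fin_cases j
  · obtain ⟨k, hk⟩ := h00
    refine ⟨k, intCast_mem_qInt q k, ?_⟩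
    simp [toQ_apply, eq_add_of_sub_eq hk, add_comm]
  · obtain ⟨k, hk⟩ := h01
    exact ⟨k, intCast_mem_qInt q k, by simp [toQ_apply, hk]⟩
  · obtain ⟨k, hk⟩ := h10
    exact ⟨k, intCast_mem_qInt q k, by simp [toQ_apply, hk]⟩
  · obtain ⟨k, hk⟩ := h11
    refine ⟨k, intCast_mem_qInt q k, ?_⟩
    simp [toQ_apply, eq_add_of_sub_eq hk, add_comm]

section Kill

variable {q N : ℕ} [Fact q.Prime] {F : Type} [AddCommGroup F] {φ : SLQ → F}

/-- A homomorphism on `Γ₀(N)[1/q]`. -/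
def IsLevHom (q N : ℕ) (φ : SLQ → F) : Prop :=
  ∀ g ∈ gLev q N, ∀ h ∈ gLev q N, φ (g * h) = φ g + φ h

variable (hadd : IsLevHom q N φ)

include hadd

theorem IsLevHom.map_one : φ 1 = 0 := by
  have := hadd 1 (one_mem _) 1 (one_mem _)
  rwa [one_mul, eq_comm, add_eq_left] at this

theorem IsLevHom.map_inv {g : SLQ} (hg : g ∈ gLev q N) : φ g⁻¹ = -φ g := by
  have := hadd g hg g⁻¹ (inv_mem hg)
  rw [mul_inv_cancel, IsLevHom.map_one hadd] at this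
  exact eq_neg_of_add_eq_zero_right this.symm

theorem IsLevHom.map_conj {g x : SLQ} (hg : g ∈ gLev q N) (hx : x ∈ gLev q N) :
    φ (x * g * x⁻¹) = φ g := by
  rw [hadd _ (mul_mem hx hg) _ (inv_mem hx), hadd _ hx _ hg, IsLevHom.map_inv hadd hx]
  abel

/-- A family of elements additive in the parameter, parabolic at integral parameters. -/
theorem IsLevHom.family_eq_zero (hF : QFree q F)
    (hpar : ∀ γ ∈ Gamma0 N,
      ((γ : SL(2, ℤ)) : Matrix (Fin 2) (Fin 2) ℤ).trace ^ 2 = 4 → φ (toQ γ) = 0)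
    {P : ℚ → SLQ} (hP : ∀ s ∈ qInt q, P s ∈ gLev q N) (hmul : ∀ s t, P s * P t = P (s + t))
    (hint : ∀ z : ℤ, ∃ γ ∈ Gamma0 N, toQ γ = P z ∧ γ 0 0 + γ 1 1 = 2) {s : ℚ}
    (hs : s ∈ qInt q) : φ (P s) = 0 := by
  refine eq_zero_of_additive (f := fun s => φ (P s)) hF
    (fun a ha b hb => by rw [← hmul]; exact hadd _ (hP a ha) _ (hP b hb)) (fun z => ?_) hs
  obtain ⟨γ, hγ, e, htr⟩ := hint z
  show φ (P z) = 0
  rw [← e]
  exact hpar γ hγ (by rw [Matrix.trace_fin_two, htr]; norm_num)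

end Kill

/-- The key vanishing lemma. -/
theorem levHom_eq_zero {q N : ℕ} [Fact q.Prime] [NeZero N] {F : Type} [AddCommGroup F]
    {φ : SLQ → F} (hqN : ¬ q ∣ N) (hF : QFree q F) (hadd : IsLevHom q N φ)
    (hpar : ∀ γ ∈ Gamma0 N,
      ((γ : SL(2, ℤ)) : Matrix (Fin 2) (Fin 2) ℤ).trace ^ 2 = 4 → φ (toQ γ) = 0)
    {ℓ : ℕ} (hg : GoodIndex N ℓ) (hℓq : ℓ ≠ q)
    (hℓbad : ¬ (ℓ : ℤ) ∣ (q : ℤ) ^ (4 * N ^ 2) - 1) {a : ℤ}
    (heig : ∀ γ : Gamma0 N,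
      ∑ i, φ (toQ (trCoef hg γ i : SL(2, ℤ))) = a • φ (toQ (γ : SL(2, ℤ))))
    (hne : ∀ v : F, (a ^ 2 - ((ℓ : ℤ) + 1) ^ 2) • v = 0 → v = 0)
    {m : ℕ} (hgB : GoodIndex N m) (hB1 : (N : ℤ) ∣ (m : ℤ) - 1) {b : ℤ}
    (heigB : ∀ γ : Gamma0 N,
      ∑ i, φ (toQ (trCoef hgB γ i : SL(2, ℤ))) = b • φ (toQ (γ : SL(2, ℤ))))
    (hneB : ∀ v : F, (b - ((m : ℤ) + 1)) • v = 0 → v = 0) :
    ∀ γ ∈ Gamma0 N, φ (toQ γ) = 0 := by
  classical
  have hℓ := hg.prime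
  haveI := Fact.mk hℓ
  have hℓ0 : (ℓ : ℚ) ≠ 0 := Nat.cast_ne_zero.mpr hℓ.ne_zero
  set D := dConj (Units.mk0 (ℓ : ℚ) hℓ0)
  set M := N * ℓ with hMdef
  have hM0 : M ≠ 0 := mul_ne_zero (NeZero.ne N) hℓ.ne_zero
  have hqM : ¬ q ∣ M := fun h => ((Fact.out : q.Prime).dvd_mul.mp h).elim hqN fun h =>
    hℓq ((Nat.prime_dvd_prime_iff_eq Fact.out hℓ).mp h).symm
  have hcop : IsCoprime (ℓ : ℤ) (N : ℤ) :=
    Nat.isCoprime_iff_coprime.mpr (hℓ.coprime_iff_not_dvd.mpr hg.not_dvd)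
  set ψ : SLQ → F := fun g => φ (D g) with hψ
  have hψadd : ∀ g ∈ gLev q M, ∀ h ∈ gLev q M, ψ (g * h) = ψ g + ψ h := fun g hg' h hh => by
    rw [hψ]
    simp only [map_mul]
    exact hadd _ (dConj_mem hℓ0 hg') _ (dConj_mem hℓ0 hh)
  have hlQ : ∀ z : ℤ, lQ ((N : ℚ) * z) ∈ gLev q 1 := fun z =>
    gLev_mono (one_dvd N) (lQ_mem (intCast_mem_qInt q z))
  -- conjugates by lower unipotents
  set C : ℤ → SLQ → SLQ := fun w g => lQ ((N : ℚ) * w) * g * lQ (-((N : ℚ) * w)) with hCdef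
  have hC : ∀ w g, C w g = lQ ((N : ℚ) * w) * g * (lQ ((N : ℚ) * w))⁻¹ := fun w g => by
    rw [lQ_inv]
  have hCmem : ∀ w {g : SLQ}, g ∈ gPrin q M → C w g ∈ gPrin q M := fun w g hgm => by
    rw [hC]; exact conj_mem_gPrin (hlQ w).1 hgm
  have hCadd : ∀ w, ∀ g ∈ gPrin q M, ∀ h ∈ gPrin q M,
      ψ (C w (g * h)) = ψ (C w g) + ψ (C w h) := fun w g hgm h hhm => by
    rw [← hψadd _ (gPrin_le_gLev (hCmem w hgm)) _ (gPrin_le_gLev (hCmem w hhm))]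
    congr 1
    rw [hC, hC, hC]
    group
  have hmulC : ∀ (w : ℤ) (P : ℚ → SLQ), (∀ s t, P s * P t = P (s + t)) → ∀ s t,
      D (C w (P s)) * D (C w (P t)) = D (C w (P (s + t))) := fun w P hP s t => by
    rw [← map_mul, hC, hC, hC, ← hP]
    congr 1
    group
  have hCx : ∀ w : ℤ, ∀ s ∈ qInt q, ψ (C w (xQ ((M : ℚ) * s))) = 0 := fun w s hs => by
    refine IsLevHom.family_eq_zero hadd hF hpar (P := fun s => D (C w (xQ ((M : ℚ) * s))))
      (fun t ht => dConj_mem hℓ0 (gPrin_le_gLev (hCmem w (xQ_mem_gPrin ht))))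
      (hmulC w _ fun a b => by rw [xQ_mul, mul_add]) (fun z => ?_) hs
    refine ⟨mkSL (1 - (N : ℤ) ^ 2 * ℓ * w * z) ((N : ℤ) * ℓ ^ 2 * z)
      (-((N : ℤ) ^ 3 * w ^ 2 * z)) (1 + (N : ℤ) ^ 2 * ℓ * w * z) (by ring),
      mem_gamma0_iff_dvd.mpr ?_, ?_, ?_⟩
    · rw [mkSL_10]
      exact dvd_neg.mpr ((dvd_pow_self (N : ℤ) three_ne_zero).mul_right _ |>.mul_right _)
    · refine ext_two ?_ ?_ ?_ ?_ <;> rw [toQ_apply] <;> simp [D, hCdef, mul_apply_two, hMdef]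
      all_goals (try field_simp)
      all_goals (try ring)
    · simp
  have hCl : ∀ w : ℤ, ∀ s ∈ qInt q, ψ (C w (lQ ((M : ℚ) * s))) = 0 := fun w s hs => by
    refine IsLevHom.family_eq_zero hadd hF hpar (P := fun s => D (C w (lQ ((M : ℚ) * s))))
      (fun t ht => dConj_mem hℓ0 (gPrin_le_gLev (hCmem w (lQ_mem_gPrin ht))))
      (hmulC w _ fun a b => by rw [lQ_mul, mul_add]) (fun z => ?_) hs
    refine ⟨lZ (N * z), lZ_mem (dvd_mul_right _ _), ?_, by simp⟩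
    rw [toQ_lZ]
    refine ext_two ?_ ?_ ?_ ?_ <;> simp [D, hCdef, mul_apply_two, hMdef]
    field_simp
    ring
  -- invariance under the torus, then under a lower unipotent
  set e : ℕ := 2 * M ^ 2 with he
  have hC0 : ∀ g, C 0 g = g := fun g => by simp [hCdef, lQ_zero]
  have htor : ∀ w : ℤ, ∀ g ∈ gPrin q M, ψ (C w (hConj q e g)) = ψ (C w g) := fun w g hgm =>
    torus_invariant (ψ := fun g => ψ (C w g)) hM0 hqM (hCadd w) (hCx w) (hCl w) hgm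
  set lam : ℤ := (q : ℤ) ^ (2 * e) with hlam
  have hinv : ∀ g ∈ gPrin q M, ψ (C (lam - 1) g) = ψ g := by
    intro g hgm
    set g' := C (-1) g with hg'
    have h1 : C 1 g' = g := by
      rw [hg', hC, hC, Int.cast_neg, mul_neg, ← lQ_inv, Int.cast_one]
      group
    have hm : g' ∈ gPrin q M := hCmem _ hgm
    have h2 : C (lam - 1) g = C lam g' := by
      rw [hg', hC, hC, hC]
      simp only [lQ_inv, ← mul_assoc, lQ_mul]
      rw [mul_assoc _ (lQ _) (lQ _), lQ_mul]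
      congr 3 <;> push_cast <;> ring
    have h3 : hConj q e (C 1 g') = C lam (hConj q e g') := by
      rw [hC, hC, hConj_mul, hConj_mul, hConj_lQ, lQ_inv, hConj_lQ, lQ_inv, zpow_natCast]
      congr 3 <;> · rw [hlam]; push_cast; ring
    rw [h2, ← htor lam g' hm, ← h3]
    have := htor 0 (C 1 g') (hCmem 1 hm)
    rw [hC0, hC0] at this
    rw [this, h1]
  -- invariance under all of `Γ₀(N)`
  let Inv : Subgroup SL(2, ℤ) :=
    { carrier := {γ | γ ∈ Gamma0 N ∧ ∀ g ∈ gPrin q M, ψ (toQ γ * g * (toQ γ)⁻¹) = ψ g}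
      one_mem' := ⟨one_mem _, fun g _ => by simp⟩
      mul_mem' := fun {a b} ha hb => ⟨mul_mem ha.1 hb.1, fun g hgm => by
        have := ha.2 (toQ b * g * (toQ b)⁻¹)
          (conj_mem_gPrin (toQ_mem (q := q) hb.1).1 hgm)
        rw [← hb.2 g hgm, ← this, map_mul]
        congr 1
        group⟩
      inv_mem' := fun {a} ha => ⟨inv_mem ha.1, fun g hgm => by
        have := ha.2 (toQ a⁻¹ * g * (toQ a⁻¹)⁻¹)
          (conj_mem_gPrin (toQ_mem (q := q) (inv_mem ha.1)).1 hgm)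
        rw [map_inv] at this ⊢
        rw [← this]
        congr 1
        group⟩ }
  have hInvℓ : ∀ γ ∈ Gamma0 M, γ ∈ Inv := fun γ hγ =>
    ⟨mem_gamma0_iff_dvd.mpr ((Int.natCast_dvd_natCast.mpr (dvd_mul_right N ℓ)).trans
      (mem_gamma0_iff_dvd.mp hγ)), fun g hgm =>
      IsLevHom.map_conj (φ := ψ) hψadd (gPrin_le_gLev hgm) (toQ_mem hγ)⟩
  have hlam1 : ¬ (ℓ : ℤ) ∣ lam - 1 := by
    rw [← ZMod.intCast_zmod_eq_zero_iff_dvd] at hℓbad ⊢
    rw [hlam, he, hMdef]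
    push_cast at hℓbad ⊢
    rwa [show 2 * (2 * (N * ℓ) ^ 2) = 4 * N ^ 2 * ℓ * ℓ by ring, pow_mul, pow_mul,
      ZMod.pow_card, ZMod.pow_card]
  have hInvN : lZ (N : ℤ) ∈ Inv := by
    obtain ⟨u, v, huv⟩ := ((Nat.prime_iff_prime_int.mp hℓ).coprime_iff_not_dvd.mpr hlam1)
    have h1 : lZ ((N : ℤ) * (lam - 1)) ∈ Inv := ⟨lZ_mem (dvd_mul_right _ _), fun g hgm => by
      rw [toQ_lZ, Int.cast_mul, Int.cast_natCast, ← hC]
      exact hinv g hgm⟩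
    have h2 : lZ ((M : ℕ) : ℤ) ∈ Inv := hInvℓ _ (lZ_mem dvd_rfl)
    have e1 : lZ (N : ℤ) = lZ ((N : ℤ) * (lam - 1)) ^ v * lZ ((M : ℕ) : ℤ) ^ u := by
      rw [lZ_zpow, lZ_zpow, lZ_mul]
      refine Matrix.SpecialLinearGroup.ext _ _ fun i j => ?_
      fin_cases i <;> fin_cases j <;> simp
      rw [hMdef]; push_cast
      linear_combination -(N : ℤ) * huv
    rw [e1]
    exact mul_mem (zpow_mem h1 v) (zpow_mem h2 u)
  have hInv : ∀ γ ∈ Gamma0 N, γ ∈ Inv := by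
    have hT : ∀ n : ℤ, ModularGroup.T ^ n ∈ Inv := fun n => hInvℓ _ (mem_gamma0_iff_dvd.mpr (by
      simp [ModularGroup.coe_T_zpow]))
    have main : ∀ γ ∈ Gamma0 N, ¬ (ℓ : ℤ) ∣ γ 1 1 → γ ∈ Inv := by
      intro γ hγ hd
      obtain ⟨c₀, hc₀⟩ := mem_gamma0_iff_dvd.mp hγ
      obtain ⟨u, v, huv⟩ := (Nat.prime_iff_prime_int.mp hℓ).coprime_iff_not_dvd.mpr hd
      have hm : γ * lZ (N : ℤ) ^ (-(c₀ * v)) ∈ Inv := hInvℓ _ (mem_gamma0_iff_dvd.mpr ?_)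
      · simpa using mul_mem hm (zpow_mem hInvN (c₀ * v))
      · rw [lZ_zpow]
        simp [Matrix.mul_apply, Fin.sum_univ_two, hc₀, hMdef]
        exact ⟨c₀ * u, by linear_combination -(c₀ * (N : ℤ)) * huv⟩
    intro γ hγ
    by_cases hd : (ℓ : ℤ) ∣ γ 1 1
    · have := mul_mem (main (γ * ModularGroup.T ^ (1 : ℤ)) (mul_mem hγ (mem_gamma0_iff_dvd.mpr
        (by simp [ModularGroup.coe_T_zpow]))) ?_) (hT (-1))
      · simpa using this
      · simp [Matrix.mul_apply, Fin.sum_univ_two, ModularGroup.coe_T]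
        intro h
        have hc : (ℓ : ℤ) ∣ γ 1 0 := by simpa using dvd_sub h hd
        have hdet := γ.2
        rw [Matrix.det_fin_two] at hdet
        exact (Nat.prime_iff_prime_int.mp hℓ).not_dvd_one
          (hdet ▸ dvd_sub (hd.mul_left _) (hc.mul_left _))
    · exact main γ hγ hd
  -- the Hecke operator on the principal subgroup
  obtain ⟨u₁, v₁, huv₁⟩ := id hcop
  set h₀ : SL(2, ℤ) := mkSL u₁ (-v₁) (N : ℤ) (ℓ : ℤ) (by linear_combination huv₁) with hh₀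
  set u₀ : SL(2, ℤ) := mkSL 1 v₁ (-(N : ℤ)) ((ℓ : ℤ) * u₁) (by linear_combination huv₁) with hu₀
  have hrep : ∀ i : Option (Fin ℓ), ∃ u ∈ Gamma0 N, ∃ h ∈ Gamma0 N,
      heckeRep ℓ i = (u : Matrix (Fin 2) (Fin 2) ℤ) * (!![(ℓ : ℤ), 0; 0, 1] * (h : Matrix (Fin 2) (Fin 2) ℤ)) := by
    intro i
    cases i with
    | none => exact ⟨1, one_mem _, 1, one_mem _, by simp [heckeRep]⟩
    | some b =>
      refine ⟨u₀, mem_gamma0_iff_dvd.mpr (by simp [hu₀]), h₀ * ModularGroup.T ^ ((b : ℕ) : ℤ),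
        mul_mem (mem_gamma0_iff_dvd.mpr (by simp [hh₀]))
          (mem_gamma0_iff_dvd.mpr (by simp [-zpow_natCast, ModularGroup.coe_T_zpow])), ?_⟩
      ext r s
      simp only [Matrix.SpecialLinearGroup.coe_mul, ModularGroup.coe_T_zpow, Matrix.mul_apply,
        Fin.sum_univ_two]
      fin_cases r <;> fin_cases s <;> simp [heckeRep, hu₀, hh₀]
      · linear_combination -huv₁
      · linear_combination (-(b : ℕ) : ℤ) * huv₁
      · ring
      · linear_combination -(ℓ : ℤ) * huv₁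
  have hcoef : ∀ (γ : Gamma0 N), toQ (γ : SL(2, ℤ)) ∈ gPrin q M → ∀ i,
      φ (toQ (trCoef hg γ i : SL(2, ℤ))) = ψ (toQ (γ : SL(2, ℤ))) := by
    intro γ hγ i
    obtain ⟨u, hu, h, hh, hi⟩ := hrep i
    set γ₁ := h * (γ : SL(2, ℤ)) * h⁻¹ with hγ₁
    have hm : toQ γ₁ ∈ gPrin q M := by
      rw [hγ₁, map_mul, map_mul, map_inv]
      exact conj_mem_gPrin (toQ_mem (q := q) hh).1 hγ
    obtain ⟨c, hc⟩ : (M : ℤ) ∣ γ₁ 1 0 := by
      obtain ⟨t, ⟨n, z, hz⟩, et⟩ := hm 1 0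
      simp [toQ_apply] at et
      have hq1 : IsCoprime (M : ℤ) ((q : ℤ) ^ n) :=
        (Nat.isCoprime_iff_coprime.mpr
          ((Fact.out : q.Prime).coprime_iff_not_dvd.mpr hqM).symm).pow_right
      refine hq1.dvd_of_dvd_mul_right ⟨z, ?_⟩
      have : ((γ₁ 1 0 * (q : ℤ) ^ n : ℤ) : ℚ) = (((M : ℤ) * z : ℤ) : ℚ) := by
        push_cast; rw [et, ← hz]; ring
      exact_mod_cast this
    set γ₂ : SL(2, ℤ) := mkSL (γ₁ 0 0) ((ℓ : ℤ) * γ₁ 0 1) ((N : ℤ) * c) (γ₁ 1 1) (by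
      have := γ₁.2
      rw [Matrix.det_fin_two, hc, hMdef] at this
      push_cast at this
      linear_combination this) with hγ₂
    have hγ₂m : γ₂ ∈ Gamma0 N := mem_gamma0_iff_dvd.mpr (by simp [hγ₂])
    have hD : toQ γ₂ = D (toQ γ₁) := by
      refine ext_two ?_ ?_ ?_ ?_ <;> rw [toQ_apply] <;> simp [hγ₂, D, toQ_apply, hc, hMdef]
      field_simp
    have hgm : u * γ₂ * u⁻¹ ∈ Gamma0 N := mul_mem (mul_mem hu hγ₂m) (inv_mem hu)
    have heq : heckeRep ℓ i * gMat γ = gMat ⟨_, hgm⟩ * heckeRep ℓ i := by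
      have e1 : (!![(ℓ : ℤ), 0; 0, 1] : Matrix (Fin 2) (Fin 2) ℤ) * (γ₁ : Matrix (Fin 2) (Fin 2) ℤ) =
          (γ₂ : Matrix (Fin 2) (Fin 2) ℤ) * !![(ℓ : ℤ), 0; 0, 1] := by
        ext r s
        fin_cases r <;> fin_cases s <;>
          simp [hγ₂, Matrix.mul_apply, Fin.sum_univ_two, hc, hMdef] <;> ring
      show heckeRep ℓ i * ((γ : SL(2, ℤ)) : Matrix (Fin 2) (Fin 2) ℤ) =
        ((u * γ₂ * u⁻¹ : SL(2, ℤ)) : Matrix (Fin 2) (Fin 2) ℤ) * heckeRep ℓ i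
      have e2 : (h : Matrix (Fin 2) (Fin 2) ℤ) * ((γ : SL(2, ℤ)) : Matrix (Fin 2) (Fin 2) ℤ) =
          (γ₁ : Matrix (Fin 2) (Fin 2) ℤ) * (h : Matrix (Fin 2) (Fin 2) ℤ) := by
        rw [← Matrix.SpecialLinearGroup.coe_mul, ← Matrix.SpecialLinearGroup.coe_mul, hγ₁,
          inv_mul_cancel_right]
      have e3 : ((u⁻¹ : SL(2, ℤ)) : Matrix (Fin 2) (Fin 2) ℤ) * (u : Matrix (Fin 2) (Fin 2) ℤ) = 1 := by
        rw [← Matrix.SpecialLinearGroup.coe_mul, inv_mul_cancel, Matrix.SpecialLinearGroup.coe_one]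
      rw [hi]
      simp only [Matrix.SpecialLinearGroup.coe_mul, mul_assoc]
      rw [e2, ← mul_assoc _ (γ₁ : Matrix (Fin 2) (Fin 2) ℤ), e1, ← mul_assoc _ (u : Matrix (Fin 2) (Fin 2) ℤ),
        e3, one_mul, mul_assoc]
    rw [(tr_unique hg heq).2]
    show φ (toQ (u * γ₂ * u⁻¹)) = _
    rw [map_mul, map_mul, map_inv, IsLevHom.map_conj hadd (toQ_mem hγ₂m) (toQ_mem hu), hD]
    show ψ (toQ γ₁) = _
    rw [hγ₁, map_mul, map_mul, map_inv]
    exact (hInv h hh).2 _ hγ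
  have hT1 : ∀ γ : Gamma0 N, toQ (γ : SL(2, ℤ)) ∈ gPrin q M →
      a • φ (toQ (γ : SL(2, ℤ))) = ((ℓ : ℤ) + 1) • ψ (toQ (γ : SL(2, ℤ))) := fun γ hγ => by
    rw [← heig γ, Finset.sum_congr rfl fun i _ => hcoef γ hγ i, Finset.sum_const, Finset.card_univ,
      Fintype.card_option, Fintype.card_fin, ← natCast_zsmul, Nat.cast_add, Nat.cast_one]
  have hdeep : ∀ γ : SL(2, ℤ), γ ∈ Gamma (N * ℓ ^ 2) → φ (toQ γ) = 0 := by
    intro γ hγ
    obtain ⟨g00, g01, g10, g11⟩ := Gamma_mem.mp hγ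
    replace g00 := intCast_eq_one_iff.mp g00
    replace g11 := intCast_eq_one_iff.mp g11
    replace g01 := (ZMod.intCast_zmod_eq_zero_iff_dvd _ _).mp g01
    replace g10 := (ZMod.intCast_zmod_eq_zero_iff_dvd _ _).mp g10
    have hN2 : ((M : ℕ) : ℤ) ∣ ((N * ℓ ^ 2 : ℕ) : ℤ) := ⟨ℓ, by rw [hMdef]; push_cast; ring⟩
    have hγN : γ ∈ Gamma0 N :=
      mem_gamma0_iff_dvd.mpr ((Int.natCast_dvd_natCast.mpr (dvd_mul_right _ _)).trans g10)
    obtain ⟨b, hb⟩ := g01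
    set γ' : SL(2, ℤ) := mkSL (γ 0 0) ((N : ℤ) * ℓ * b) (γ 1 0 * ℓ) (γ 1 1) (by
      have := γ.2
      rw [Matrix.det_fin_two, hb] at this
      push_cast at this
      linear_combination this) with hγ'
    have hγm : toQ γ ∈ gPrin q M := toQ_mem_gPrin (hN2.trans g00) (hN2.trans ⟨b, hb⟩)
      (hN2.trans g10) (hN2.trans g11)
    have hγ'm : toQ γ' ∈ gPrin q M := toQ_mem_gPrin (by simpa [hγ'] using hN2.trans g00)
      (by simp [hγ', hMdef]) (by simpa [hγ'] using (hN2.trans g10).mul_right _)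
      (by simpa [hγ'] using hN2.trans g11)
    have hγ'N : γ' ∈ Gamma0 N :=
      mem_gamma0_iff_dvd.mpr (by simpa [hγ'] using (mem_gamma0_iff_dvd.mp hγN).mul_right _)
    have hD : D (toQ γ') = toQ γ := by
      refine ext_two ?_ ?_ ?_ ?_ <;> simp [D, hγ', toQ_apply, hb]
      ring
    have h1 := hT1 ⟨γ', hγ'N⟩ hγ'm
    simp only [hψ, hD] at h1
    have h2 : φ (toQ γ') = ψ (toQ γ) := by
      have hu := (tr_unique hg (γ := ⟨γ, hγN⟩) (g := ⟨γ', hγ'N⟩)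
        (i := some ⟨0, hℓ.pos⟩) (j := some ⟨0, hℓ.pos⟩) (by
          show heckeRep ℓ _ * (γ : Matrix (Fin 2) (Fin 2) ℤ) =
            (γ' : Matrix (Fin 2) (Fin 2) ℤ) * heckeRep ℓ _
          ext r s
          fin_cases r <;> fin_cases s <;>
            simp [heckeRep, hγ', Matrix.mul_apply, Fin.sum_univ_two, hb] <;> ring)).2
      have h3 := hcoef ⟨γ, hγN⟩ hγm (some ⟨0, hℓ.pos⟩)
      rwa [hu] at h3
    have h4 := hT1 ⟨γ, hγN⟩ hγm
    refine hne _ ?_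
    rw [sub_smul, sub_eq_zero, pow_two, pow_two, mul_smul, mul_smul]
    rw [h4, ← h1, h2, smul_comm]
  -- down to `Γ₁(N)`
  let Ker : Subgroup SL(2, ℤ) :=
    { carrier := {γ | γ ∈ Gamma0 N ∧ φ (toQ γ) = 0}
      one_mem' := ⟨one_mem _, by rw [map_one, IsLevHom.map_one hadd]⟩
      mul_mem' := fun {x y} hx hy => ⟨mul_mem hx.1 hy.1, by
        rw [map_mul, hadd _ (toQ_mem hx.1) _ (toQ_mem hy.1), hx.2, hy.2, add_zero]⟩
      inv_mem' := fun {x} hx => ⟨inv_mem hx.1, by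
        rw [map_inv, IsLevHom.map_inv hadd (toQ_mem hx.1), hx.2, neg_zero]⟩ }
  have hKT : ∀ n : ℤ, ModularGroup.T ^ n ∈ Ker := fun n => by
    have hm : ModularGroup.T ^ n ∈ Gamma0 N :=
      mem_gamma0_iff_dvd.mpr (by simp [ModularGroup.coe_T_zpow])
    exact ⟨hm, hpar _ hm (by simp [ModularGroup.coe_T_zpow, Matrix.trace_fin_two])⟩
  have hKL : ∀ c : ℤ, lZ ((N : ℤ) * c) ∈ Ker := fun c =>
    ⟨lZ_mem (dvd_mul_right _ _), hpar _ (lZ_mem (dvd_mul_right _ _))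
      (by simp [Matrix.trace_fin_two])⟩
  have hpr := Nat.prime_iff_prime_int.mp hℓ
  have hprin : ∀ g : SL(2, ℤ), (N : ℤ) ∣ g 0 0 - 1 → (N : ℤ) ∣ g 0 1 → (N : ℤ) ∣ g 1 0 →
      (N : ℤ) ∣ g 1 1 - 1 → ¬ (ℓ : ℤ) ∣ g 1 0 → g ∈ Ker := by
    intro g g00 g01 g10 g11 hc
    have hcu : IsCoprime ((N : ℤ) * g 1 0) ((ℓ : ℤ) ^ 2) :=
      ((hcop.mul_right (hpr.coprime_iff_not_dvd.mpr hc)).symm).pow_right
    obtain ⟨x, y, hxy⟩ := hcu
    set s := (1 - g 0 0) * x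
    set g₁ := ModularGroup.T ^ ((N : ℤ) * s) * g with hg₁
    have a1 : g₁ 0 0 = g 0 0 + (N : ℤ) * s * g 1 0 := by
      simp [hg₁, Matrix.mul_apply, Fin.sum_univ_two, ModularGroup.coe_T_zpow]
    have b1 : g₁ 0 1 = g 0 1 + (N : ℤ) * s * g 1 1 := by
      simp [hg₁, Matrix.mul_apply, Fin.sum_univ_two, ModularGroup.coe_T_zpow]
    have c1 : g₁ 1 0 = g 1 0 := by
      simp [hg₁, Matrix.mul_apply, Fin.sum_univ_two, ModularGroup.coe_T_zpow]
    obtain ⟨c₀, hc₀⟩ := g10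
    set g₂ := lZ ((N : ℤ) * -c₀) * g₁ with hg₂
    have a2 : g₂ 0 0 = g₁ 0 0 := by simp [hg₂, lZ, Matrix.mul_apply, Fin.sum_univ_two]
    have b2 : g₂ 0 1 = g₁ 0 1 := by simp [hg₂, lZ, Matrix.mul_apply, Fin.sum_univ_two]
    have c2 : g₂ 1 0 = g₁ 1 0 * (1 - g₁ 0 0) := by
      simp [hg₂, lZ, Matrix.mul_apply, Fin.sum_univ_two]
      rw [c1, hc₀]; ring
    set g₃ := ModularGroup.T ^ (-(g₂ 0 1)) * g₂ with hg₃
    have a3 : g₃ 0 0 = g₂ 0 0 - g₂ 0 1 * g₂ 1 0 := by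
      simp [hg₃, Matrix.mul_apply, Fin.sum_univ_two, ModularGroup.coe_T_zpow]; ring
    have b3 : g₃ 0 1 = g₂ 0 1 * (1 - g₂ 1 1) := by
      simp [hg₃, Matrix.mul_apply, Fin.sum_univ_two, ModularGroup.coe_T_zpow]; ring
    have c3 : g₃ 1 0 = g₂ 1 0 := by
      simp [hg₃, Matrix.mul_apply, Fin.sum_univ_two, ModularGroup.coe_T_zpow]
    have d3 : g₃ 1 1 = g₂ 1 1 := by
      simp [hg₃, Matrix.mul_apply, Fin.sum_univ_two, ModularGroup.coe_T_zpow]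
    have hA : (ℓ : ℤ) ^ 2 ∣ g₁ 0 0 - 1 := ⟨(g 0 0 - 1) * y, by
      rw [a1]; linear_combination (1 - g 0 0) * hxy⟩
    have hA' : (N : ℤ) ∣ g₁ 0 0 - 1 := by
      rw [a1, add_sub_right_comm]; exact dvd_add g00 ((dvd_mul_right _ _).mul_right _)
    have hB : (N : ℤ) ∣ g₁ 0 1 := by
      rw [b1]; exact dvd_add g01 ((dvd_mul_right _ _).mul_right _)
    have hNc : ((N : ℤ) * ℓ ^ 2) ∣ g₂ 1 0 := by
      rw [c2, c1, hc₀, mul_assoc]
      exact mul_dvd_mul_left _ (dvd_mul_of_dvd_right (dvd_sub_comm.mp hA) _)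
    have hD : ((N : ℤ) * ℓ ^ 2) ∣ g₂ 1 1 - 1 := by
      have hAA := hcop.symm.pow_right (n := 2) |>.mul_dvd hA' hA
      rw [← a2] at hAA
      have hdet := g₂.2
      rw [Matrix.det_fin_two] at hdet
      rw [show g₂ 1 1 - 1 = g₂ 0 1 * g₂ 1 0 - (g₂ 0 0 - 1) * g₂ 1 1 by linear_combination hdet]
      exact dvd_sub (hNc.mul_left _) (hAA.mul_right _)
    have h3 : g₃ ∈ Ker := by
      have hG : g₃ ∈ Gamma (N * ℓ ^ 2) := by
        have hn : ((N * ℓ ^ 2 : ℕ) : ℤ) = (N : ℤ) * (ℓ : ℤ) ^ 2 := by push_cast; rfl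
        refine Gamma_mem.mpr ⟨intCast_eq_one_iff.mpr ?_,
          (ZMod.intCast_zmod_eq_zero_iff_dvd _ _).mpr ?_,
          (ZMod.intCast_zmod_eq_zero_iff_dvd _ _).mpr (by rw [hn, c3]; exact hNc),
          intCast_eq_one_iff.mpr (by rw [hn, d3]; exact hD)⟩
        · rw [hn, a3, a2, sub_right_comm]
          exact dvd_sub (hcop.symm.pow_right (n := 2) |>.mul_dvd hA' hA) (hNc.mul_left _)
        · rw [hn, b3]
          exact dvd_mul_of_dvd_right (dvd_sub_comm.mp hD) _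
      exact ⟨mem_gamma0_iff_dvd.mpr (c3 ▸ (dvd_mul_right _ _).trans hNc), hdeep _ hG⟩
    have h2 : g₂ ∈ Ker := by
      have := mul_mem (hKT (g₂ 0 1)) h3
      rwa [hg₃, ← mul_assoc, ← zpow_add, add_neg_cancel, zpow_zero, one_mul] at this
    have h1 : g₁ ∈ Ker := by
      have := mul_mem (inv_mem (hKL (-c₀))) h2
      rwa [hg₂, inv_mul_cancel_left] at this
    have := mul_mem (inv_mem (hKT ((N : ℤ) * s))) h1
    rwa [hg₁, inv_mul_cancel_left] at this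
  have hker : ∀ γ ∈ Gamma0 N, (N : ℤ) ∣ γ 1 1 - 1 → φ (toQ γ) = 0 := by
    intro γ hγ hd
    have hc := mem_gamma0_iff_dvd.mp hγ
    have ha : (N : ℤ) ∣ γ 0 0 - 1 := by
      have hdet := γ.2
      rw [Matrix.det_fin_two] at hdet
      rw [show γ 0 0 - 1 = γ 0 1 * γ 1 0 - γ 0 0 * (γ 1 1 - 1) by linear_combination hdet]
      exact dvd_sub (hc.mul_left _) (hd.mul_left _)
    set g := ModularGroup.T ^ (-(γ 0 1)) * γ with hg'
    have e00 : g 0 0 = γ 0 0 - γ 0 1 * γ 1 0 := by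
      simp [hg', Matrix.mul_apply, Fin.sum_univ_two, ModularGroup.coe_T_zpow]; ring
    have e01 : g 0 1 = γ 0 1 * (1 - γ 1 1) := by
      simp [hg', Matrix.mul_apply, Fin.sum_univ_two, ModularGroup.coe_T_zpow]; ring
    have e10 : g 1 0 = γ 1 0 := by
      simp [hg', Matrix.mul_apply, Fin.sum_univ_two, ModularGroup.coe_T_zpow]
    have e11 : g 1 1 = γ 1 1 := by
      simp [hg', Matrix.mul_apply, Fin.sum_univ_two, ModularGroup.coe_T_zpow]
    have f00 : (N : ℤ) ∣ g 0 0 - 1 := by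
      rw [e00, sub_right_comm]; exact dvd_sub ha (hc.mul_left _)
    have f01 : (N : ℤ) ∣ g 0 1 := by rw [e01]; exact dvd_mul_of_dvd_right (dvd_sub_comm.mp hd) _
    clear_value g
    have hgK : g ∈ Ker := by
      by_cases hcℓ : (ℓ : ℤ) ∣ g 1 0
      · have hd' : ¬ (ℓ : ℤ) ∣ g 1 1 := fun h => hpr.not_dvd_one (by
          have hdet := g.2
          rw [Matrix.det_fin_two] at hdet
          exact hdet ▸ dvd_sub (h.mul_left _) (hcℓ.mul_left _))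
        have hm : g * lZ ((N : ℤ) * 1) ∈ Ker := by
          refine hprin _ ?_ ?_ ?_ ?_ ?_ <;>
            simp [Matrix.mul_apply, Fin.sum_univ_two]
          · rw [add_sub_right_comm]; exact dvd_add f00 (f01.mul_right _)
          · exact f01
          · exact e10 ▸ hc
          · exact e11 ▸ hd
          · rw [dvd_add_right hcℓ]
            exact fun h => (hpr.dvd_or_dvd h).elim hd' fun h => hg.not_dvd (by exact_mod_cast h)
        simpa using mul_mem hm (inv_mem (hKL 1))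
      · exact hprin g f00 f01 (e10 ▸ hc) (e11 ▸ hd) hcℓ
    have := mul_mem (hKT (γ 0 1)) hgK
    rw [hg', ← mul_assoc, ← zpow_add, add_neg_cancel, zpow_zero, one_mul] at this
    exact this.2
  -- the value depends on the lower right entry only
  intro γ hγ
  have hsame : ∀ i, φ (toQ (trCoef hgB ⟨γ, hγ⟩ i : SL(2, ℤ))) = φ (toQ γ) := by
    intro i
    set g := trCoef hgB ⟨γ, hγ⟩ i
    have hgd : (N : ℤ) ∣ (g : SL(2, ℤ)) 1 1 - γ 1 1 := by
      have e := congrFun (congrFun (trSpec hgB ⟨γ, hγ⟩ i) 1) 1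
      simp [gMat, Matrix.mul_apply, Fin.sum_univ_two] at e
      have hc := mem_gamma0_iff_dvd.mp g.2
      rw [← ZMod.intCast_zmod_eq_zero_iff_dvd] at hc hB1 ⊢
      push_cast at hB1 ⊢
      rw [sub_eq_zero] at hB1
      have e' := congrArg (fun z : ℤ => (z : ZMod N)) e
      push_cast at e'
      rw [hc, zero_mul, zero_add] at e'
      generalize trIdx hgB ⟨γ, hγ⟩ i = j at e'
      rcases i with _ | b <;> rcases j with _ | c <;>
        simp [heckeRep, hB1] at e' ⊢ <;> linear_combination -e'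
    have hm : γ⁻¹ * g ∈ Gamma0 N := mul_mem (inv_mem hγ) g.2
    have h0 : φ (toQ (γ⁻¹ * g)) = 0 := hker _ hm (by
      have hc := mem_gamma0_iff_dvd.mp hγ
      simp [Matrix.mul_apply, Fin.sum_univ_two, Matrix.adjugate_fin_two]
      have hdet := γ.2
      rw [Matrix.det_fin_two] at hdet
      rw [show -(γ 1 0 * (g : SL(2, ℤ)) 0 1) + γ 0 0 * (g : SL(2, ℤ)) 1 1 - 1 =
        γ 0 0 * ((g : SL(2, ℤ)) 1 1 - γ 1 1) + γ 1 0 * (-(g : SL(2, ℤ)) 0 1 - -γ 0 1) by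
          linear_combination hdet]
      exact dvd_add (hgd.mul_left _) (hc.mul_right _))
    rw [map_mul, map_inv, hadd _ (inv_mem (toQ_mem hγ)) _ (toQ_mem g.2),
      IsLevHom.map_inv hadd (toQ_mem hγ)] at h0
    exact (neg_add_eq_zero.mp h0).symm
  have h5 := heigB ⟨γ, hγ⟩
  rw [Finset.sum_congr rfl fun i _ => hsame i, Finset.sum_const, Finset.card_univ,
    Fintype.card_option, Fintype.card_fin, ← natCast_zsmul, Nat.cast_add, Nat.cast_one] at h5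
  refine hneB _ ?_
  simp only at h5
  rw [sub_smul, h5, sub_self]

end Fermat.Agent.Raise
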