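/-
Crossing numbers: an equivariant map from pairs of cusps to integral homomorphisms of a subgroup
of `SL(2, ℤ)`, written with integral binary quadratic forms in place of points.
-/
import Mathlib

set_option autoImplicit false

noncomputable section

namespace Fermat.Agent.Raise

open scoped MatrixGroups

/-- Integral `2 × 2` matrices. -/
abbrev ZMat : Type := Matrix (Fin 2) (Fin 2) ℤ

/-- Integral vectors. -/
abbrev ZVec : Type := Fin 2 → ℤ

/-- The determinant of two vectors. -/
def vdet (v w : ZVec) : ℤ := v 0 * w 1 - v 1 * w 0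

theorem vdet_mulVec (M : ZMat) (v w : ZVec) : vdet (M.mulVec v) (M.mulVec w) = M.det * vdet v w := by
  simp [vdet, Matrix.det_fin_two, Matrix.mulVec, dotProduct, Fin.sum_univ_two]
  ring

theorem vdet_swap (v w : ZVec) : vdet w v = -vdet v w := by simp [vdet]; ring

/-- The hexagonal form. -/
def hexForm (v w : ZVec) : ℤ := 2 * v 0 * w 0 - v 0 * w 1 - v 1 * w 0 + 2 * v 1 * w 1

theorem hexForm_comm (v w : ZVec) : hexForm v w = hexForm w v := by simp [hexForm]; ring

theorem hexForm_add_right (v w w' : ZVec) : hexForm v (w + w') = hexForm v w + hexForm v w' := by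
  simp [hexForm]; ring

theorem hexForm_smul_left (k : ℤ) (v w : ZVec) : hexForm (k • v) w = k * hexForm v w := by
  simp [hexForm]; ring

theorem sq_le_hexForm (v : ZVec) : v 0 ^ 2 + v 1 ^ 2 ≤ hexForm v v := by
  simp only [hexForm]
  nlinarith [sq_nonneg (v 0 - v 1)]

/-- The form transported by a matrix. -/
def pull (M : ZMat) (v w : ZVec) : ℤ := hexForm (M.mulVec v) (M.mulVec w)

theorem pull_comm (M : ZMat) (v w : ZVec) : pull M v w = pull M w v := hexForm_comm _ _

theorem pull_add_right (M : ZMat) (v w w' : ZVec) : pull M v (w + w') = pull M v w + pull M v w' := by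
  rw [pull, Matrix.mulVec_add, hexForm_add_right]; rfl

theorem pull_smul_left (M : ZMat) (k : ℤ) (v w : ZVec) : pull M (k • v) w = k * pull M v w := by
  rw [pull, Matrix.mulVec_smul, hexForm_smul_left]; rfl

theorem pull_mul (M X : ZMat) (v w : ZVec) :
    pull (M * X) v w = pull M (X.mulVec v) (X.mulVec w) := by
  rw [pull, pull, Matrix.mulVec_mulVec, Matrix.mulVec_mulVec]

/-- The mixed discriminant of two transported forms. -/
def mixDisc (M M' : ZMat) : ℤ :=
  pull M ![1, 0] ![1, 0] * pull M' ![0, 1] ![0, 1] + pull M' ![1, 0] ![1, 0] * pull M ![0, 1] ![0, 1]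
    - 2 * pull M ![1, 0] ![0, 1] * pull M' ![1, 0] ![0, 1]

theorem pull_polar (M M' : ZMat) (a b : ZVec) :
    pull M a a * pull M' b b + pull M' a a * pull M b b - 2 * pull M a b * pull M' a b =
      mixDisc M M' * vdet a b ^ 2 := by
  simp [mixDisc, pull, hexForm, vdet, Matrix.mulVec, dotProduct, Fin.sum_univ_two]
  ring

theorem exists_sq_le_pull {M : ZMat} (hM : M.det ≠ 0) :
    ∃ C : ℤ, 0 < C ∧ ∀ (a : ZVec) (i : Fin 2), a i ^ 2 ≤ C * pull M a a := by
  refine ⟨M 0 0 ^ 2 + M 0 1 ^ 2 + M 1 0 ^ 2 + M 1 1 ^ 2 + 1, by positivity, fun a i => ?_⟩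
  set u := M.mulVec a
  have hu := sq_le_hexForm u
  have e0 : M.det * a 0 = M 1 1 * u 0 - M 0 1 * u 1 := by
    simp [u, Matrix.det_fin_two, Matrix.mulVec, dotProduct, Fin.sum_univ_two]; ring
  have e1 : M.det * a 1 = M 0 0 * u 1 - M 1 0 * u 0 := by
    simp [u, Matrix.det_fin_two, Matrix.mulVec, dotProduct, Fin.sum_univ_two]; ring
  have h1 : a i ^ 2 ≤ (M.det * a i) ^ 2 := by
    rw [mul_pow]
    nlinarith [sq_nonneg (a i), sq_pos_iff.mpr hM]
  refine h1.trans ?_
  have key : ∀ x y : ℤ, x ^ 2 + y ^ 2 ≤ M 0 0 ^ 2 + M 0 1 ^ 2 + M 1 0 ^ 2 + M 1 1 ^ 2 + 1 →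
      (x * u 0 - y * u 1) ^ 2 ≤
        (M 0 0 ^ 2 + M 0 1 ^ 2 + M 1 0 ^ 2 + M 1 1 ^ 2 + 1) * pull M a a := fun x y h => by
    calc (x * u 0 - y * u 1) ^ 2 ≤ (x ^ 2 + y ^ 2) * (u 0 ^ 2 + u 1 ^ 2) := by
          nlinarith [sq_nonneg (x * u 1 + y * u 0)]
      _ ≤ _ := mul_le_mul h hu (by positivity) (by positivity)
  fin_cases i
  · simp only [Fin.zero_eta, e0]
    exact key _ _ (by nlinarith [sq_nonneg (M 0 0), sq_nonneg (M 1 0)])
  · simp only [Fin.mk_one, e1]
    have := key (M 1 0) (M 0 0) (by nlinarith [sq_nonneg (M 0 1), sq_nonneg (M 1 1)])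
    linarith [show (M 0 0 * u 1 - M 1 0 * u 0) ^ 2 = (M 1 0 * u 0 - M 0 0 * u 1) ^ 2 by ring]

theorem one_le_pull {M : ZMat} (hM : M.det ≠ 0) {a : ZVec} (ha : a ≠ 0) : 1 ≤ pull M a a := by
  obtain ⟨C, hC, h⟩ := exists_sq_le_pull hM
  obtain ⟨i, hi⟩ : ∃ i, a i ≠ 0 := Function.ne_iff.mp ha
  have := h a i
  nlinarith [sq_pos_iff.mpr hi]

theorem mixDisc_self (M : ZMat) : mixDisc M M = 6 * M.det ^ 2 := by
  simp [mixDisc, pull, hexForm, Matrix.det_fin_two, Matrix.mulVec, dotProduct, Fin.sum_univ_two]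
  ring

/-- The sign attached to a form and two vectors. -/
def sgn (M : ZMat) (v w : ZVec) : ℤ := (pull M v w).sign

theorem sgn_comm (M : ZMat) (v w : ZVec) : sgn M v w = sgn M w v := by rw [sgn, pull_comm, sgn]

theorem sgn_mul (M X : ZMat) (v w : ZVec) :
    sgn (M * X) v w = sgn M (X.mulVec v) (X.mulVec w) := by rw [sgn, sgn, pull_mul]

theorem mulVec_pair_injective {v w : ZVec} (h : vdet v w ≠ 0) {X Y : ZMat}
    (hv : X.mulVec v = Y.mulVec v) (hw : X.mulVec w = Y.mulVec w) : X = Y := by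
  have e : ∀ (Z : ZMat) (i : Fin 2), Z i 0 * vdet v w = Z.mulVec v i * w 1 - Z.mulVec w i * v 1 ∧
      Z i 1 * vdet v w = Z.mulVec w i * v 0 - Z.mulVec v i * w 0 := fun Z i => by
    simp [vdet, Matrix.mulVec, dotProduct, Fin.sum_univ_two]
    constructor <;> ring
  ext i j
  fin_cases j
  · exact mul_right_cancel₀ h (by rw [Fin.zero_eta, (e X i).1, (e Y i).1, hv, hw])
  · exact mul_right_cancel₀ h (by rw [Fin.mk_one, (e X i).2, (e Y i).2, hv, hw])

/-- Finitely many elements of `SL(2, ℤ)` move two independent vectors into a box. -/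
theorem finite_of_box {v w : ZVec} (h : vdet v w ≠ 0) (K : ℤ) :
    {g : SL(2, ℤ) | ∀ i, |(g : ZMat).mulVec v i| ≤ K ∧ |(g : ZMat).mulVec w i| ≤ K}.Finite := by
  refine Set.Finite.of_finite_image (f := fun g : SL(2, ℤ) =>
    ((g : ZMat).mulVec v, (g : ZMat).mulVec w)) ?_ ?_
  · refine Set.Finite.subset ((Set.finite_Icc (fun _ => -K) (fun _ => K)).prod
      (Set.finite_Icc (fun _ => -K) (fun _ => K))) ?_
    rintro _ ⟨g, hg, rfl⟩
    exact ⟨⟨fun i => (abs_le.mp (hg i).1).1, fun i => (abs_le.mp (hg i).1).2⟩,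
      ⟨fun i => (abs_le.mp (hg i).2).1, fun i => (abs_le.mp (hg i).2).2⟩⟩
  · intro g _ g' _ e
    exact Subtype.ext (mulVec_pair_injective h (congrArg Prod.fst e) (congrArg Prod.snd e))

theorem abs_le_of_pull {M : ZMat} {C K : ℤ} (hC : 0 < C)
    (hbd : ∀ (a : ZVec) (i : Fin 2), a i ^ 2 ≤ C * pull M a a) {a : ZVec}
    (ha : pull M a a ≤ K) (i : Fin 2) : |a i| ≤ C * K := by
  have h1 := (hbd a i).trans (mul_le_mul_of_nonneg_left ha hC.le)
  nlinarith [sq_abs (a i), abs_nonneg (a i)]

theorem finite_sgn_ne {M M' : ZMat} (hM : M.det ≠ 0) (hM' : M'.det ≠ 0) {v w : ZVec}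
    (h : vdet v w ≠ 0) :
    {g : SL(2, ℤ) | sgn (M' * g) v w ≠ sgn (M * g) v w}.Finite := by
  obtain ⟨C, hC, hbd⟩ := exists_sq_le_pull hM
  refine (finite_of_box h (C * (mixDisc M M' * vdet v w ^ 2))).subset fun g hg => ?_
  set a := (g : ZMat).mulVec v
  set b := (g : ZMat).mulVec w
  have hab : vdet a b = vdet v w := by rw [vdet_mulVec, g.2, one_mul]
  have hne : ∀ x : ZVec, (x = a ∨ x = b) → x ≠ 0 := by
    rintro x (rfl | rfl) h0 <;>
    · rw [h0] at hab
      simp [vdet] at hab
      exact h hab.symm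
  have hxx : pull M a b * pull M' a b ≤ 0 := by
    by_contra hpos
    apply hg
    rw [sgn_mul, sgn_mul]
    show (pull M' a b).sign = (pull M a b).sign
    rcases pos_and_pos_or_neg_and_neg_of_mul_pos (not_le.mp hpos) with ⟨h1, h2⟩ | ⟨h1, h2⟩
    · rw [Int.sign_eq_one_of_pos h1, Int.sign_eq_one_of_pos h2]
    · rw [Int.sign_eq_neg_one_of_neg h1, Int.sign_eq_neg_one_of_neg h2]
  have hid := pull_polar M M' a b
  rw [hab] at hid
  have q1 := one_le_pull hM (hne a (Or.inl rfl))
  have q2 := one_le_pull hM (hne b (Or.inr rfl))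
  have q1' := one_le_pull hM' (hne a (Or.inl rfl))
  have q2' := one_le_pull hM' (hne b (Or.inr rfl))
  intro i
  have ha : pull M a a ≤ mixDisc M M' * vdet v w ^ 2 := by
    nlinarith [mul_nonneg (zero_le_one.trans q1') (zero_le_one.trans q2)]
  have hb : pull M b b ≤ mixDisc M M' * vdet v w ^ 2 := by
    nlinarith [mul_nonneg (zero_le_one.trans q1) (zero_le_one.trans q2')]
  exact ⟨abs_le_of_pull hC hbd ha i, abs_le_of_pull hC hbd hb i⟩

/-- The three-term sign combination. -/
def triSgn (M : ZMat) (v w : ZVec) : ℤ := sgn M v w - sgn M w (v + w) - sgn M v (v + w)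

theorem triSgn_cases {M : ZMat} (hM : M.det ≠ 0) {v w : ZVec} (h : vdet v w ≠ 0)
    (hne : triSgn M v w ≠ -1) :
    pull M v w ≤ 0 ∧ 0 ≤ pull M v (v + w) ∧ 0 ≤ pull M w (v + w) := by
  have hv : v ≠ 0 := fun h0 => h (by simp [h0, vdet])
  have hw : w ≠ 0 := fun h0 => h (by simp [h0, vdet])
  have q1 := one_le_pull hM hv
  have q2 := one_le_pull hM hw
  have hid := pull_polar M M v w
  have hmix : 0 ≤ mixDisc M M := by
    rw [mixDisc_self]; positivity
  have hcs : pull M v w ^ 2 ≤ pull M v v * pull M w w := by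
    nlinarith [mul_nonneg hmix (sq_nonneg (vdet v w))]
  have e13 : pull M v (v + w) = pull M v v + pull M v w := pull_add_right _ _ _ _
  have e23 : pull M w (v + w) = pull M v w + pull M w w := by
    rw [pull_add_right, pull_comm M w v]
  by_contra hcon
  apply hne
  simp only [triSgn, sgn, e13, e23] at hcon ⊢
  set x := pull M v w
  set r := pull M v v
  set s := pull M w w
  rcases lt_or_ge 0 x with hx | hx
  · rw [Int.sign_eq_one_of_pos hx, Int.sign_eq_one_of_pos (by omega : 0 < x + s),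
      Int.sign_eq_one_of_pos (by omega : 0 < r + x)]
    rfl
  rcases lt_or_ge (r + x) 0 with h13 | h13
  · have h23 : 0 < x + s := by nlinarith
    rw [Int.sign_eq_neg_one_of_neg (by omega : x < 0), Int.sign_eq_one_of_pos h23,
      Int.sign_eq_neg_one_of_neg h13]
    rfl
  rcases lt_or_ge (x + s) 0 with h23 | h23
  · have h13' : 0 < r + x := by nlinarith
    rw [Int.sign_eq_neg_one_of_neg (by omega : x < 0), Int.sign_eq_neg_one_of_neg h23,
      Int.sign_eq_one_of_pos h13']
    rfl
  exact absurd ⟨hx, h13, h23⟩ hcon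

theorem pull_le_of_triSgn {M : ZMat} (hM : M.det ≠ 0) {v w : ZVec} (h : vdet v w ≠ 0)
    (hne : triSgn M v w ≠ -1) :
    pull M v v ≤ mixDisc M M * vdet v w ^ 2 ∧ pull M w w ≤ mixDisc M M * vdet v w ^ 2 := by
  obtain ⟨hx, h13, h23⟩ := triSgn_cases hM h hne
  rw [pull_add_right] at h13
  rw [pull_add_right, pull_comm M w v] at h23
  have hv : v ≠ 0 := fun h0 => h (by simp [h0, vdet])
  have hw : w ≠ 0 := fun h0 => h (by simp [h0, vdet])
  have q1 := one_le_pull hM hv
  have q2 := one_le_pull hM hw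
  have hid := pull_polar M M v w
  have hK : 0 < mixDisc M M * vdet v w ^ 2 := by
    have := sq_pos_iff.mpr hM
    rw [mixDisc_self]
    positivity
  generalize pull M v w = x at *
  generalize pull M v v = r at *
  generalize pull M w w = s at *
  generalize mixDisc M M * vdet v w ^ 2 = K at *
  obtain ⟨u, hu, rfl⟩ : ∃ u, 0 ≤ u ∧ r = u - x := ⟨r + x, h13, by ring⟩
  obtain ⟨t, ht, rfl⟩ : ∃ t, 0 ≤ t ∧ s = t - x := ⟨x + s, h23, by ring⟩
  have hut : 1 ≤ u + t := by
    by_contra hlt
    obtain ⟨rfl, rfl⟩ : u = 0 ∧ t = 0 := ⟨by omega, by omega⟩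
    nlinarith
  rcases eq_or_lt_of_le hx with rfl | hx'
  · constructor <;> nlinarith
  · constructor <;> nlinarith [mul_nonneg hu ht, mul_nonneg hu (neg_nonneg.mpr hx),
      mul_nonneg ht (neg_nonneg.mpr hx), mul_le_mul_of_nonneg_left hut (neg_nonneg.mpr hx),
      mul_le_mul_of_nonneg_left (show 1 ≤ -x by omega) hu,
      mul_le_mul_of_nonneg_left (show 1 ≤ -x by omega) ht]

theorem finite_triSgn {M : ZMat} (hM : M.det ≠ 0) {v w : ZVec} (h : vdet v w ≠ 0) :
    {g : SL(2, ℤ) | triSgn (M * g) v w ≠ -1}.Finite := by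
  obtain ⟨C, hC, hbd⟩ := exists_sq_le_pull hM
  refine (finite_of_box h (C * (mixDisc M M * vdet v w ^ 2))).subset fun g hg => ?_
  have hab : vdet ((g : ZMat).mulVec v) ((g : ZMat).mulVec w) = vdet v w := by
    rw [vdet_mulVec, g.2, one_mul]
  have := pull_le_of_triSgn hM (v := (g : ZMat).mulVec v) (w := (g : ZMat).mulVec w)
    (by rwa [hab]) (by
      simpa [triSgn, sgn_mul, Matrix.mulVec_add] using hg)
  rw [hab] at this
  exact fun i => ⟨abs_le_of_pull hC hbd this.1 i, abs_le_of_pull hC hbd this.2 i⟩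

section Cross

variable (G : Subgroup SL(2, ℤ))

/-- The sign at a translate. -/
def sgnAt (M : ZMat) (v w : ZVec) (g : G) : ℤ := sgn (M * ((g : SL(2, ℤ)) : ZMat)) v w

/-- The number of signed crossings between two forms. -/
def crossSum (M M' : ZMat) (v w : ZVec) : ℤ := ∑ᶠ g : G, (sgnAt G M' v w g - sgnAt G M v w g)

variable {G}

theorem sgn_smul_left (M : ZMat) (k : ℤ) (v w : ZVec) :
    sgn M (k • v) w = k.sign * sgn M v w := by rw [sgn, pull_smul_left, Int.sign_mul, sgn]

theorem exists_smul_of_vdet {v w : ZVec} (hv : v ≠ 0) (hw : w ≠ 0) (h : vdet v w = 0) :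
    ∃ a b : ℤ, a ≠ 0 ∧ b ≠ 0 ∧ a • v = b • w := by
  have h' : v 0 * w 1 = v 1 * w 0 := sub_eq_zero.mp h
  by_cases h0 : v 0 = 0
  · have hv1 : v 1 ≠ 0 := fun h1 => hv (funext fun i => by fin_cases i <;> assumption)
    have hw0 : w 0 = 0 := by
      rw [h0, zero_mul] at h'
      exact (mul_eq_zero.mp h'.symm).resolve_left hv1
    have hw1 : w 1 ≠ 0 := fun h1 => hw (funext fun i => by fin_cases i <;> assumption)
    exact ⟨w 1, v 1, hw1, hv1, funext fun i => by
      fin_cases i <;> simp [h0, hw0]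
      ring⟩
  · have hw0 : w 0 ≠ 0 := fun h1 => by
      rw [h1, mul_zero, mul_eq_zero] at h'
      exact hw (funext fun i => by fin_cases i; exacts [h1, h'.resolve_left h0])
    exact ⟨w 0, v 0, hw0, h0, funext fun i => by
      fin_cases i <;> simp
      · ring
      · linarith⟩

theorem finite_sgnAt {M M' : ZMat} (hM : M.det ≠ 0) (hM' : M'.det ≠ 0) {v w : ZVec}
    (h : vdet v w ≠ 0) :
    (Function.support fun g : G => sgnAt G M' v w g - sgnAt G M v w g).Finite := by
  refine ((finite_sgn_ne hM hM' h).preimage Subtype.val_injective.injOn).subset fun g hg => ?_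
  exact fun e => hg (sub_eq_zero.mpr e)

theorem crossSum_add {M M' M'' : ZMat} (hM : M.det ≠ 0) (hM' : M'.det ≠ 0) (hM'' : M''.det ≠ 0)
    {v w : ZVec} (h : vdet v w ≠ 0) :
    crossSum G M M'' v w = crossSum G M M' v w + crossSum G M' M'' v w := by
  rw [crossSum, crossSum, crossSum, ← finsum_add_distrib (finite_sgnAt hM hM' h)
    (finite_sgnAt hM' hM'' h)]
  exact finsum_congr fun g => by ring

theorem crossSum_self (M : ZMat) (v w : ZVec) : crossSum G M M v w = 0 := by simp [crossSum]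

theorem crossSum_mul (M M' : ZMat) (v w : ZVec) (γ : G) :
    crossSum G (M * ((γ : SL(2, ℤ)) : ZMat)) (M' * ((γ : SL(2, ℤ)) : ZMat)) v w =
      crossSum G M M' v w := by
  rw [crossSum, crossSum]
  refine finsum_eq_of_bijective (fun g => γ * g) (Group.mulLeft_bijective γ) fun g => ?_
  simp only [sgnAt, Subgroup.coe_mul, Matrix.SpecialLinearGroup.coe_mul, mul_assoc]

/-- The base form moved by an element. -/
def baseAt (γ : G) : ZMat := (((γ : SL(2, ℤ))⁻¹ : SL(2, ℤ)) : ZMat)

theorem det_baseAt (γ : G) : (baseAt γ).det = 1 := ((γ : SL(2, ℤ))⁻¹).2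

theorem baseAt_mul (γ δ : G) : baseAt (γ * δ) = baseAt δ * baseAt γ := by
  simp only [baseAt, Subgroup.coe_mul, mul_inv_rev, Matrix.SpecialLinearGroup.coe_mul]

theorem crossSum_hom {v w : ZVec} (h : vdet v w ≠ 0) (γ δ : G) :
    crossSum G 1 (baseAt (γ * δ)) v w =
      crossSum G 1 (baseAt γ) v w + crossSum G 1 (baseAt δ) v w := by
  have e : crossSum G (1 * baseAt γ) (baseAt δ * baseAt γ) v w = crossSum G 1 (baseAt δ) v w := by
    have := crossSum_mul (G := G) 1 (baseAt δ) v w γ⁻¹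
    rwa [Subgroup.coe_inv] at this
  rw [one_mul] at e
  rw [baseAt_mul, crossSum_add (M' := baseAt γ) (by simp) (by simp [det_baseAt])
    (by simp [det_baseAt]) h, e]

variable (G)

/-- The crossing homomorphism of two vectors. -/
def crossHom (v w : ZVec) : Additive G →+ ℤ :=
  AddMonoidHom.mk' (fun γ => (vdet v w).sign * crossSum G 1 (baseAt (Additive.toMul γ)) v w)
    fun γ δ => by
      rcases eq_or_ne (vdet v w) 0 with h | h
      · simp [h]
      rw [← mul_add, toMul_add, crossSum_hom h]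

variable {G}

theorem crossHom_apply (v w : ZVec) (γ : G) :
    crossHom G v w (Additive.ofMul γ) = (vdet v w).sign * crossSum G 1 (baseAt γ) v w := rfl

/-- Independence of the base form. -/
theorem crossSum_base {M M' : ZMat} (hM : M.det ≠ 0) (hM' : M'.det ≠ 0) {v w : ZVec}
    (h : vdet v w ≠ 0) (γ : G) :
    crossSum G M (M * baseAt γ) v w = crossSum G M' (M' * baseAt γ) v w := by
  have hb : ∀ X : ZMat, X.det ≠ 0 → (X * baseAt γ).det ≠ 0 := fun X hX => by
    simp [det_baseAt, hX]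
  have e1 := crossSum_add (G := G) hM hM' (hb M' hM') h
  have e2 := crossSum_add (G := G) hM (hb M hM) (hb M' hM') h
  have e3 := crossSum_mul (G := G) M M' v w γ⁻¹
  rw [Subgroup.coe_inv] at e3
  rw [show crossSum G (M * baseAt γ) (M' * baseAt γ) v w = crossSum G M M' v w from e3] at e2
  linarith

theorem crossHom_swap (v w : ZVec) : crossHom G w v = -crossHom G v w := by
  refine AddMonoidHom.ext fun γ => ?_
  obtain ⟨γ, rfl⟩ := Additive.ofMul.surjective γ
  rw [AddMonoidHom.neg_apply, crossHom_apply, crossHom_apply, vdet_swap, Int.sign_neg, neg_mul]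
  congr 2
  exact finsum_congr fun g => by simp only [sgnAt, sgn_comm _ w v]

theorem crossHom_smul_left {k : ℤ} (hk : k ≠ 0) (v w : ZVec) :
    crossHom G (k • v) w = crossHom G v w := by
  refine AddMonoidHom.ext fun γ => ?_
  obtain ⟨γ, rfl⟩ := Additive.ofMul.surjective γ
  rw [crossHom_apply, crossHom_apply, show vdet (k • v) w = k * vdet v w by simp [vdet]; ring,
    Int.sign_mul]
  have : crossSum G 1 (baseAt γ) (k • v) w = k.sign * crossSum G 1 (baseAt γ) v w := by
    rw [crossSum, crossSum, mul_finsum]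
    exact finsum_congr fun g => by simp only [sgnAt, sgn_smul_left]; ring
  rw [this]
  rcases lt_or_gt_of_ne hk with hk | hk
  · rw [Int.sign_eq_neg_one_of_neg hk]; ring
  · rw [Int.sign_eq_one_of_pos hk]; ring

theorem crossHom_smul_right {k : ℤ} (hk : k ≠ 0) (v w : ZVec) :
    crossHom G v (k • w) = crossHom G v w := by
  rw [crossHom_swap (k • w), crossHom_smul_left hk, ← crossHom_swap w]

theorem crossHom_of_vdet {v w : ZVec} (h : vdet v w = 0) : crossHom G v w = 0 := by
  refine AddMonoidHom.ext fun γ => ?_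
  obtain ⟨γ, rfl⟩ := Additive.ofMul.surjective γ
  simp [crossHom_apply, h]

theorem crossHom_parallel {u v w : ZVec} (hu : u ≠ 0) (hv : v ≠ 0) (h : vdet u v = 0) :
    crossHom G u v + crossHom G v w + crossHom G w u = 0 := by
  obtain ⟨a, b, ha, hb, e⟩ := exists_smul_of_vdet hu hv h
  have : crossHom G u w = crossHom G v w := by
    rw [← crossHom_smul_left ha u w, e, crossHom_smul_left hb]
  rw [crossHom_of_vdet h, zero_add, crossHom_swap u w, this, add_neg_cancel]

theorem crossHom_triangle {v w : ZVec} (h : vdet v w ≠ 0) :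
    crossHom G v w + crossHom G w (v + w) + crossHom G (v + w) v = 0 := by
  refine AddMonoidHom.ext fun γ => ?_
  obtain ⟨γ, rfl⟩ := Additive.ofMul.surjective γ
  have h13 : vdet v (v + w) = vdet v w := by simp [vdet]; ring
  have h23 : vdet w (v + w) = -vdet v w := by simp [vdet]; ring
  simp only [AddMonoidHom.add_apply, crossHom_apply, AddMonoidHom.zero_apply]
  rw [h23, vdet_swap v (v + w), h13, Int.sign_neg]
  have hsym : crossSum G 1 (baseAt γ) (v + w) v = crossSum G 1 (baseAt γ) v (v + w) :=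
    finsum_congr fun g => by simp only [sgnAt, sgn_comm _ (v + w) v]
  rw [hsym]
  have key : crossSum G 1 (baseAt γ) v w - crossSum G 1 (baseAt γ) w (v + w)
      - crossSum G 1 (baseAt γ) v (v + w) = 0 := by
    have d1 : (1 : ZMat).det ≠ 0 := by simp
    have d2 : (baseAt γ).det ≠ 0 := by simp [det_baseAt]
    have n23 : vdet w (v + w) ≠ 0 := by rw [h23]; simpa using h
    have n13 : vdet v (v + w) ≠ 0 := by rwa [h13]
    rw [crossSum, crossSum, crossSum, ← finsum_sub_distrib (finite_sgnAt d1 d2 h)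
      (finite_sgnAt d1 d2 n23), ← finsum_sub_distrib
      (((finite_sgnAt d1 d2 h).union (finite_sgnAt d1 d2 n23)).subset (Function.support_sub _ _))
      (finite_sgnAt d1 d2 n13)]
    let T : ZMat → G → ℤ := fun M g => triSgn (M * ((g : SL(2, ℤ)) : ZMat)) v w + 1
    have fin : ∀ M : ZMat, M.det ≠ 0 → (Function.support (T M)).Finite := fun M hM =>
      ((finite_triSgn hM h).preimage Subtype.val_injective.injOn).subset fun g hg e => hg (by
        show triSgn _ v w + 1 = 0
        rw [e]; rfl)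
    have hrw : ∀ g : G, sgnAt G (baseAt γ) v w g - sgnAt G 1 v w g
        - (sgnAt G (baseAt γ) w (v + w) g - sgnAt G 1 w (v + w) g)
        - (sgnAt G (baseAt γ) v (v + w) g - sgnAt G 1 v (v + w) g) = T (baseAt γ) g - T 1 g :=
      fun g => by simp only [T, triSgn, sgnAt]; ring
    rw [finsum_congr hrw, finsum_sub_distrib (fin _ d2) (fin _ d1), sub_eq_zero]
    refine finsum_eq_of_bijective (fun g => γ⁻¹ * g) (Group.mulLeft_bijective γ⁻¹) fun g => ?_
    simp only [T, baseAt, one_mul, Subgroup.coe_mul, Subgroup.coe_inv,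
      Matrix.SpecialLinearGroup.coe_mul]
  linear_combination (vdet v w).sign * key

/-- The cocycle relation. -/
theorem crossHom_cocycle {u v w : ZVec} (hu : u ≠ 0) (hv : v ≠ 0) (hw : w ≠ 0) :
    crossHom G u v + crossHom G v w + crossHom G w u = 0 := by
  by_cases h12 : vdet u v = 0
  · exact crossHom_parallel hu hv h12
  by_cases h23 : vdet v w = 0
  · rw [← crossHom_parallel (G := G) (w := u) hv hw h23]; abel
  by_cases h31 : vdet w u = 0
  · rw [← crossHom_parallel (G := G) (w := v) hw hu h31]; abel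
  have e : vdet u v • w = -vdet v w • u + -vdet w u • v := funext fun i => by
    fin_cases i <;> simp [vdet] <;> ring
  have hu' : -vdet v w ≠ 0 := neg_ne_zero.mpr h23
  have hv' : -vdet w u ≠ 0 := neg_ne_zero.mpr h31
  have hd : vdet (-vdet v w • u) (-vdet w u • v) ≠ 0 := by
    rw [show vdet (-vdet v w • u) (-vdet w u • v) = vdet v w * vdet w u * vdet u v by
      simp [vdet]; ring]
    exact mul_ne_zero (mul_ne_zero h23 h31) h12
  have := crossHom_triangle (G := G) hd
  rwa [← e, crossHom_smul_left hu', crossHom_smul_right hv', crossHom_smul_left hv',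
    crossHom_smul_right h12, crossHom_smul_left h12, crossHom_smul_right hu'] at this

/-- Invariance under the group. -/
theorem crossHom_smul_gamma (γ : G) (v w : ZVec) :
    crossHom G (((γ : SL(2, ℤ)) : ZMat).mulVec v) (((γ : SL(2, ℤ)) : ZMat).mulVec w) =
      crossHom G v w := by
  refine AddMonoidHom.ext fun δ => ?_
  obtain ⟨δ, rfl⟩ := Additive.ofMul.surjective δ
  rw [crossHom_apply, crossHom_apply, vdet_mulVec, (γ : SL(2, ℤ)).2, one_mul]
  congr 1
  refine finsum_eq_of_bijective (fun g => g * γ) (Group.mulRight_bijective γ) fun g => ?_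
  simp only [sgnAt, sgn_mul, Subgroup.coe_mul, Matrix.SpecialLinearGroup.coe_mul,
    Matrix.mulVec_mulVec]

end Cross

end Fermat.Agent.Raise
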