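/-
Transfers of homomorphisms along finite families of integral matrices, and their effect on
crossing homomorphisms.
-/
import Fermat.Agent.Raise.Crossing

set_option autoImplicit false

noncomputable section

namespace Fermat.Agent.Raise

open scoped MatrixGroups

/-- Homomorphisms on a subgroup of `SL(2, ℤ)`. -/
abbrev GHom (G : Subgroup SL(2, ℤ)) (A : Type) [AddCommGroup A] : Type := Additive G →+ A

/-- The matrix of an element of a subgroup. -/
abbrev zMat {G : Subgroup SL(2, ℤ)} (g : G) : ZMat := ((g : SL(2, ℤ)) : ZMat)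

theorem zMat_mul {G : Subgroup SL(2, ℤ)} (g h : G) : zMat (g * h) = zMat g * zMat h := rfl

theorem zMat_one {G : Subgroup SL(2, ℤ)} : zMat (1 : G) = 1 := rfl

theorem zMat_injective {G : Subgroup SL(2, ℤ)} : Function.Injective (zMat (G := G)) :=
  fun _ _ h => Subtype.ext (Subtype.ext h)

theorem det_zMat {G : Subgroup SL(2, ℤ)} (g : G) : (zMat g).det = 1 := (g : SL(2, ℤ)).2

theorem inv_mul_zMat {G : Subgroup SL(2, ℤ)} (g : G) : zMat g⁻¹ * zMat g = 1 := by
  rw [← zMat_mul, inv_mul_cancel, zMat_one]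

theorem mul_right_cancel_det {X Y B : ZMat} (hB : B.det ≠ 0) (h : X * B = Y * B) : X = Y := by
  have := congrArg (fun Z => Z * B.adjugate) h
  simp only [Matrix.mul_assoc, Matrix.mul_adjugate, Matrix.mul_smul, Matrix.mul_one] at this
  exact smul_right_injective ZMat hB this

theorem mul_left_cancel_det {X Y B : ZMat} (hB : B.det ≠ 0) (h : B * X = B * Y) : X = Y := by
  have := congrArg (fun Z => B.adjugate * Z) h
  simp only [← Matrix.mul_assoc, Matrix.adjugate_mul, Matrix.smul_mul, Matrix.one_mul] at this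
  exact smul_right_injective ZMat hB this

/-- A finite family of left `G`-classes stable under right multiplication by `G'`. -/
structure IsFam (G G' : Subgroup SL(2, ℤ)) {ι : Type} (β : ι → ZMat) : Prop where
  det_ne : ∀ i, (β i).det ≠ 0
  inj : ∀ i j (g : G), β i = zMat g * β j → i = j
  step : ∀ (γ : G') (i : ι), ∃ (j : ι) (g : G), β i * zMat γ = zMat g * β j

namespace IsFam

variable {G G' G'' : Subgroup SL(2, ℤ)} {ι κ : Type} {β : ι → ZMat} (hβ : IsFam G G' β)

/-- The permuted index. -/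
def idx (γ : G') (i : ι) : ι := (hβ.step γ i).choose

/-- The coefficient. -/
def coef (γ : G') (i : ι) : G := (hβ.step γ i).choose_spec.choose

theorem spec (γ : G') (i : ι) : β i * zMat γ = zMat (hβ.coef γ i) * β (hβ.idx γ i) :=
  (hβ.step γ i).choose_spec.choose_spec

theorem unique {γ : G'} {g : G} {i j : ι} (h : β i * zMat γ = zMat g * β j) :
    hβ.idx γ i = j ∧ hβ.coef γ i = g := by
  have h' := (hβ.spec γ i).symm.trans h
  have e : hβ.idx γ i = j := hβ.inj _ _ ((hβ.coef γ i)⁻¹ * g) (by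
    rw [zMat_mul, mul_assoc, ← h', ← mul_assoc, inv_mul_zMat, one_mul])
  rw [e] at h'
  exact ⟨e, zMat_injective (mul_right_cancel_det (hβ.det_ne j) h')⟩

theorem idx_mul (γ δ : G') (i : ι) :
    hβ.idx (γ * δ) i = hβ.idx δ (hβ.idx γ i) ∧
      hβ.coef (γ * δ) i = hβ.coef γ i * hβ.coef δ (hβ.idx γ i) :=
  hβ.unique (by rw [zMat_mul, zMat_mul, ← mul_assoc, hβ.spec γ i, mul_assoc, hβ.spec δ, ← mul_assoc])

theorem idx_one (i : ι) : hβ.idx 1 i = i ∧ hβ.coef 1 i = 1 :=
  hβ.unique (by rw [zMat_one, zMat_one, mul_one, one_mul])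

/-- The permutation of the family. -/
def perm (γ : G') : Equiv.Perm ι where
  toFun := hβ.idx γ
  invFun := hβ.idx γ⁻¹
  left_inv i := by rw [← (hβ.idx_mul γ γ⁻¹ i).1, mul_inv_cancel, (hβ.idx_one i).1]
  right_inv i := by rw [← (hβ.idx_mul γ⁻¹ γ i).1, inv_mul_cancel, (hβ.idx_one i).1]

theorem sum_idx [Fintype ι] {M : Type} [AddCommMonoid M] (γ : G') (f : ι → M) :
    ∑ i, f (hβ.idx γ i) = ∑ i, f i := Equiv.sum_comp (hβ.perm γ) f

variable [Fintype ι] {A : Type} [AddCommGroup A]

/-- The transfer along the family. -/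
def trans : GHom G A →+ GHom G' A :=
  AddMonoidHom.mk'
    (fun z => AddMonoidHom.mk'
      (fun γ => ∑ i, z (Additive.ofMul (hβ.coef (Additive.toMul γ) i))) fun γ δ => by
        simp only [toMul_add, fun i => (hβ.idx_mul (Additive.toMul γ) (Additive.toMul δ) i).2,
          ofMul_mul, map_add, Finset.sum_add_distrib]
        rw [hβ.sum_idx (Additive.toMul γ)
          (fun i => z (Additive.ofMul (hβ.coef (Additive.toMul δ) i)))])
    fun z z' => AddMonoidHom.ext fun γ => Finset.sum_add_distrib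

theorem trans_apply (z : GHom G A) (γ : G') :
    hβ.trans z (Additive.ofMul γ) = ∑ i, z (Additive.ofMul (hβ.coef γ i)) := rfl

theorem trans_comp_coeff {B : Type} [AddCommGroup B] (f : A →+ B) (z : GHom G A) :
    hβ.trans (f.comp z) = f.comp (hβ.trans z) :=
  AddMonoidHom.ext fun x => by
    obtain ⟨γ, rfl⟩ := Additive.ofMul.surjective x
    rw [AddMonoidHom.comp_apply, trans_apply, trans_apply, map_sum]
    rfl

omit [Fintype ι] in
/-- The product of two families, when it has no repeated class. -/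
theorem prod {α : κ → ZMat} (hβ : IsFam G G' β) (hα : IsFam G' G'' α)
    (hinj : ∀ (x y : ι × κ) (g : G), β x.1 * α x.2 = zMat g * (β y.1 * α y.2) → x = y) :
    IsFam G G'' fun x : ι × κ => β x.1 * α x.2 where
  det_ne x := by rw [Matrix.det_mul]; exact mul_ne_zero (hβ.det_ne _) (hα.det_ne _)
  inj := hinj
  step γ x := ⟨(hβ.idx (hα.coef γ x.2) x.1, hα.idx γ x.2), hβ.coef (hα.coef γ x.2) x.1, by
    show β x.1 * α x.2 * zMat γ = _ * (β _ * α _)
    rw [mul_assoc, hα.spec γ x.2, ← mul_assoc, hβ.spec, mul_assoc]⟩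

/-- Composition. -/
theorem trans_trans [Fintype κ] {α : κ → ZMat} (hα : IsFam G' G'' α)
    (hc : IsFam G G'' fun x : ι × κ => β x.1 * α x.2) (z : GHom G A) :
    hα.trans (hβ.trans z) = hc.trans z := by
  refine AddMonoidHom.ext fun t => ?_
  obtain ⟨γ, rfl⟩ := Additive.ofMul.surjective t
  rw [trans_apply, trans_apply, Fintype.sum_prod_type_right]
  refine Finset.sum_congr rfl fun k _ => ?_
  rw [trans_apply]
  refine Finset.sum_congr rfl fun i _ => ?_
  rw [(hc.unique (j := (hβ.idx (hα.coef γ k) i, hα.idx γ k)) (g := hβ.coef (hα.coef γ k) i) (by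
    show β i * α k * zMat γ = _ * (β _ * α _)
    rw [mul_assoc, hα.spec γ k, ← mul_assoc, hβ.spec, mul_assoc])).2]

/-- Families with the same classes up to a scalar give the same transfer. -/
theorem trans_congr [Fintype κ] {α : κ → ZMat} (hα : IsFam G G' α)
    (hcard : Fintype.card ι = Fintype.card κ) (c : ℤ) (π : ι → κ) (h : ι → G)
    (hπ : ∀ i, β i = c • (zMat (h i) * α (π i))) (z : GHom G A) :
    hβ.trans z = hα.trans z := by
  have hinj : Function.Injective π := fun i j hij => hβ.inj i j (h i * (h j)⁻¹) (by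
    rw [hπ i, hπ j, hij, zMat_mul, mul_smul_comm, mul_assoc, ← mul_assoc (zMat (h j)⁻¹),
      inv_mul_zMat, one_mul])
  have hbij : Function.Bijective π :=
    (Fintype.bijective_iff_injective_and_card π).mpr ⟨hinj, hcard⟩
  refine AddMonoidHom.ext fun t => ?_
  obtain ⟨γ, rfl⟩ := Additive.ofMul.surjective t
  rw [trans_apply, trans_apply,
    ← hbij.sum_comp (fun k => z (Additive.ofMul (hα.coef γ k)))]
  have key : ∀ i, hα.coef γ (π i) = (h i)⁻¹ * (hβ.coef γ i * h (hβ.idx γ i)) := fun i => by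
    have hc : c ≠ 0 := fun h0 => hβ.det_ne i (by rw [hπ i, h0, zero_smul]; simp)
    refine (hα.unique (j := π (hβ.idx γ i)) ?_).2
    have e := hβ.spec γ i
    rw [hπ i, hπ (hβ.idx γ i), smul_mul_assoc, mul_smul_comm, mul_assoc] at e
    have e' : zMat (h i) * (α (π i) * zMat γ) = _ := smul_right_injective ZMat hc e
    rw [zMat_mul, zMat_mul, mul_assoc, mul_assoc, ← e', ← mul_assoc, inv_mul_zMat, one_mul]
  simp only [key, ofMul_mul, ofMul_inv, map_add, map_neg, Finset.sum_add_distrib,
    Finset.sum_neg_distrib]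
  rw [hβ.sum_idx γ (fun i => z (Additive.ofMul (h i)))]
  abel

omit [Fintype ι] in
theorem adj_spec (γ : G') (i : ι) :
    (β (hβ.idx γ i)).adjugate * baseAt (hβ.coef γ i) = baseAt γ * (β i).adjugate := by
  have := congrArg Matrix.adjugate (hβ.spec γ i)
  rw [Matrix.adjugate_mul_distrib, Matrix.adjugate_mul_distrib] at this
  simpa [baseAt, zMat, Matrix.SpecialLinearGroup.coe_inv] using this.symm

omit [Fintype ι] in
include hβ in
theorem det_adjugate_ne (i : ι) : (β i).adjugate.det ≠ 0 := by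
  rw [Matrix.det_adjugate]
  simpa using hβ.det_ne i

set_option maxHeartbeats 800000 in
/-- The transfer of a crossing homomorphism. -/
theorem trans_crossHom [Fintype κ] {α : κ → ZMat} (hαpos : ∀ j, 0 < (α j).det)
    (hαinj : ∀ j k (h : G'), α j = zMat h * α k → j = k)
    (hfwd : ∀ i (g : G), ∃ (j : κ) (h : G'), (β i).adjugate * zMat g = zMat h * α j)
    (hbwd : ∀ j (h : G'), ∃ (i : ι) (g : G), (β i).adjugate * zMat g = zMat h * α j)
    (v w : ZVec) :
    hβ.trans (crossHom G v w) =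
      ∑ j, crossHom G' ((α j).mulVec v) ((α j).mulVec w) := by
  classical
  refine AddMonoidHom.ext fun t => ?_
  obtain ⟨γ, rfl⟩ := Additive.ofMul.surjective t
  rw [trans_apply, AddMonoidHom.finsetSum_apply]
  simp only [crossHom_apply, vdet_mulVec, Int.sign_mul,
    fun j => Int.sign_eq_one_of_pos (hαpos j), one_mul, ← Finset.mul_sum]
  rcases eq_or_ne (vdet v w) 0 with hD | hD
  · simp [hD]
  congr 1
  set B := baseAt γ
  have hB : B.det ≠ 0 := by simp [B, det_baseAt]
  set M : ι → ZMat := fun i => (β i).adjugate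
  have hM : ∀ i, (M i).det ≠ 0 := hβ.det_adjugate_ne
  have hBM : ∀ i, (B * M i).det ≠ 0 := fun i => by simp [B, det_baseAt, hM i]
  have h1 : ∀ i, crossSum G 1 (baseAt (hβ.coef γ i)) v w =
      crossSum G 1 (M i) v w - crossSum G 1 (M (hβ.idx γ i)) v w
        + crossSum G (M i) (B * M i) v w := fun i => by
    have e := crossSum_base (G := G) (M := 1) (M' := M (hβ.idx γ i)) (by simp) (hM _) hD
      (hβ.coef γ i)
    rw [one_mul, hβ.adj_spec] at e
    have a1 := crossSum_add (G := G) (M := 1) (by simp) (hM (hβ.idx γ i)) (hM i) hD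
    have a2 := crossSum_add (G := G) (hM (hβ.idx γ i)) (hM i) (hBM i) hD
    rw [e]
    linarith
  simp only [h1, Finset.sum_add_distrib, Finset.sum_sub_distrib]
  rw [hβ.sum_idx γ (fun i => crossSum G 1 (M i) v w), sub_self, zero_add]
  -- compare the two index sets
  let Φ : ZMat → ℤ := fun X => sgn (B * X) v w - sgn X v w
  have e1 : ∀ i, crossSum G (M i) (B * M i) v w = ∑ᶠ g : G, Φ (M i * zMat g) := fun i =>
    finsum_congr fun g => by simp only [sgnAt, Φ, mul_assoc]
  have e2 : ∀ j, crossSum G' 1 B ((α j).mulVec v) ((α j).mulVec w) =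
      ∑ᶠ h : G', Φ (zMat h * α j) := fun j =>
    finsum_congr fun h => by simp only [sgnAt, Φ, one_mul, ← sgn_mul, mul_assoc]
  have f1 : (Function.support fun x : ι × G => Φ (M x.1 * zMat x.2)).Finite := by
    refine (Set.finite_iUnion fun i => (finite_sgnAt (G := G) (hM i) (hBM i) hD).image
      (Prod.mk i)).subset fun x hx => Set.mem_iUnion.mpr ⟨x.1, x.2, ?_, rfl⟩
    rw [Function.mem_support] at hx ⊢
    simp only [Φ] at hx
    rw [sgnAt, sgnAt, mul_assoc]
    exact hx
  have hαD : ∀ j, vdet ((α j).mulVec v) ((α j).mulVec w) ≠ 0 := fun j => by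
    rw [vdet_mulVec]
    exact mul_ne_zero (hαpos j).ne' hD
  have f2 : (Function.support fun x : κ × G' => Φ (zMat x.2 * α x.1)).Finite := by
    refine (Set.finite_iUnion fun j => (finite_sgnAt (G := G') (M := 1) (by simp) hB
      (hαD j)).image (Prod.mk j)).subset fun x hx => Set.mem_iUnion.mpr ⟨x.1, x.2, ?_, rfl⟩
    rw [Function.mem_support] at hx ⊢
    simp only [Φ] at hx
    rw [sgnAt, sgnAt, one_mul, ← sgn_mul, ← sgn_mul, mul_assoc]
    exact hx
  have L : ∑ i, crossSum G (M i) (B * M i) v w = ∑ᶠ x : ι × G, Φ (M x.1 * zMat x.2) := by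
    rw [finsum_curry (fun x : ι × G => Φ (M x.1 * zMat x.2)) f1, finsum_eq_sum_of_fintype]
    exact Finset.sum_congr rfl fun i _ => e1 i
  have R : ∑ j, crossSum G' 1 B ((α j).mulVec v) ((α j).mulVec w) =
      ∑ᶠ x : κ × G', Φ (zMat x.2 * α x.1) := by
    rw [finsum_curry (fun x : κ × G' => Φ (zMat x.2 * α x.1)) f2, finsum_eq_sum_of_fintype]
    exact Finset.sum_congr rfl fun j _ => e2 j
  rw [L, R]
  choose π η hπ using hfwd
  refine finsum_eq_of_bijective (fun x => (π x.1 x.2, η x.1 x.2)) ⟨fun x y hxy => ?_, fun y => ?_⟩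
    fun x => congrArg Φ (hπ x.1 x.2)
  · have hp : M x.1 * zMat x.2 = M y.1 * zMat y.2 := by
      simp only [Prod.mk.injEq] at hxy
      rw [hπ, hπ, hxy.1, hxy.2]
    have hadj : ∀ g : G, zMat g⁻¹ = (zMat g).adjugate := fun g =>
      Matrix.SpecialLinearGroup.coe_inv _
    have ha' : zMat x.2⁻¹ * β x.1 = zMat y.2⁻¹ * β y.1 := by
      have := congrArg Matrix.adjugate hp
      simpa [M, Matrix.adjugate_mul_distrib, hadj, Matrix.adjugate_adjugate] using this
    have hi : x.1 = y.1 := hβ.inj _ _ (x.2 * y.2⁻¹) (by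
      rw [zMat_mul, mul_assoc, ← ha', ← mul_assoc, ← zMat_mul, mul_inv_cancel, zMat_one, one_mul])
    rw [hi] at ha'
    exact Prod.ext hi (inv_injective (zMat_injective (mul_right_cancel_det (hβ.det_ne _) ha')))
  · obtain ⟨i, g, hig⟩ := hbwd y.1 y.2
    refine ⟨(i, g), ?_⟩
    have e := (hπ i g).symm.trans hig
    have hj : π i g = y.1 := hαinj _ _ ((η i g)⁻¹ * y.2) (by
      rw [zMat_mul, mul_assoc, ← e, ← mul_assoc, inv_mul_zMat, one_mul])
    rw [hj] at e
    exact Prod.ext hj (zMat_injective (mul_right_cancel_det (hαpos _).ne' e))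

end IsFam

end Fermat.Agent.Raise
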