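/-
Restriction, corestriction, the Atkin-Lehner operator and `U_q` between levels `N` and `N q`.
-/
import Fermat.Agent.Raise.Transfer
import Fermat.Agent.Raise.Vanish
import Fermat.Agent.NewVec.Hecke

set_option autoImplicit false

noncomputable section

namespace Fermat.Agent.Raise

open CongruenceSubgroup
open Fermat.Agent.GalRep (GoodIndex heckeRep transferHom transferHom_apply trCoef trIdx trSpec
  tr_unique exists_transfer_step exists_eq_mul_heckeRep det_heckeRep heckeRep_unique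
  mul_heckeRep_none mul_heckeRep_some heckeRep_one_zero)
open scoped MatrixGroups

variable {N q ℓ : ℕ}

/-- The `SL(2)` inverse as a matrix. -/
theorem coe_inv_eq (g : SL(2, ℤ)) : ((g⁻¹ : SL(2, ℤ)) : ZMat) =
    !![(g : ZMat) 1 1, -(g : ZMat) 0 1; -(g : ZMat) 1 0, (g : ZMat) 0 0] := by
  rw [Matrix.SpecialLinearGroup.coe_inv, Matrix.adjugate_fin_two]

theorem det_two (g : SL(2, ℤ)) :
    (g : ZMat) 0 0 * (g : ZMat) 1 1 - (g : ZMat) 0 1 * (g : ZMat) 1 0 = 1 := by
  have := g.2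
  rwa [Matrix.det_fin_two] at this

theorem isFam_heckeRep (hg : GoodIndex N ℓ) : IsFam (Gamma0 N) (Gamma0 N) (heckeRep ℓ) where
  det_ne i := by rw [det_heckeRep]; exact_mod_cast hg.prime.ne_zero
  inj i j g h := heckeRep_unique hg.prime (M := 1) (M' := zMat g)
    (by rw [Matrix.det_one]; exact_mod_cast hg.prime.not_dvd_one) (by rw [one_mul]; exact h)
  step γ i := exists_transfer_step hg.prime hg.not_dvd γ i

theorem trans_heckeRep (hg : GoodIndex N ℓ) {A : Type} [AddCommGroup A] (z : GHom (Gamma0 N) A) :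
    (isFam_heckeRep hg).trans z = transferHom hg z := by
  refine AddMonoidHom.ext fun t => ?_
  obtain ⟨γ, rfl⟩ := Additive.ofMul.surjective t
  rw [IsFam.trans_apply, transferHom_apply]
  exact Finset.sum_congr rfl fun i _ => by
    rw [(tr_unique hg ((isFam_heckeRep hg).spec γ i)).2]

/-- Matrices of determinant `ℓ` with lower left entry divisible by `N` are left multiples of a
representative. -/
theorem exists_rep_factor (hg : GoodIndex N ℓ) {Z : ZMat} (hdet : Z.det = (ℓ : ℤ))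
    (hN : (N : ℤ) ∣ Z 1 0) :
    ∃ (j : Option (Fin ℓ)) (h : Gamma0 N), Z = zMat h * heckeRep ℓ j := by
  obtain ⟨j, X, hX⟩ := exists_eq_mul_heckeRep hg.prime Z ⟨1, by rw [hdet, mul_one]⟩
  have hXd : X.det = 1 := by
    have := congrArg Matrix.det hX
    rw [hdet, Matrix.det_mul, det_heckeRep] at this
    exact mul_right_cancel₀ (Int.natCast_ne_zero.mpr hg.prime.ne_zero)
      (this.symm.trans (one_mul _).symm)
  have hN' : (N : ℤ) ∣ X 1 0 := by
    rw [hX] at hN
    cases j with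
    | none =>
      rw [mul_heckeRep_none] at hN
      refine (Int.isCoprime_iff_gcd_eq_one.mpr ?_).dvd_of_dvd_mul_right (by simpa using hN)
      exact ((Nat.Prime.coprime_iff_not_dvd hg.prime).mpr hg.not_dvd).symm
    | some b =>
      rw [mul_heckeRep_some] at hN
      simpa using hN
  exact ⟨j, ⟨⟨X, hXd⟩, mem_gamma0_iff_dvd.mpr hN'⟩, hX⟩

/-- The transfer of a crossing homomorphism along `T_ℓ`. -/
theorem transferHom_crossHom (hg : GoodIndex N ℓ) (v w : ZVec) :
    transferHom hg (crossHom (Gamma0 N) v w) =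
      ∑ i, crossHom (Gamma0 N) ((heckeRep ℓ i).mulVec v) ((heckeRep ℓ i).mulVec w) := by
  rw [← trans_heckeRep hg]
  refine (isFam_heckeRep hg).trans_crossHom (fun i => ?_) (isFam_heckeRep hg).inj
    (fun i g => ?_) (fun j h => ?_) v w
  · rw [det_heckeRep]; exact_mod_cast hg.prime.pos
  · refine exists_rep_factor hg ?_ ?_
    · rw [Matrix.det_mul, Matrix.det_adjugate, det_heckeRep, det_zMat]; simp
    · have := mem_gamma0_iff_dvd.mp g.2
      rw [Matrix.adjugate_fin_two, Matrix.mul_apply, Fin.sum_univ_two]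
      simp only [heckeRep_one_zero]
      simp
      exact this.mul_left _
  · obtain ⟨i, g, hig⟩ := exists_rep_factor hg (Z := (zMat h * heckeRep ℓ j).adjugate)
      (by rw [Matrix.det_adjugate, Matrix.det_mul, det_heckeRep, det_zMat]; simp) (by
        rw [Matrix.adjugate_fin_two]
        have := mem_gamma0_iff_dvd.mp h.2
        simp [Matrix.mul_apply, Fin.sum_univ_two, heckeRep_one_zero]
        exact this.mul_right _)
    refine ⟨i, g⁻¹, ?_⟩
    have := congrArg Matrix.adjugate hig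
    rw [Matrix.adjugate_adjugate _ (by simp), Matrix.adjugate_mul_distrib] at this
    simpa [zMat, Matrix.SpecialLinearGroup.coe_inv] using this.symm

/-- The data connecting level `N` and level `N q`. -/
structure LevData (N q : ℕ) where
  /-- An element with lower row `(N, q)`. -/
  g : SL(2, ℤ)
  g10 : (g : ZMat) 1 0 = N
  g11 : (g : ZMat) 1 1 = q
  prime : q.Prime
  not_dvd : ¬ q ∣ N

theorem exists_levData (hq : q.Prime) (hqN : ¬ q ∣ N) : Nonempty (LevData N q) := by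
  obtain ⟨u, v, huv⟩ : IsCoprime (q : ℤ) (N : ℤ) :=
    Nat.isCoprime_iff_coprime.mpr (hq.coprime_iff_not_dvd.mpr hqN)
  exact ⟨⟨mkSL u (-v) N q (by linear_combination huv), mkSL_10 _ _ _ _ _, mkSL_11 _ _ _ _ _, hq,
    hqN⟩⟩

namespace LevData

variable (D : LevData N q)
include D

theorem mem_iff {x : ℤ} : ((N * q : ℕ) : ℤ) ∣ x ↔ (N : ℤ) ∣ x ∧ (q : ℤ) ∣ x := by
  rw [Nat.cast_mul]
  exact ⟨fun h => ⟨(dvd_mul_right _ _).trans h, (dvd_mul_left _ _).trans h⟩, fun h =>
    IsCoprime.mul_dvd (Nat.isCoprime_iff_coprime.mpr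
      (D.prime.coprime_iff_not_dvd.mpr D.not_dvd).symm) h.1 h.2⟩

omit D in
theorem mem_of_mem {γ : SL(2, ℤ)} (h : γ ∈ Gamma0 (N * q)) : γ ∈ Gamma0 N :=
  mem_gamma0_iff_dvd.mpr ((Int.natCast_dvd_natCast.mpr (dvd_mul_right N q)).trans
    (mem_gamma0_iff_dvd.mp h))

omit D in
/-- The inclusion of `Γ₀(Nq)` in `Γ₀(N)`. -/
def incl : Gamma0 (N * q) →* Gamma0 N := Subgroup.inclusion fun _ h => mem_of_mem h

omit D in
theorem zMat_incl (γ : Gamma0 (N * q)) : zMat (incl γ) = zMat γ := rfl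

/-- The representative of restriction. -/
def resRep : Unit → ZMat := fun _ => 1

theorem isFam_res : IsFam (Gamma0 N) (Gamma0 (N * q)) resRep where
  det_ne _ := by simp [resRep]
  inj _ _ _ _ := rfl
  step γ _ := ⟨(), incl γ, by simp [resRep, zMat_incl]⟩

/-- Representatives of corestriction. -/
def cosRep : Option (Fin q) → ZMat
  | none => 1
  | some b => (D.g * ModularGroup.T ^ ((b : ℕ) : ℤ) : SL(2, ℤ))

theorem g_mem : D.g ∈ Gamma0 N := mem_gamma0_iff_dvd.mpr (D.g10 ▸ dvd_rfl)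

omit D in
theorem T_zpow_mem' (n : ℤ) : ModularGroup.T ^ n ∈ Gamma0 N :=
  mem_gamma0_iff_dvd.mpr (by simp [ModularGroup.coe_T_zpow])

/-- The representatives as elements of `Γ₀(N)`. -/
def cosElt : Option (Fin q) → Gamma0 N
  | none => 1
  | some b => ⟨D.g * ModularGroup.T ^ ((b : ℕ) : ℤ), mul_mem D.g_mem (T_zpow_mem' _)⟩

theorem zMat_cosElt (i : Option (Fin q)) : zMat (D.cosElt i) = D.cosRep i := by
  cases i <;> rfl

theorem exists_cosRep (δ : Gamma0 N) :
    ∃ (i : Option (Fin q)) (h : Gamma0 (N * q)), zMat δ = zMat h * D.cosRep i := by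
  haveI := Fact.mk D.prime
  have hN := mem_gamma0_iff_dvd.mp δ.2
  by_cases hq : (q : ℤ) ∣ (δ : SL(2, ℤ)) 1 0
  · exact ⟨none, ⟨_, mem_gamma0_iff_dvd.mpr (D.mem_iff.mpr ⟨hN, hq⟩)⟩, by simp [cosRep]⟩
  have hc : (((δ : SL(2, ℤ)) 1 0 : ℤ) : ZMod q) ≠ 0 := fun h =>
    hq ((ZMod.intCast_zmod_eq_zero_iff_dvd _ _).mp h)
  set b : ZMod q := (((δ : SL(2, ℤ)) 1 1 : ℤ) : ZMod q) / (((δ : SL(2, ℤ)) 1 0 : ℤ) : ZMod q)
  let r : SL(2, ℤ) := D.g * ModularGroup.T ^ ((b.val : ℕ) : ℤ)
  refine ⟨some ⟨b.val, ZMod.val_lt b⟩, ⟨(δ : SL(2, ℤ)) * r⁻¹, mem_gamma0_iff_dvd.mpr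
    (D.mem_iff.mpr ⟨mem_gamma0_iff_dvd.mp (mul_mem δ.2
      (inv_mem (mul_mem D.g_mem (T_zpow_mem' _)))), ?_⟩)⟩, ?_⟩
  · rw [← ZMod.intCast_zmod_eq_zero_iff_dvd, Matrix.SpecialLinearGroup.coe_mul, coe_inv_eq,
      Matrix.mul_apply, Fin.sum_univ_two]
    simp [r, -zpow_natCast, Matrix.mul_apply, Fin.sum_univ_two, ModularGroup.coe_T_zpow, D.g10, D.g11, b]
    field_simp
    ring
  · show _ = (((δ : SL(2, ℤ)) * r⁻¹ : SL(2, ℤ)) : ZMat) * (r : ZMat)
    rw [← Matrix.SpecialLinearGroup.coe_mul, inv_mul_cancel_right]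

theorem cos_inj {i j : Option (Fin q)} {h : Gamma0 (N * q)}
    (e : D.cosRep i = zMat h * D.cosRep j) : i = j := by
  haveI := Fact.mk D.prime
  have hN0 : (N : ZMod q) ≠ 0 := fun h => D.not_dvd ((ZMod.natCast_eq_zero_iff _ _).mp h)
  have hh := (ZMod.intCast_zmod_eq_zero_iff_dvd _ _).mpr (D.mem_iff.mp (mem_gamma0_iff_dvd.mp h.2)).2
  have e10 := congrArg (fun X : ZMat => ((X 1 0 : ℤ) : ZMod q)) e
  rcases i with _ | a <;> rcases j with _ | b
  · rfl
  · simp [cosRep, Matrix.mul_apply, Fin.sum_univ_two, -zpow_natCast, ModularGroup.coe_T_zpow, hh, D.g10, D.g11,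
      hN0] at e10
    have h11 : ((zMat h 1 1 : ℤ) : ZMod q) ≠ 0 := fun h11 => by
      have := congrArg (fun z : ℤ => (z : ZMod q)) (det_two (h : SL(2, ℤ)))
      simp [hh] at this
      rw [show (((h : SL(2, ℤ)) 1 1 : ℤ) : ZMod q) = 0 from h11, mul_zero] at this
      exact zero_ne_one this
    exact absurd e10 h11
  · simp [cosRep, Matrix.mul_apply, Fin.sum_univ_two, -zpow_natCast, ModularGroup.coe_T_zpow, hh, D.g10,
      hN0] at e10
  · have e11 := congrArg (fun X : ZMat => ((X 1 1 : ℤ) : ZMod q)) e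
    simp [cosRep, Matrix.mul_apply, Fin.sum_univ_two, -zpow_natCast, ModularGroup.coe_T_zpow, hh, D.g10, D.g11]
      at e10 e11
    have h11 : ((zMat h 1 1 : ℤ) : ZMod q) = 1 :=
      mul_right_cancel₀ hN0 (e10.symm.trans (one_mul _).symm)
    rw [show (((h : SL(2, ℤ)) 1 1 : ℤ) : ZMod q) = 1 from h11, one_mul] at e11
    have key : ((a : ℕ) : ZMod q) = ((b : ℕ) : ZMod q) := mul_left_cancel₀ hN0 e11
    have := congrArg ZMod.val key
    rw [ZMod.val_cast_of_lt a.2, ZMod.val_cast_of_lt b.2] at this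
    rw [Fin.ext this]

theorem isFam_cos : IsFam (Gamma0 (N * q)) (Gamma0 N) D.cosRep where
  det_ne i := by rw [← D.zMat_cosElt, det_zMat]; exact one_ne_zero
  inj _ _ _ e := D.cos_inj e
  step γ i := by
    obtain ⟨j, h, e⟩ := D.exists_cosRep (D.cosElt i * γ)
    exact ⟨j, h, by rw [← e, zMat_mul, zMat_cosElt]⟩

/-- The Atkin-Lehner matrix. -/
def wMat : ZMat := (D.g : ZMat) * !![(q : ℤ), 0; 0, 1]

theorem det_wMat : D.wMat.det = q := by
  simp [wMat, Matrix.det_fin_two_of]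

/-- Conjugation by the Atkin-Lehner matrix preserves divisibility of the lower left entry. -/
theorem wMat_conj {X : ZMat} (hX : ((N * q : ℕ) : ℤ) ∣ X 1 0) :
    ∃ Y : ZMat, ((N * q : ℕ) : ℤ) ∣ Y 1 0 ∧ Y.det = X.det ∧ D.wMat * X = Y * D.wMat := by
  obtain ⟨c, hc⟩ := hX
  set X' : ZMat := !![X 0 0, (q : ℤ) * X 0 1; (N : ℤ) * c, X 1 1] with hX'
  refine ⟨(D.g : ZMat) * X' * ((D.g⁻¹ : SL(2, ℤ)) : ZMat), ?_, ?_, ?_⟩
  · rw [coe_inv_eq]
    simp [hX', Matrix.mul_apply, Fin.sum_univ_two, D.g10, D.g11]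
    exact ⟨X 0 0 + q * c - N * X 0 1 - X 1 1, by ring⟩
  · rw [Matrix.det_mul, Matrix.det_mul, D.g.2, (D.g⁻¹).2, one_mul, mul_one, hX',
      Matrix.det_fin_two_of, Matrix.det_fin_two, hc]
    push_cast; ring
  · have e : !![(q : ℤ), 0; 0, 1] * X = X' * !![(q : ℤ), 0; 0, 1] := by
      ext i j
      fin_cases i <;> fin_cases j <;> simp [hX', Matrix.mul_apply, Fin.sum_univ_two, hc]
      all_goals ring
    rw [wMat, mul_assoc, e, mul_assoc _ _ ((D.g : ZMat) * _), ← mul_assoc ((D.g⁻¹ : SL(2, ℤ)) : ZMat),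
      ← Matrix.SpecialLinearGroup.coe_mul, inv_mul_cancel, Matrix.SpecialLinearGroup.coe_one,
      one_mul, ← mul_assoc]

theorem wMat_step (γ : Gamma0 (N * q)) :
    ∃ g' : Gamma0 (N * q), D.wMat * zMat γ = zMat g' * D.wMat := by
  obtain ⟨Y, hY, hd, e⟩ := D.wMat_conj (mem_gamma0_iff_dvd.mp γ.2)
  exact ⟨⟨⟨Y, hd.trans (det_zMat γ)⟩, mem_gamma0_iff_dvd.mpr hY⟩, e⟩

theorem exists_wMat_sq : ∃ γ₂ : Gamma0 (N * q), D.wMat * D.wMat = (q : ℤ) • zMat γ₂ := by
  refine ⟨⟨D.g * mkSL ((q : ℤ) * (D.g : ZMat) 0 0) ((D.g : ZMat) 0 1) (N : ℤ) 1 ?_,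
    mem_gamma0_iff_dvd.mpr ?_⟩, ?_⟩
  · have := det_two D.g
    rw [D.g10, D.g11] at this
    linear_combination this
  · simp [Matrix.mul_apply, Fin.sum_univ_two, D.g10, D.g11]
    exact ⟨(D.g : ZMat) 0 0 + 1, by ring⟩
  · rw [wMat, show zMat _ = (D.g : ZMat) * ((mkSL _ _ _ _ _ : SL(2, ℤ)) : ZMat) from rfl,
      mul_assoc, ← mul_smul_comm]
    congr 1
    ext i j
    fin_cases i <;> fin_cases j <;>
      simp [Matrix.mul_apply, Fin.sum_univ_two, D.g10, D.g11]
    all_goals (first | ring1 | (left; ring1) | (right; ring1))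

theorem wMat_step' (y : Gamma0 (N * q)) :
    ∃ x : Gamma0 (N * q), zMat y * D.wMat = D.wMat * zMat x := by
  obtain ⟨γ₂, h₂⟩ := D.exists_wMat_sq
  obtain ⟨y', hy⟩ := D.wMat_step y
  refine ⟨γ₂⁻¹ * y' * γ₂, mul_left_cancel_det (B := D.wMat)
    (by rw [det_wMat]; exact_mod_cast D.prime.ne_zero) ?_⟩
  rw [← mul_assoc, hy, mul_assoc, h₂, ← mul_assoc D.wMat D.wMat, h₂, mul_smul_comm,
    smul_mul_assoc, ← zMat_mul, ← zMat_mul]
  congr 2
  group

/-- The Atkin-Lehner family. -/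
def wRep : Unit → ZMat := fun _ => D.wMat

theorem isFam_w : IsFam (Gamma0 (N * q)) (Gamma0 (N * q)) D.wRep where
  det_ne _ := by rw [wRep, det_wMat]; exact_mod_cast D.prime.ne_zero
  inj _ _ _ _ := rfl
  step γ _ := ⟨(), D.wMat_step γ⟩

/-- Representatives of `U_q`. -/
def uRep (b : Fin q) : ZMat := heckeRep q (some b)

theorem isFam_u : IsFam (Gamma0 (N * q)) (Gamma0 (N * q)) (uRep (q := q)) where
  det_ne b := by rw [uRep, det_heckeRep]; exact_mod_cast D.prime.ne_zero
  inj a b h e := Option.some_injective _ (heckeRep_unique D.prime (M := 1) (M' := zMat h)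
    (by rw [Matrix.det_one]; exact_mod_cast D.prime.not_dvd_one) (by rw [one_mul]; exact e))
  step γ b := by
    obtain ⟨hN, hq⟩ := D.mem_iff.mp (mem_gamma0_iff_dvd.mp γ.2)
    obtain ⟨j, X, hX⟩ := exists_eq_mul_heckeRep D.prime (uRep b * zMat γ)
      ⟨1, by rw [Matrix.det_mul, uRep, det_heckeRep, det_zMat]⟩
    have hXd : X.det = 1 := by
      have := congrArg Matrix.det hX
      rw [Matrix.det_mul, Matrix.det_mul, uRep, det_heckeRep, det_heckeRep, det_zMat, mul_one] at this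
      exact mul_right_cancel₀ (Int.natCast_ne_zero.mpr D.prime.ne_zero)
        (this.symm.trans (one_mul _).symm)
    have e10 := congrArg (fun Y : ZMat => Y 1 0) hX
    cases j with
    | none =>
      exfalso
      have e11 := congrArg (fun Y : ZMat => Y 1 1) hX
      rw [mul_heckeRep_none] at e10 e11
      simp [uRep, heckeRep, Matrix.mul_apply, Fin.sum_univ_two] at e10 e11
      have h10 : (q : ℤ) ∣ X 1 0 := by
        have : (q : ℤ) * X 1 0 = (q : ℤ) * (γ : SL(2, ℤ)) 1 0 := by linarith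
        rwa [mul_left_cancel₀ (Int.natCast_ne_zero.mpr D.prime.ne_zero) this]
      rw [Matrix.det_fin_two] at hXd
      exact (Nat.prime_iff_prime_int.mp D.prime).not_dvd_one (hXd ▸
        dvd_sub ((e11 ▸ dvd_mul_right _ _ : (q : ℤ) ∣ X 1 1).mul_left _) (h10.mul_left _))
    | some c =>
      refine ⟨c, ⟨⟨X, hXd⟩, mem_gamma0_iff_dvd.mpr ?_⟩, hX⟩
      rw [mul_heckeRep_some] at e10
      simp [uRep, heckeRep, Matrix.mul_apply, Fin.sum_univ_two] at e10
      show ((N * q : ℕ) : ℤ) ∣ X 1 0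
      rw [← e10]
      exact dvd_mul_of_dvd_right (mem_gamma0_iff_dvd.mp γ.2) _

variable {A : Type} [AddCommGroup A]

/-- Restriction to `Γ₀(Nq)`. -/
def res : GHom (Gamma0 N) A →+ GHom (Gamma0 (N * q)) A := D.isFam_res.trans

/-- Corestriction to `Γ₀(N)`. -/
def cor : GHom (Gamma0 (N * q)) A →+ GHom (Gamma0 N) A := D.isFam_cos.trans

/-- The Atkin-Lehner operator. -/
def wOp : GHom (Gamma0 (N * q)) A →+ GHom (Gamma0 (N * q)) A := D.isFam_w.trans

/-- The operator `U_q`. -/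
def uOp : GHom (Gamma0 (N * q)) A →+ GHom (Gamma0 (N * q)) A := D.isFam_u.trans

theorem res_apply (x : GHom (Gamma0 N) A) (γ : Gamma0 (N * q)) :
    D.res x (Additive.ofMul γ) = x (Additive.ofMul (incl γ)) := by
  rw [res, IsFam.trans_apply, Fintype.sum_unique,
    (D.isFam_res.unique (γ := γ) (g := incl γ) (i := default) (j := default) (by
      simp [resRep, zMat_incl])).2]

theorem cor_res (x : GHom (Gamma0 N) A) : D.cor (D.res x) = (q + 1) • x := by
  refine AddMonoidHom.ext fun t => ?_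
  obtain ⟨γ, rfl⟩ := Additive.ofMul.surjective t
  rw [cor, IsFam.trans_apply, AddMonoidHom.smul_apply]
  have key : ∀ i, incl (D.isFam_cos.coef γ i) =
      D.cosElt i * γ * (D.cosElt (D.isFam_cos.idx γ i))⁻¹ := fun i => by
    rw [eq_mul_inv_iff_mul_eq]
    refine zMat_injective ?_
    rw [zMat_mul, zMat_mul, zMat_incl, zMat_cosElt, zMat_cosElt]
    exact (D.isFam_cos.spec γ i).symm
  simp only [res_apply, key, ofMul_mul, ofMul_inv, map_add, map_neg, Finset.sum_add_distrib,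
    Finset.sum_neg_distrib, Finset.sum_const, Finset.card_univ, Fintype.card_option,
    Fintype.card_fin]
  rw [D.isFam_cos.sum_idx γ (fun i => x (Additive.ofMul (D.cosElt i)))]
  abel

theorem cor_crossHom (v w : ZVec) :
    D.cor (crossHom (Gamma0 (N * q)) v w) = crossHom (Gamma0 N) v w := by
  have := D.isFam_cos.trans_crossHom (α := fun _ : Unit => (1 : ZMat)) (fun _ => by simp)
    (fun _ _ _ _ => rfl)
    (fun i g => ⟨(), (D.cosElt i)⁻¹ * incl g, by
      rw [← D.zMat_cosElt, zMat_mul, zMat_incl, mul_one]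
      simp [zMat, Matrix.SpecialLinearGroup.coe_inv]⟩)
    (fun _ h => by
      obtain ⟨i, g, e⟩ := D.exists_cosRep h⁻¹
      refine ⟨i, g⁻¹, ?_⟩
      have := congrArg Matrix.adjugate e
      rw [Matrix.adjugate_mul_distrib] at this
      rw [mul_one]
      simpa [zMat, Matrix.SpecialLinearGroup.coe_inv, Matrix.adjugate_adjugate] using this.symm)
    v w
  rw [cor, this]
  simp

theorem wOp_crossHom (v w : ZVec) :
    D.wOp (crossHom (Gamma0 (N * q)) v w) =
      crossHom (Gamma0 (N * q)) (D.wMat.adjugate.mulVec v) (D.wMat.adjugate.mulVec w) := by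
  have hdet : (0 : ℤ) < D.wMat.adjugate.det := by
    rw [Matrix.det_adjugate, det_wMat]; simpa using D.prime.pos
  have := D.isFam_w.trans_crossHom (α := fun _ : Unit => D.wMat.adjugate) (fun _ => hdet)
    (fun _ _ _ _ => rfl)
    (fun i g => by
      obtain ⟨x, hx⟩ := D.wMat_step' g⁻¹
      refine ⟨(), x⁻¹, ?_⟩
      have := congrArg Matrix.adjugate hx
      rw [Matrix.adjugate_mul_distrib, Matrix.adjugate_mul_distrib] at this
      simpa [wRep, zMat, Matrix.SpecialLinearGroup.coe_inv, Matrix.adjugate_adjugate] using this)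
    (fun _ h => by
      obtain ⟨y, hy⟩ := D.wMat_step h⁻¹
      refine ⟨(), y⁻¹, ?_⟩
      have := congrArg Matrix.adjugate hy
      rw [Matrix.adjugate_mul_distrib, Matrix.adjugate_mul_distrib] at this
      simpa [wRep, zMat, Matrix.SpecialLinearGroup.coe_inv, Matrix.adjugate_adjugate] using this.symm)
    v w
  rw [wOp, this]
  simp

theorem wOp_wOp (z : GHom (Gamma0 (N * q)) A) : D.wOp (D.wOp z) = z := by
  obtain ⟨γ₂, h₂⟩ := D.exists_wMat_sq
  have h1 : IsFam (Gamma0 (N * q)) (Gamma0 (N * q)) fun _ : Unit => (1 : ZMat) :=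
    ⟨fun _ => by simp, fun _ _ _ _ => rfl, fun γ _ => ⟨(), γ, by simp⟩⟩
  have hc := D.isFam_w.prod D.isFam_w fun x y _ _ => Subsingleton.elim x y
  rw [wOp, D.isFam_w.trans_trans D.isFam_w hc, hc.trans_congr h1 rfl (q : ℤ) (fun _ => ())
    (fun _ => γ₂) (fun _ => by simp [wRep, h₂])]
  refine AddMonoidHom.ext fun t => ?_
  obtain ⟨γ, rfl⟩ := Additive.ofMul.surjective t
  rw [IsFam.trans_apply, Fintype.sum_unique,
    (h1.unique (γ := γ) (g := γ) (i := default) (j := default) (by simp)).2]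

theorem wOp_res_of_conj (y : GHom (Gamma0 N) A) {γ γ' : Gamma0 N}
    (h : toQ (γ' : SL(2, ℤ)) = haveI := Fact.mk D.prime; dConj (qU q) (toQ (γ : SL(2, ℤ)))) :
    ∃ hγ : (γ : SL(2, ℤ)) ∈ Gamma0 (N * q),
      D.wOp (D.res y) (Additive.ofMul ⟨_, hγ⟩) = y (Additive.ofMul γ') := by
  haveI := Fact.mk D.prime
  have hq0 : (q : ℚ) ≠ 0 := Nat.cast_ne_zero.mpr D.prime.ne_zero
  have e : ∀ i j, toQ (γ' : SL(2, ℤ)) i j = dConj (qU q) (toQ (γ : SL(2, ℤ))) i j := fun i j => by
    rw [h]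
  have e00 : (γ' : SL(2, ℤ)) 0 0 = (γ : SL(2, ℤ)) 0 0 := by
    have := e 0 0; simp [toQ_apply] at this; exact_mod_cast this
  have e11 : (γ' : SL(2, ℤ)) 1 1 = (γ : SL(2, ℤ)) 1 1 := by
    have := e 1 1; simp [toQ_apply] at this; exact_mod_cast this
  have e01 : (γ' : SL(2, ℤ)) 0 1 = (q : ℤ) * (γ : SL(2, ℤ)) 0 1 := by
    have := e 0 1; simp [toQ_apply] at this; exact_mod_cast this
  have e10 : (q : ℤ) * (γ' : SL(2, ℤ)) 1 0 = (γ : SL(2, ℤ)) 1 0 := by
    have := e 1 0; simp [toQ_apply] at this; field_simp at this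
    exact_mod_cast (mul_comm _ _).trans this
  have hγ : (γ : SL(2, ℤ)) ∈ Gamma0 (N * q) := mem_gamma0_iff_dvd.mpr (D.mem_iff.mpr
    ⟨mem_gamma0_iff_dvd.mp γ.2, e10 ▸ dvd_mul_right _ _⟩)
  refine ⟨hγ, ?_⟩
  obtain ⟨g', hg'⟩ := D.wMat_step ⟨_, hγ⟩
  rw [wOp, IsFam.trans_apply, Fintype.sum_unique,
    (D.isFam_w.unique (g := g') (i := default) (j := default) hg').2, res_apply]
  have he : incl g' = ⟨D.g, D.g_mem⟩ * γ' * ⟨D.g, D.g_mem⟩⁻¹ := by
    rw [eq_mul_inv_iff_mul_eq]
    refine zMat_injective ?_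
    rw [zMat_mul, zMat_mul, zMat_incl]
    refine mul_right_cancel_det (B := !![(q : ℤ), 0; 0, 1])
      (by simpa [Matrix.det_fin_two_of] using D.prime.ne_zero) ?_
    rw [mul_assoc]
    show zMat g' * D.wMat = _
    rw [← hg', wMat, mul_assoc, mul_assoc]
    congr 1
    ext i j
    fin_cases i <;> fin_cases j <;>
      simp [zMat, Matrix.mul_apply, Fin.sum_univ_two, e00, e11, e01, ← e10, Matrix.vecMul,
        dotProduct]
    all_goals ring
  rw [he, ofMul_mul, ofMul_mul, ofMul_inv, map_add, map_add, map_neg]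
  abel

theorem res_transfer {ℓ : ℕ} (hM : GoodIndex (N * q) ℓ) (hN : GoodIndex N ℓ)
    (x : GHom (Gamma0 N) A) : D.res (transferHom hN x) = transferHom hM (D.res x) := by
  refine AddMonoidHom.ext fun t => ?_
  obtain ⟨γ, rfl⟩ := Additive.ofMul.surjective t
  rw [res_apply, transferHom_apply, transferHom_apply]
  exact Finset.sum_congr rfl fun i _ => by
    rw [res_apply, (tr_unique hN (γ := incl γ) (g := incl (trCoef hM γ i))
      (trSpec hM γ i)).2]

theorem cor_transfer {ℓ : ℕ} (hM : GoodIndex (N * q) ℓ) (hN : GoodIndex N ℓ)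
    (z : GHom (Gamma0 (N * q)) A) : D.cor (transferHom hM z) = transferHom hN (D.cor z) := by
  have hℓq : ¬ (q : ℤ) ∣ (ℓ : ℤ) := fun h => hM.not_dvd
    (((Nat.prime_dvd_prime_iff_eq D.prime hM.prime).mp (Int.natCast_dvd_natCast.mp h)) ▸
      dvd_mul_left q N)
  have hL := (isFam_heckeRep hM).prod D.isFam_cos fun x y h e => by
    have e' : heckeRep ℓ x.1 * zMat (D.cosElt x.2 * (D.cosElt y.2)⁻¹) =
        zMat h * heckeRep ℓ y.1 := by
      rw [zMat_mul, ← mul_assoc, zMat_cosElt, e, ← mul_assoc, mul_assoc _ _ (zMat (D.cosElt y.2)⁻¹),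
        ← D.zMat_cosElt, ← zMat_mul, mul_inv_cancel, zMat_one, mul_one]
    have hγq : (q : ℤ) ∣ zMat (D.cosElt x.2 * (D.cosElt y.2)⁻¹) 1 0 := by
      have e10 := congrArg (fun X : ZMat => X 1 0) e'
      simp only [Matrix.mul_apply, Fin.sum_univ_two, heckeRep_one_zero, zero_mul, zero_add,
        mul_zero, add_zero] at e10
      have hdvd : (q : ℤ) ∣ heckeRep ℓ x.1 1 1 * zMat (D.cosElt x.2 * (D.cosElt y.2)⁻¹) 1 0 :=
        e10 ▸ ((D.mem_iff.mp (mem_gamma0_iff_dvd.mp h.2)).2.mul_right _)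
      refine ((Nat.prime_iff_prime_int.mp D.prime).dvd_or_dvd hdvd).resolve_left ?_
      cases x.1 with
      | none => simpa [heckeRep] using fun h1 : (q : ℤ) ∣ 1 =>
          D.prime.not_dvd_one (by exact_mod_cast h1)
      | some b => simpa [heckeRep] using hℓq
    have h2 : x.2 = y.2 := D.cos_inj (h := ⟨_, mem_gamma0_iff_dvd.mpr (D.mem_iff.mpr
      ⟨mem_gamma0_iff_dvd.mp (D.cosElt x.2 * (D.cosElt y.2)⁻¹).2, hγq⟩)⟩) (by
        show D.cosRep x.2 = zMat (D.cosElt x.2 * (D.cosElt y.2)⁻¹) * D.cosRep y.2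
        rw [← D.zMat_cosElt, ← D.zMat_cosElt, ← zMat_mul, inv_mul_cancel_right])
    refine Prod.ext ?_ h2
    rw [h2, mul_inv_cancel, zMat_one, mul_one] at e'
    exact (isFam_heckeRep hM).inj _ _ h e'
  have hR := D.isFam_cos.prod (isFam_heckeRep hN) fun x y h e => by
    have e' : heckeRep ℓ x.2 = zMat ((D.cosElt x.1)⁻¹ * incl h * D.cosElt y.1) * heckeRep ℓ y.2 := by
      rw [zMat_mul, zMat_mul, mul_assoc, mul_assoc, zMat_incl, zMat_cosElt, ← e, ← mul_assoc,
        ← D.zMat_cosElt, inv_mul_zMat, one_mul]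
    have h2 := (isFam_heckeRep hN).inj _ _ _ e'
    refine Prod.ext ?_ h2
    rw [h2] at e
    have := mul_right_cancel_det ((isFam_heckeRep hN).det_ne y.2)
      (show D.cosRep x.1 * heckeRep ℓ y.2 = (zMat h * D.cosRep y.1) * heckeRep ℓ y.2 by
        rw [mul_assoc]; exact e)
    exact D.cos_inj this
  have step : ∀ x : Option (Fin ℓ) × Option (Fin q), ∃ (y : Option (Fin q) × Option (Fin ℓ))
      (h : Gamma0 (N * q)), heckeRep ℓ x.1 * D.cosRep x.2 =
        zMat h * (D.cosRep y.1 * heckeRep ℓ y.2) := fun x => by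
    obtain ⟨j, g', hg'⟩ := exists_transfer_step hN.prime hN.not_dvd (D.cosElt x.2) x.1
    obtain ⟨i, h, hi⟩ := D.exists_cosRep g'
    exact ⟨(i, j), h, by rw [← mul_assoc, ← hi, ← D.zMat_cosElt]; exact hg'⟩
  choose π h hπ using step
  rw [← trans_heckeRep hM, ← trans_heckeRep hN, cor,
    (isFam_heckeRep hM).trans_trans D.isFam_cos hL, D.isFam_cos.trans_trans (isFam_heckeRep hN) hR]
  exact hL.trans_congr hR (by simp [mul_comm]) 1 π h (fun x => by rw [one_smul]; exact hπ x) z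

theorem wOp_transfer {ℓ : ℕ} (hM : GoodIndex (N * q) ℓ) (z : GHom (Gamma0 (N * q)) A) :
    D.wOp (transferHom hM z) = transferHom hM (D.wOp z) := by
  have hwd : D.wMat.det ≠ 0 := D.isFam_w.det_ne ()
  have hL := (isFam_heckeRep hM).prod D.isFam_w fun x y h e =>
    Prod.ext ((isFam_heckeRep hM).inj _ _ h (mul_right_cancel_det hwd (by
      rw [mul_assoc]; exact e))) rfl
  have hR := D.isFam_w.prod (isFam_heckeRep hM) fun x y h e => by
    obtain ⟨x', hx'⟩ := D.wMat_step' h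
    refine Prod.ext rfl ((isFam_heckeRep hM).inj _ _ x' (mul_left_cancel_det hwd ?_))
    rw [← mul_assoc, ← hx', mul_assoc]
    exact e
  have step : ∀ x : Unit × Option (Fin ℓ), ∃ (j : Option (Fin ℓ)) (h : Gamma0 (N * q)),
      D.wMat * heckeRep ℓ x.2 = zMat h * (heckeRep ℓ j * D.wMat) := fun x => by
    obtain ⟨Y, hY, hd, e⟩ := D.wMat_conj (X := heckeRep ℓ x.2)
      (by rw [heckeRep_one_zero]; exact dvd_zero _)
    obtain ⟨j, h, hj⟩ := exists_rep_factor hM (hd.trans (det_heckeRep _ _)) hY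
    exact ⟨j, h, by rw [e, hj, mul_assoc]⟩
  choose π h hπ using step
  rw [← trans_heckeRep hM, ← trans_heckeRep hM, wOp,
    (isFam_heckeRep hM).trans_trans D.isFam_w hL, D.isFam_w.trans_trans (isFam_heckeRep hM) hR]
  exact (hR.trans_congr hL (by simp [mul_comm]) 1 (fun x => (π x, ())) h
    (fun x => by rw [one_smul]; exact hπ x) z).symm

theorem cor_wOp_res (x : GHom (Gamma0 N) A) :
    D.cor (D.wOp (D.res x)) = transferHom ⟨D.prime, D.not_dvd⟩ x := by
  have hwd : D.wMat.det ≠ 0 := D.isFam_w.det_ne ()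
  have h1 := D.isFam_res.prod D.isFam_w fun x y _ _ => Subsingleton.elim x y
  have h2 := h1.prod D.isFam_cos fun x y h e => by
    have e' : D.wMat * zMat (D.cosElt x.2 * (D.cosElt y.2)⁻¹) = zMat h * D.wMat := by
      have e1 : D.wMat * D.cosRep x.2 = zMat h * (D.wMat * D.cosRep y.2) := by
        simpa [resRep, wRep] using e
      rw [zMat_mul, ← mul_assoc, zMat_cosElt, e1, mul_assoc, mul_assoc D.wMat,
        ← D.zMat_cosElt, ← zMat_mul, mul_inv_cancel, zMat_one, mul_one]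
    set k := zMat (⟨D.g, D.g_mem⟩⁻¹ * h * ⟨D.g, D.g_mem⟩ : Gamma0 N)
    have e'' : !![(q : ℤ), 0; 0, 1] * zMat (D.cosElt x.2 * (D.cosElt y.2)⁻¹) =
        k * !![(q : ℤ), 0; 0, 1] := by
      refine mul_left_cancel_det (B := (D.g : ZMat)) (by simp) ?_
      rw [← mul_assoc, ← mul_assoc, ← wMat, e', wMat, ← mul_assoc]
      congr 1
      show zMat h * zMat (⟨D.g, D.g_mem⟩ : Gamma0 N) = zMat (⟨D.g, D.g_mem⟩ : Gamma0 N) * k
      simp only [k, zMat_mul, ← mul_assoc]
      rw [← zMat_mul (⟨D.g, D.g_mem⟩ : Gamma0 N), mul_inv_cancel, zMat_one, one_mul]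
    have e10 := congrArg (fun X : ZMat => X 1 0) e''
    simp [Matrix.mul_apply, Fin.sum_univ_two] at e10
    refine Prod.ext (Subsingleton.elim _ _) (D.cos_inj (h := ⟨_, mem_gamma0_iff_dvd.mpr (D.mem_iff.mpr
      ⟨mem_gamma0_iff_dvd.mp (D.cosElt x.2 * (D.cosElt y.2)⁻¹).2,
        ⟨k 1 0, by rw [mul_comm]; exact e10⟩⟩)⟩) (by
        show D.cosRep x.2 = zMat (D.cosElt x.2 * (D.cosElt y.2)⁻¹) * D.cosRep y.2
        rw [← D.zMat_cosElt, ← D.zMat_cosElt, ← zMat_mul, inv_mul_cancel_right]))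
  have step : ∀ x : (Unit × Unit) × Option (Fin q), ∃ (j : Option (Fin q)) (h : Gamma0 N),
      (1 : ZMat) * D.wMat * D.cosRep x.2 = zMat h * heckeRep q j := fun x => by
    refine exists_rep_factor ⟨D.prime, D.not_dvd⟩ ?_ ?_
    · rw [Matrix.det_mul, one_mul, det_wMat, ← D.zMat_cosElt, det_zMat, mul_one]
    · rw [one_mul, ← D.zMat_cosElt, Matrix.mul_apply, Fin.sum_univ_two]
      refine dvd_add (dvd_mul_of_dvd_left ?_ _) ((mem_gamma0_iff_dvd.mp (D.cosElt x.2).2).mul_left _)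
      simp [wMat, Matrix.mul_apply, Fin.sum_univ_two, D.g10]
  choose π h hπ using step
  rw [cor, wOp, res, D.isFam_res.trans_trans D.isFam_w h1, h1.trans_trans D.isFam_cos h2,
    ← trans_heckeRep]
  exact h2.trans_congr (isFam_heckeRep (N := N) (ℓ := q) ⟨D.prime, D.not_dvd⟩) (by simp) 1 π h (fun x => by
    rw [one_smul]; exact hπ x) x

theorem res_cor (z : GHom (Gamma0 (N * q)) A) : D.res (D.cor z) = z + D.uOp (D.wOp z) := by
  have hwd : D.wMat.det ≠ 0 := D.isFam_w.det_ne ()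
  let tail : Fin q → ZMat := fun b => D.cosRep (some b)
  have ht : IsFam (Gamma0 (N * q)) (Gamma0 (N * q)) tail :=
    { det_ne := fun b => D.isFam_cos.det_ne _
      inj := fun a b h e => Option.some_injective _ (D.cos_inj e)
      step := fun γ b => by
        obtain ⟨j, h, e⟩ := D.isFam_cos.step (incl γ) (some b)
        cases j with
        | none =>
          exfalso
          have : D.cosRep (some b) = zMat (h * γ⁻¹) * D.cosRep none := by
            rw [zMat_mul]
            simp only [cosRep, mul_one] at e ⊢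
            rw [← e, mul_assoc, zMat_incl, ← zMat_mul, mul_inv_cancel, zMat_one, mul_one]
          exact Option.some_ne_none b (D.cos_inj this)
        | some c => exact ⟨c, h, e⟩ }
  have hWU := D.isFam_w.prod D.isFam_u fun x y h e => by
    have hs : ∀ b, D.wMat * uRep b = (q : ℤ) • tail b := fun b => by
      show (D.g : ZMat) * !![(q : ℤ), 0; 0, 1] * !![1, ((b : ℕ) : ℤ); 0, (q : ℤ)] = _
      simp only [tail, cosRep, Matrix.SpecialLinearGroup.coe_mul, ModularGroup.coe_T_zpow,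
        ← mul_smul_comm, mul_assoc]
      congr 1
      simp [Matrix.mul_fin_two]
    refine Prod.ext rfl (ht.inj _ _ h (smul_right_injective ZMat
      (Int.natCast_ne_zero.mpr D.prime.ne_zero) ?_))
    show (q : ℤ) • tail x.2 = (q : ℤ) • (zMat h * tail y.2)
    rw [← mul_smul_comm, ← hs, ← hs]
    exact e
  have hq : ∀ x : Unit × Fin q, D.wRep x.1 * uRep x.2 =
      (q : ℤ) • (zMat (1 : Gamma0 (N * q)) * tail x.2) := fun x => by
    show (D.g : ZMat) * !![(q : ℤ), 0; 0, 1] * !![1, ((x.2 : ℕ) : ℤ); 0, (q : ℤ)] = _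
    simp only [tail, cosRep, Matrix.SpecialLinearGroup.coe_mul, ModularGroup.coe_T_zpow,
      zMat_one, one_mul, ← mul_smul_comm, mul_assoc]
    congr 1
    simp [Matrix.mul_fin_two]
  rw [uOp, wOp, D.isFam_w.trans_trans D.isFam_u hWU,
    hWU.trans_congr ht (by simp) (q : ℤ) Prod.snd (fun _ => 1) hq]
  refine AddMonoidHom.ext fun t => ?_
  obtain ⟨γ, rfl⟩ := Additive.ofMul.surjective t
  rw [res_apply, cor, IsFam.trans_apply, Fintype.sum_option, AddMonoidHom.add_apply,
    IsFam.trans_apply, (D.isFam_cos.unique (γ := incl γ) (g := γ) (i := none) (j := none)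
      (by simp [cosRep, zMat_incl])).2]
  congr 1
  exact Finset.sum_congr rfl fun b _ => by
    rw [(D.isFam_cos.unique (γ := incl γ) (i := some b) (j := some (ht.idx γ b))
      (by rw [zMat_incl]; exact ht.spec γ b)).2]

theorem uOp_charInvolution (z : GHom (Gamma0 (N * q)) A) :
    D.uOp (ModularCurve.Period.charInvolution (N * q) ℤ A z) =
      ModularCurve.Period.charInvolution (N * q) ℤ A (D.uOp z) := by
  haveI : NeZero q := ⟨D.prime.ne_zero⟩
  set J := ModularCurve.Period.jConjGamma0 (N * q)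
  have hJ : ∀ g, ModularCurve.Period.jConjMat (zMat g) = zMat (J g) := fun g => rfl
  let α : Fin q → ZMat := fun b => ModularCurve.Period.jConjMat (uRep b)
  have hα : IsFam (Gamma0 (N * q)) (Gamma0 (N * q)) α :=
    { det_ne := fun b => by
        rw [ModularCurve.Period.jConjMat_det]; exact D.isFam_u.det_ne b
      inj := fun a b h e => D.isFam_u.inj a b (J h) (by
        have := congrArg ModularCurve.Period.jConjMat e
        simp only [α, ModularCurve.Period.jConjMat_mul, ModularCurve.Period.jConjMat_jConjMat, hJ]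
          at this
        exact this)
      step := fun γ b => by
        obtain ⟨c, h, e⟩ := D.isFam_u.step (J γ) b
        refine ⟨c, J h, ?_⟩
        have := congrArg ModularCurve.Period.jConjMat e
        simp only [ModularCurve.Period.jConjMat_mul, hJ] at this
        rwa [show J (J γ) = γ from ModularCurve.Period.jConjGamma0_jConjGamma0 _ γ] at this }
  have key : ∀ b : Fin q, ∃ (k : ℤ) (c : Fin q),
      α b = ((ModularGroup.T ^ k : SL(2, ℤ)) : ZMat) * uRep c := by
    intro b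
    obtain ⟨k, c, hk⟩ : ∃ (k : ℤ) (c : Fin q), -((b : ℕ) : ℤ) = ((c : ℕ) : ℤ) + k * q := by
      by_cases h0 : (b : ℕ) = 0
      · exact ⟨0, b, by simp [h0]⟩
      · exact ⟨-1, ⟨q - b, by omega⟩, by rw [Nat.cast_sub b.isLt.le]; ring⟩
    refine ⟨k, c, ?_⟩
    rw [ModularGroup.coe_T_zpow]
    ext i j
    fin_cases i <;> fin_cases j <;>
      simp [α, uRep, heckeRep, ModularCurve.Period.jConjMat, Matrix.mul_apply, Fin.sum_univ_two]
    linarith
  choose k π hπ using key
  rw [uOp, D.isFam_u.trans_congr hα rfl 1 (Function.invFun π)]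
  · refine AddMonoidHom.ext fun t => ?_
    obtain ⟨γ, rfl⟩ := Additive.ofMul.surjective t
    rw [IsFam.trans_apply, ModularCurve.Period.charInvolution_apply, toMul_ofMul,
      IsFam.trans_apply]
    exact Finset.sum_congr rfl fun b _ => by
      rw [ModularCurve.Period.charInvolution_apply, toMul_ofMul,
        (hα.unique (j := D.isFam_u.idx (J γ) b) (g := J (D.isFam_u.coef (J γ) b)) (γ := γ) (i := b)
          (by
            have := congrArg ModularCurve.Period.jConjMat (D.isFam_u.spec (J γ) b)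
            simp only [ModularCurve.Period.jConjMat_mul, hJ] at this
            rwa [show J (J γ) = γ from ModularCurve.Period.jConjGamma0_jConjGamma0 _ γ] at this)).2,
        show J (J (D.isFam_u.coef (J γ) b)) = _ from ModularCurve.Period.jConjGamma0_jConjGamma0 _ _]
  · exact fun i => ⟨ModularGroup.T ^ (-(k (Function.invFun π i))), T_zpow_mem' _⟩
  · intro i
    have hinj : Function.Injective π := fun a b hab => hα.inj a b
      ⟨ModularGroup.T ^ (k a - k b), T_zpow_mem' _⟩ (by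
        show _ = ((ModularGroup.T ^ (k a - k b) : SL(2, ℤ)) : ZMat) * α b
        rw [hπ a, hπ b, hab, ← mul_assoc, ← Matrix.SpecialLinearGroup.coe_mul, ← zpow_add,
          sub_add_cancel])
    obtain ⟨b, rfl⟩ := (Finite.injective_iff_surjective.mp hinj) i
    rw [Function.leftInverse_invFun hinj b, one_smul, hπ b]
    show _ = ((ModularGroup.T ^ (-k b) : SL(2, ℤ)) : ZMat) *
      (((ModularGroup.T ^ k b : SL(2, ℤ)) : ZMat) * _)
    rw [← mul_assoc, ← Matrix.SpecialLinearGroup.coe_mul, ← zpow_add, neg_add_cancel, zpow_zero,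
      Matrix.SpecialLinearGroup.coe_one, one_mul]

end LevData

end Fermat.Agent.Raise
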