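/-
Crossing homomorphisms span all integral homomorphisms up to the factor eight.
-/
import Fermat.Agent.Raise.Transfer
import Mathlib.GroupTheory.DoubleCoset
import Mathlib.NumberTheory.Modular

set_option autoImplicit false

noncomputable section

namespace Fermat.Agent.Raise

open scoped MatrixGroups

/-- The element of order six fixing the hexagonal form. -/
def hexV : SL(2, ℤ) := ⟨!![0, 1; -1, 1], by simp [Matrix.det_fin_two_of]⟩

/-- The element of order three fixing the hexagonal form. -/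
def hexU : SL(2, ℤ) := ⟨!![0, -1; 1, -1], by simp [Matrix.det_fin_two_of]⟩

theorem hexV_six : hexV ^ 6 = 1 := by
  refine Subtype.ext ?_
  rw [Matrix.SpecialLinearGroup.coe_pow]
  simp [hexV, pow_succ, Matrix.mul_fin_two, Matrix.one_fin_two]

theorem hexU_eq : hexU = hexV ^ 4 := by
  refine Subtype.ext ?_
  rw [Matrix.SpecialLinearGroup.coe_pow]
  simp [hexU, hexV, pow_succ, Matrix.mul_fin_two, Matrix.one_fin_two]

theorem pow_six_of_mem {u : SL(2, ℤ)} (hu : u ∈ Subgroup.zpowers hexV) : u ^ 6 = 1 := by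
  obtain ⟨k, rfl⟩ := hu
  show (hexV ^ k) ^ 6 = 1
  rw [← zpow_natCast, ← zpow_mul, mul_comm, zpow_mul, zpow_natCast, hexV_six, one_zpow]

/-- The six elements fixing the hexagonal form. -/
def hexSet : Finset SL(2, ℤ) := (Finset.range 6).image fun k => hexV ^ k

theorem hexSet_subset {u : SL(2, ℤ)} (hu : u ∈ hexSet) : u ∈ Subgroup.zpowers hexV := by
  obtain ⟨k, -, rfl⟩ := Finset.mem_image.mp hu
  exact Subgroup.pow_mem _ (Subgroup.mem_zpowers _) k

theorem card_hexSet : hexSet.card = 6 := by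
  rw [hexSet, Finset.card_image_of_injOn, Finset.card_range]
  intro a ha b hb e
  have ha' : a < 6 := Finset.mem_range.mp ha
  have hb' : b < 6 := Finset.mem_range.mp hb
  have e0 := congrArg (fun g : SL(2, ℤ) => ((g : ZMat) 0 0, (g : ZMat) 1 0)) e
  simp only [Matrix.SpecialLinearGroup.coe_pow] at e0
  interval_cases a <;> interval_cases b <;>
    first
    | rfl
    | simp [hexV, pow_succ, Matrix.mul_fin_two, Matrix.one_fin_two] at e0

/-- The first basis vector. -/
abbrev eOne : ZVec := ![1, 0]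

/-- The second basis vector. -/
abbrev eTwo : ZVec := ![0, 1]

theorem vdet_basis : vdet eOne eTwo = 1 := by simp [vdet]

theorem pull_hexV (X : ZVec) (Y : ZVec) : pull (hexV : ZMat) X Y = pull 1 X Y := by
  simp [pull, hexV, hexForm, Matrix.mulVec, dotProduct, Fin.sum_univ_two]
  ring

theorem triSgn_hexSet {u : SL(2, ℤ)} (hu : u ∈ hexSet) : triSgn (u : ZMat) eOne eTwo = -3 := by
  obtain ⟨k, -, rfl⟩ := Finset.mem_image.mp hu
  have hk : ∀ (k : ℕ) v w, pull ((hexV ^ k : SL(2, ℤ)) : ZMat) v w = pull 1 v w := by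
    intro k
    induction k with
    | zero => simp
    | succ k ih =>
      intro v w
      rw [pow_succ', Matrix.SpecialLinearGroup.coe_mul, pull_mul, pull_hexV, pull, Matrix.one_mulVec,
        Matrix.one_mulVec, ← pull, ih]
  simp only [triSgn, sgn, hk]
  simp [pull, hexForm, eOne, eTwo]

theorem hex_cases {a b c d : ℤ} (hdet : a * d - b * c = 1) (h1 : a * a - a * c + c * c = 1)
    (h2 : b * b - b * d + d * d = 1) (hx : 2 * a * b - a * d - c * b + 2 * c * d ≤ -1) :
    (a, b, c, d) ∈ ({(1, 0, 0, 1), (0, 1, -1, 1), (-1, 1, -1, 0), (-1, 0, 0, -1),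
      (0, -1, 1, -1), (1, -1, 1, 0)} : Finset (ℤ × ℤ × ℤ × ℤ)) := by
  have ba1 : -1 ≤ a := by nlinarith [sq_nonneg (a - c)]
  have ba2 : a ≤ 1 := by nlinarith [sq_nonneg (a - c)]
  have bc1 : -1 ≤ c := by nlinarith [sq_nonneg (a - c)]
  have bc2 : c ≤ 1 := by nlinarith [sq_nonneg (a - c)]
  have bb1 : -1 ≤ b := by nlinarith [sq_nonneg (b - d)]
  have bb2 : b ≤ 1 := by nlinarith [sq_nonneg (b - d)]
  have bd1 : -1 ≤ d := by nlinarith [sq_nonneg (b - d)]
  have bd2 : d ≤ 1 := by nlinarith [sq_nonneg (b - d)]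
  interval_cases a <;> interval_cases c <;> (try norm_num at h1) <;>
    interval_cases b <;> interval_cases d <;> first | omega | simp

set_option maxHeartbeats 1000000 in
theorem mem_hexSet_of_triSgn {h : SL(2, ℤ)} (hne : triSgn (h : ZMat) eOne eTwo ≠ -1) :
    h ∈ hexSet := by
  have hd : (h : ZMat).det ≠ 0 := by simp
  have hD : vdet eOne eTwo ≠ 0 := by simp [vdet_basis]
  obtain ⟨hx, h13, h23⟩ := triSgn_cases hd hD hne
  have hid := pull_polar (h : ZMat) h eOne eTwo
  rw [mixDisc_self, h.2, vdet_basis] at hid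
  rw [pull_add_right] at h13
  rw [pull_add_right, pull_comm (h : ZMat) eTwo eOne] at h23
  have hdet := h.2
  rw [Matrix.det_fin_two] at hdet
  simp [pull, hexForm, eOne, eTwo, Matrix.mulVec, dotProduct, Fin.sum_univ_two] at hx h13 h23 hid
  set a := (h : ZMat) 0 0 with ha
  set c := (h : ZMat) 1 0 with hc
  set b := (h : ZMat) 0 1 with hb
  set d := (h : ZMat) 1 1 with hd'
  set x := 2 * a * b - a * d - c * b + 2 * c * d with hxdef
  set r := 2 * a * a - a * c - c * a + 2 * c * c with hr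
  set s := 2 * b * b - b * d - d * b + 2 * d * d with hs
  have hrs : r * s - x ^ 2 = 3 := by linarith
  have hr2 : r % 2 = 0 := by
    rw [hr, show 2 * a * a - a * c - c * a + 2 * c * c = 2 * (a * a - a * c + c * c) by ring]
    omega
  have hs2 : s % 2 = 0 := by
    rw [hs, show 2 * b * b - b * d - d * b + 2 * d * d = 2 * (b * b - b * d + d * d) by ring]
    omega
  have hxodd : x % 2 = 1 := by
    by_contra hev
    obtain ⟨x', hx'⟩ : (2 : ℤ) ∣ x := Int.dvd_of_emod_eq_zero (by omega)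
    obtain ⟨r', hr'⟩ : (2 : ℤ) ∣ r := Int.dvd_of_emod_eq_zero hr2
    rw [hr', hx', show 2 * r' * s - (2 * x') ^ 2 = 2 * (r' * s - 2 * x' ^ 2) by ring] at hrs
    omega
  have hu : 1 ≤ r + x := by omega
  have ht : 1 ≤ x + s := by omega
  have hw : 1 ≤ -x := by omega
  have hone : r = 2 ∧ s = 2 := by
    constructor <;> nlinarith [mul_le_mul_of_nonneg_left hu (show 0 ≤ -x by omega),
      mul_le_mul_of_nonneg_left ht (show 0 ≤ -x by omega),
      mul_le_mul_of_nonneg_left ht (show 0 ≤ r + x by omega)]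
  have hval := hex_cases (a := a) (b := b) (c := c) (d := d) (by linarith)
    (by nlinarith [hone.1]) (by nlinarith [hone.2]) (by omega)
  refine Finset.mem_image.mpr ?_
  simp only [Finset.mem_insert, Finset.mem_singleton, Prod.mk.injEq] at hval
  have hh : (h : ZMat) = !![a, b; c, d] := (Matrix.eta_fin_two _)
  have hk : ∀ k : ℕ, k < 6 → (hexV : ZMat) ^ k = !![a, b; c, d] →
      ∃ k ∈ Finset.range 6, hexV ^ k = h := fun k hk e =>
    ⟨k, Finset.mem_range.mpr hk, Subtype.ext (by
      rw [Matrix.SpecialLinearGroup.coe_pow, e, hh])⟩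
  clear_value a b c d
  rcases hval with ⟨rfl, rfl, rfl, rfl⟩ | ⟨rfl, rfl, rfl, rfl⟩ | ⟨rfl, rfl, rfl, rfl⟩ |
    ⟨rfl, rfl, rfl, rfl⟩ | ⟨rfl, rfl, rfl, rfl⟩ | ⟨rfl, rfl, rfl, rfl⟩
  · exact hk 0 (by norm_num) (by simp [Matrix.one_fin_two])
  · exact hk 1 (by norm_num) (by simp [hexV])
  · exact hk 2 (by norm_num) (by simp [hexV, pow_succ, Matrix.mul_fin_two])
  · exact hk 3 (by norm_num) (by simp [hexV, pow_succ, Matrix.mul_fin_two])
  · exact hk 4 (by norm_num) (by simp [hexV, pow_succ, Matrix.mul_fin_two])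
  · exact hk 5 (by norm_num) (by simp [hexV, pow_succ, Matrix.mul_fin_two])

theorem triSgn_add_one (h : SL(2, ℤ)) :
    triSgn (h : ZMat) eOne eTwo + 1 = if h ∈ hexSet then -2 else 0 := by
  split_ifs with hm
  · rw [triSgn_hexSet hm]; norm_num
  · by_contra hne
    exact hm (mem_hexSet_of_triSgn fun e => hne (by rw [e]; norm_num))

section Potential

variable (G : Subgroup SL(2, ℤ)) (x : GHom G ℤ)

theorem exists_decomp_hex (g : SL(2, ℤ)) :
    ∃ γ : G, ∃ u ∈ Subgroup.zpowers hexV,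
      g = (γ : SL(2, ℤ)) * (DoubleCoset.mk G (Subgroup.zpowers hexV) g).out * u := by
  obtain ⟨a, b, ha, hb, e⟩ := DoubleCoset.mk_out_eq_mul G (Subgroup.zpowers hexV) g
  exact ⟨⟨a⁻¹, inv_mem ha⟩, b⁻¹, inv_mem hb, by rw [e]; group⟩

/-- A potential for a homomorphism, invariant under the hexagonal stabiliser. -/
def potential (g : SL(2, ℤ)) : ℤ := x (Additive.ofMul (exists_decomp_hex G g).choose)

theorem potential_eq {g : SL(2, ℤ)} {γ : G} {u : SL(2, ℤ)} (hu : u ∈ Subgroup.zpowers hexV)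
    (h : g = (γ : SL(2, ℤ)) * (DoubleCoset.mk G (Subgroup.zpowers hexV) g).out * u) :
    potential G x g = x (Additive.ofMul γ) := by
  obtain ⟨v, hv, e⟩ := (exists_decomp_hex G g).choose_spec
  rw [potential]
  set γ' := (exists_decomp_hex G g).choose
  set r := (DoubleCoset.mk G (Subgroup.zpowers hexV) g).out
  have e' : (γ : SL(2, ℤ))⁻¹ * γ' = r * (u * v⁻¹) * r⁻¹ := by
    rw [inv_mul_eq_iff_eq_mul, ← mul_assoc, ← mul_assoc, ← mul_assoc, ← h]
    rw [e]; group
  have h6 : (γ⁻¹ * γ') ^ 6 = 1 := Subtype.ext (by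
    rw [SubmonoidClass.coe_pow, Subgroup.coe_mul, Subgroup.coe_inv, e', conj_pow,
      pow_six_of_mem (mul_mem hu (inv_mem hv))]
    simp)
  have := congrArg (fun y => x (Additive.ofMul y)) h6
  simp only [ofMul_pow, map_nsmul, ofMul_one, map_zero, ofMul_mul, map_add, ofMul_inv, map_neg,
    nsmul_eq_mul, Nat.cast_ofNat] at this
  omega

theorem potential_smul (γ : G) (g : SL(2, ℤ)) :
    potential G x ((γ : SL(2, ℤ)) * g) = x (Additive.ofMul γ) + potential G x g := by
  obtain ⟨γ', u, hu, e⟩ := exists_decomp_hex G g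
  have hr : DoubleCoset.mk G (Subgroup.zpowers hexV) ((γ : SL(2, ℤ)) * g) =
      DoubleCoset.mk G (Subgroup.zpowers hexV) g :=
    (DoubleCoset.eq _ _ _ _).mpr ⟨(γ : SL(2, ℤ))⁻¹, inv_mem γ.2, 1, one_mem _, by group⟩
  rw [potential_eq G x (γ := γ * γ') hu (by
    rw [hr, Subgroup.coe_mul]
    conv_lhs => rw [e]
    simp only [mul_assoc]), potential_eq G x hu e, ofMul_mul, map_add]

theorem potential_mul {u : SL(2, ℤ)} (hu : u ∈ Subgroup.zpowers hexV) (g : SL(2, ℤ)) :
    potential G x (g * u) = potential G x g := by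
  obtain ⟨γ, v, hv, e⟩ := exists_decomp_hex G g
  have hr : DoubleCoset.mk G (Subgroup.zpowers hexV) (g * u) =
      DoubleCoset.mk G (Subgroup.zpowers hexV) g :=
    (DoubleCoset.eq _ _ _ _).mpr ⟨1, one_mem _, u⁻¹, inv_mem hu, by group⟩
  rw [potential_eq G x (γ := γ) (mul_mem hv hu) (by
    rw [hr]
    conv_lhs => rw [e]
    simp only [mul_assoc]), potential_eq G x hv e]

/-- The difference of the signs of an edge at two base forms. -/
def edgeDiff (γ : G) (h : SL(2, ℤ)) : ℤ :=
  sgn (baseAt γ * (h : ZMat)) eOne eTwo - sgn (h : ZMat) eOne eTwo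

theorem finite_edgeDiff (γ : G) : (Function.support (edgeDiff G γ)).Finite := by
  refine (finite_sgn_ne (M := 1) (M' := baseAt γ) (by simp) (by simp [det_baseAt])
    (v := eOne) (w := eTwo) (by simp [vdet_basis])).subset fun h hh => ?_
  intro e
  rw [one_mul] at e
  exact hh (sub_eq_zero.mpr e)

theorem sgn_smul_right (M : ZMat) (k : ℤ) (v w : ZVec) :
    sgn M v (k • w) = k.sign * sgn M v w := by rw [sgn_comm, sgn_smul_left, sgn_comm M w v]

theorem mulVec_S : ((ModularGroup.S : SL(2, ℤ)) : ZMat).mulVec eOne = eTwo ∧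
    ((ModularGroup.S : SL(2, ℤ)) : ZMat).mulVec eTwo = (-1 : ℤ) • eOne := by
  constructor <;> ext i <;> fin_cases i <;> simp [ModularGroup.S, eOne, eTwo]

theorem sgn_mul_S (M : ZMat) :
    sgn (M * ((ModularGroup.S : SL(2, ℤ)) : ZMat)) eOne eTwo = -sgn M eOne eTwo := by
  rw [sgn_mul, mulVec_S.1, mulVec_S.2, sgn_smul_right, sgn_comm M eTwo eOne]
  simp

theorem sgn_hexU_sum (M : ZMat) :
    sgn M eOne eTwo + sgn (M * (hexU : ZMat)) eOne eTwo +
      sgn (M * ((hexU ^ 2 : SL(2, ℤ)) : ZMat)) eOne eTwo = triSgn M eOne eTwo := by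
  have a : (hexU : ZMat).mulVec eOne = eTwo ∧
      (hexU : ZMat).mulVec eTwo = (-1 : ℤ) • (eOne + eTwo) := by
    constructor <;> ext i <;> fin_cases i <;> simp [hexU, eOne, eTwo]
  have b : ((hexU ^ 2 : SL(2, ℤ)) : ZMat).mulVec eOne = (-1 : ℤ) • (eOne + eTwo) ∧
      ((hexU ^ 2 : SL(2, ℤ)) : ZMat).mulVec eTwo = eOne := by
    rw [Matrix.SpecialLinearGroup.coe_pow]
    constructor <;> ext i <;> fin_cases i <;>
      simp [hexU, eOne, eTwo, pow_two, Matrix.mul_fin_two]
  rw [sgn_mul M (hexU : ZMat), sgn_mul M ((hexU ^ 2 : SL(2, ℤ)) : ZMat), a.1, a.2, b.1, b.2,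
    sgn_smul_right, sgn_smul_left, sgn_comm M (eOne + eTwo) eOne]
  simp [triSgn]
  ring

theorem finsum_potential_edgeDiff (γ : G) :
    ∑ᶠ h, potential G x h * edgeDiff G γ h = -4 * x (Additive.ofMul γ) := by
  set F : SL(2, ℤ) → ℤ := fun h => potential G x h * edgeDiff G γ h
  have hF : ∀ e : SL(2, ℤ) → ℤ, (Function.support e).Finite →
      (Function.support fun h => potential G x h * e h).Finite := fun e he =>
    he.subset (Function.support_mul_subset_right _ _)
  have hsh : ∀ u : SL(2, ℤ), (Function.support fun h => F (h * u)).Finite := fun u =>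
    (hF _ (finite_edgeDiff G γ)).preimage (mul_left_injective u).injOn
  have hsum : ∀ u : SL(2, ℤ), ∑ᶠ h, F (h * u) = ∑ᶠ h, F h := fun u =>
    finsum_eq_of_bijective (fun h => h * u) (Group.mulRight_bijective u) fun _ => rfl
  have h3 : ∑ᶠ h, (F h + F (h * hexU) + F (h * hexU ^ 2)) = 3 * ∑ᶠ h, F h := by
    rw [finsum_add_distrib (((hF _ (finite_edgeDiff G γ)).union (hsh hexU)).subset
        (Function.support_add _ _)) (hsh _),
      finsum_add_distrib (hF _ (finite_edgeDiff G γ)) (hsh _), hsum, hsum]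
    ring
  have hU : hexU ∈ Subgroup.zpowers hexV := hexU_eq ▸ Subgroup.pow_mem _ (Subgroup.mem_zpowers _) 4
  let E : SL(2, ℤ) → ℤ := fun h => if h ∈ hexSet then -2 else 0
  have hEB : ∀ h, E ((γ : SL(2, ℤ))⁻¹ * h) = triSgn (baseAt γ * (h : ZMat)) eOne eTwo + 1 :=
    fun h => (triSgn_add_one _).symm
  have hpt : ∀ h, F h + F (h * hexU) + F (h * hexU ^ 2) =
      potential G x h * E ((γ : SL(2, ℤ))⁻¹ * h) - potential G x h * E h := fun h => by
    rw [hEB, show E h = triSgn (h : ZMat) eOne eTwo + 1 from (triSgn_add_one h).symm,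
      ← sgn_hexU_sum (baseAt γ * (h : ZMat)), ← sgn_hexU_sum (h : ZMat)]
    simp only [F, edgeDiff, potential_mul G x hU, potential_mul G x (pow_mem hU 2),
      Matrix.SpecialLinearGroup.coe_mul, mul_assoc]
    ring
  have hE : (Function.support E).Finite := hexSet.finite_toSet.subset fun h hh => by
    by_contra hn; exact hh (if_neg hn)
  have hEγ : (Function.support fun h => E ((γ : SL(2, ℤ))⁻¹ * h)).Finite :=
    hE.preimage (mul_right_injective _).injOn
  have hsumE : ∀ φ : SL(2, ℤ) → ℤ, ∑ᶠ h, φ h * E h = -2 * ∑ u ∈ hexSet, φ u := fun φ => by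
    rw [finsum_eq_finset_sum_of_support_subset _ (s := hexSet) fun h hh => by
      by_contra hn
      exact hh (by show φ h * E h = 0; simp only [E]; rw [if_neg (by simpa using hn), mul_zero]),
      Finset.mul_sum]
    exact Finset.sum_congr rfl fun u hu => by simp only [E, if_pos hu]; ring
  rw [finsum_congr hpt, finsum_sub_distrib (hF _ hEγ) (hF _ hE), hsumE] at h3
  have e1 : ∑ᶠ h, potential G x h * E ((γ : SL(2, ℤ))⁻¹ * h) =
      ∑ᶠ h, potential G x ((γ : SL(2, ℤ)) * h) * E h :=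
    (finsum_eq_of_bijective (fun h => (γ : SL(2, ℤ)) * h) (Group.mulLeft_bijective _)
      fun h => by rw [inv_mul_cancel_left]).symm
  rw [e1, hsumE] at h3
  simp only [potential_smul, Finset.sum_add_distrib, Finset.sum_const, card_hexSet,
    nsmul_eq_mul, Nat.cast_ofNat] at h3
  linarith

end Potential

/-- The factor eight. -/
theorem eight_smul_mem (G : Subgroup SL(2, ℤ)) [G.FiniteIndex] (x : GHom G ℤ) :
    (8 : ℤ) • x ∈ AddSubgroup.closure
      {y | ∃ v w : ZVec, v ≠ 0 ∧ w ≠ 0 ∧ y = crossHom G v w} := by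
  classical
  haveI : Fintype (SL(2, ℤ) ⧸ G) := Fintype.ofFinite _
  let R : SL(2, ℤ) ⧸ G → SL(2, ℤ) := fun k => k.out⁻¹
  let e : SL(2, ℤ) → ℤ := fun h => potential G x (h * ModularGroup.S) - potential G x h
  have he : ∀ (g : G) h, e ((g : SL(2, ℤ)) * h) = e h := fun g h => by
    simp only [e, mul_assoc, potential_smul]; ring
  have hR : ∀ k (v : ZVec), v ≠ 0 → (R k : ZMat).mulVec v ≠ 0 := fun k v hv h0 => hv (by
    have := congrArg (((R k)⁻¹ : SL(2, ℤ)) : ZMat).mulVec h0
    rwa [Matrix.mulVec_mulVec, ← Matrix.SpecialLinearGroup.coe_mul, inv_mul_cancel,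
      Matrix.SpecialLinearGroup.coe_one, Matrix.one_mulVec, Matrix.mulVec_zero] at this)
  suffices h : (8 : ℤ) • x =
      ∑ k, e (R k) • crossHom G ((R k : ZMat).mulVec eOne) ((R k : ZMat).mulVec eTwo) by
    rw [h]
    refine sum_mem fun k _ => zsmul_mem (AddSubgroup.subset_closure ?_) _
    exact ⟨_, _, hR k _ (by simp [eOne]), hR k _ (by simp [eTwo]), rfl⟩
  refine AddMonoidHom.ext fun t => ?_
  obtain ⟨γ, rfl⟩ := Additive.ofMul.surjective t
  simp only [AddMonoidHom.smul_apply, AddMonoidHom.finsetSum_apply, smul_eq_mul, crossHom_apply,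
    vdet_mulVec, Matrix.SpecialLinearGroup.det_coe, one_mul, vdet_basis, Int.sign_one]
  set P : SL(2, ℤ) → ℤ := fun h => e h * edgeDiff G γ h
  have hP : (Function.support P).Finite :=
    (finite_edgeDiff G γ).subset (Function.support_mul_subset_right _ _)
  let m : (SL(2, ℤ) ⧸ G) × G → SL(2, ℤ) := fun p => (p.2 : SL(2, ℤ)) * R p.1
  have hm : Function.Bijective m := by
    refine ⟨fun p q hpq => ?_, fun h => ?_⟩
    · have hk : ∀ p : (SL(2, ℤ) ⧸ G) × G, ((m p)⁻¹ : SL(2, ℤ)) = (p.1.out * (p.2 : SL(2, ℤ))⁻¹) :=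
        fun p => by simp only [m, R]; group
      have h1 : ∀ p : (SL(2, ℤ) ⧸ G) × G, (((m p)⁻¹ : SL(2, ℤ)) : SL(2, ℤ) ⧸ G) = p.1 := fun p => by
        conv_rhs => rw [← QuotientGroup.out_eq' p.1]
        rw [QuotientGroup.eq, hk]
        simp
      have h2 : p.1 = q.1 := by rw [← h1 p, ← h1 q, hpq]
      simp only [m, h2] at hpq
      exact Prod.ext h2 (Subtype.ext (mul_right_cancel hpq))
    · obtain ⟨g, hg⟩ := QuotientGroup.mk_out_eq_mul G h⁻¹
      refine ⟨((h⁻¹ : SL(2, ℤ)), g), ?_⟩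
      simp only [m, R, hg]
      group
  have hrw : ∀ k, e (R k) * crossSum G 1 (baseAt γ) ((R k : ZMat).mulVec eOne)
      ((R k : ZMat).mulVec eTwo) = ∑ᶠ g : G, P (m (k, g)) := fun k => by
    rw [crossSum, mul_finsum]
    exact finsum_congr fun g => by
      simp only [P, m, he, edgeDiff, sgnAt, ← sgn_mul, Matrix.SpecialLinearGroup.coe_mul,
        one_mul, mul_assoc]
  simp only [hrw]
  rw [← finsum_eq_sum_of_fintype, ← finsum_curry (fun p => P (m p))
    (hP.preimage hm.1.injOn), finsum_eq_of_bijective m hm (fun p => rfl)]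
  have hS : ∀ h, edgeDiff G γ (h * ModularGroup.S) = -edgeDiff G γ h := fun h => by
    simp only [edgeDiff, Matrix.SpecialLinearGroup.coe_mul, ← mul_assoc, sgn_mul_S]; ring
  have hP2 : ∀ h, P h = -(potential G x (h * ModularGroup.S) * edgeDiff G γ (h * ModularGroup.S))
      - potential G x h * edgeDiff G γ h := fun h => by
    simp only [P, e, hS]; ring
  have hfin := (finite_edgeDiff G γ).subset
    (Function.support_mul_subset_right (potential G x) (edgeDiff G γ))
  rw [finsum_congr hP2, finsum_sub_distrib (by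
      refine ((hfin.preimage (f := fun h => h * ModularGroup.S)
        (mul_left_injective ModularGroup.S).injOn)).subset fun h hh h0 => hh ?_
      simp only [Function.mem_support, neg_eq_zero] at *
      exact h0) hfin,
    finsum_neg_distrib, finsum_eq_of_bijective (fun h => h * ModularGroup.S)
      (Group.mulRight_bijective _) (g := fun h => potential G x h * edgeDiff G γ h) fun _ => rfl,
    finsum_potential_edgeDiff]
  ring

end Fermat.Agent.Raise
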