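/-
The cokernel of the two corestrictions from level `N q` to level `N` has only Eisenstein
eigensystems.
-/
import Fermat.Agent.Raise.Ops
import Fermat.Agent.Raise.Surj
import Fermat.Agent.Raise.Kernel

set_option autoImplicit false

noncomputable section

namespace Fermat.Agent.Raise

open CongruenceSubgroup
open Fermat.Agent.GalRep (GoodIndex heckeRep transferHom trCoef trIdx trSpec det_heckeRep
  heckeRep_one_zero)
open scoped MatrixGroups

/-- `Γ₀(N)[1/q]` is generated by `Γ₀(N)` and its conjugate. -/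
theorem gLev_le {q N : ℕ} [Fact q.Prime] (hqN : ¬ q ∣ N) {H : Subgroup SLQ}
    (h1 : ∀ γ ∈ Gamma0 N, toQ γ ∈ H) (h2 : ∀ γ ∈ Gamma0 N, eQ q γ ∈ H) : gLev q N ≤ H := by
  have hq' := (Fact.out : q.Prime)
  have hq0 : (q : ℚ) ≠ 0 := Nat.cast_ne_zero.mpr hq'.ne_zero
  have hqZ : IsCoprime (q : ℤ) (N : ℤ) :=
    Nat.isCoprime_iff_coprime.mpr (hq'.coprime_iff_not_dvd.mpr hqN)
  obtain ⟨u, v, huv⟩ := hqZ.pow_left (m := 2)
  set g₀ : SL(2, ℤ) := mkSL (u * q) (-v) (N : ℤ) (q : ℤ) (by linear_combination huv) with hg₀def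
  set g₂ : SL(2, ℤ) := mkSL u (-v) (N : ℤ) ((q : ℤ) ^ 2) (by linear_combination huv) with hg₂def
  have hg₀ : g₀ ∈ Gamma0 N := mem_gamma0_iff_dvd.mpr (by simp [hg₀def])
  have hg₂ : g₂ ∈ Gamma0 N := mem_gamma0_iff_dvd.mpr (by simp [hg₂def])
  have hr : toQ g₀ = hQ (qU q ^ (-1 : ℤ)) * eQ q g₂ := by
    refine ext_two ?_ ?_ ?_ ?_ <;>
      simp [eQ, mul_apply_two, toQ_apply, hg₀def, hg₂def, Units.val_inv_eq_inv_val]
    all_goals (try field_simp)
  have hHh : hQ (qU q ^ (-1 : ℤ)) ∈ H := by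
    have := H.mul_mem (h1 g₀ hg₀) (H.inv_mem (h2 g₂ hg₂))
    rwa [hr, mul_inv_cancel_right] at this
  have hHx : ∀ {t : ℚ}, t ∈ qInt q → xQ t ∈ H := by
    intro t ⟨m, z, hz⟩
    have key : ∀ (j : ℕ) (z : ℤ), xQ ((z : ℚ) / (q : ℚ) ^ (2 * j + 1)) ∈ H := by
      intro j
      induction j with
      | zero =>
        intro z
        have := h2 (ModularGroup.T ^ z) (T_zpow_mem z)
        rw [eQ, toQ_T_zpow] at this
        convert this using 1
        refine ext_two ?_ ?_ ?_ ?_ <;> simp [Units.val_inv_eq_inv_val]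
        ring
      | succ j ih =>
        intro z
        have := H.mul_mem (H.mul_mem (H.inv_mem hHh) (ih z)) hHh
        convert this using 1
        rw [hQ_inv, hQ_xQ, mul_assoc, hQ_mul, inv_mul_cancel, hQ_one, mul_one]
        congr 1
        rw [Units.val_inv_eq_inv_val, qU_zpow]
        field_simp
        ring
    convert key m (z * (q : ℤ) ^ (m + 1)) using 2
    push_cast
    rw [← hz]
    field_simp
    ring
  intro e he
  obtain ⟨k, s, γ, hs, hγ, rfl⟩ := exists_iwasawa hqN he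
  refine H.mul_mem (H.mul_mem (hHx hs) ?_) (h1 γ hγ)
  let L : ℚˣ →* SLQ := MonoidHom.mk' hQ fun a b => (hQ_mul a b).symm
  have : L (qU q ^ k) = L (qU q ^ (-1 : ℤ)) ^ (-k) := by
    rw [← map_zpow, ← zpow_mul, neg_one_mul, neg_neg]
  show L (qU q ^ k) ∈ H
  rw [this]
  exact H.zpow_mem hHh _

/-! ## Rational vectors -/

/-- The determinant of two rational vectors. -/
def qdet (v w : Fin 2 → ℚ) : ℚ := v 0 * w 1 - v 1 * w 0

/-- An integral vector on the line of a rational one. -/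
def clr (v : Fin 2 → ℚ) : ZVec := ![(v 0).num * (v 1).den, (v 1).num * (v 0).den]

/-- The cast of an integral vector. -/
def castVec (a : ZVec) : Fin 2 → ℚ := fun i => (a i : ℚ)

theorem castVec_ne_zero {a : ZVec} (ha : a ≠ 0) : castVec a ≠ 0 := fun h =>
  ha (funext fun i => by simpa [castVec] using congrFun h i)

theorem castVec_mulVec (M : ZMat) (a : ZVec) :
    castVec (M.mulVec a) = (M.map (Int.cast : ℤ → ℚ)).mulVec (castVec a) := by
  ext i
  simp [castVec, Matrix.mulVec, dotProduct]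

theorem castVec_clr (v : Fin 2 → ℚ) :
    castVec (clr v) = (((v 0).den : ℚ) * (v 1).den) • v := by
  ext i
  fin_cases i <;> simp [castVec, clr]
  · linear_combination ((v 1).den : ℚ) * (Rat.mul_den_eq_num (v 0)).symm
  · linear_combination ((v 0).den : ℚ) * (Rat.mul_den_eq_num (v 1)).symm

theorem clr_ne_zero {v : Fin 2 → ℚ} (hv : v ≠ 0) : clr v ≠ 0 := fun h => hv (by
  have := castVec_clr v
  rw [h] at this
  have h0 : castVec (0 : ZVec) = 0 := by ext i; simp [castVec]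
  rw [h0] at this
  exact (smul_eq_zero.mp this.symm).resolve_left (by positivity))

theorem qdet_clr (v : Fin 2 → ℚ) : qdet (castVec (clr v)) v = 0 := by
  rw [castVec_clr]; simp [qdet]; ring

theorem vdet_eq_zero_of_qdet {a b : ZVec} {v : Fin 2 → ℚ} (hv : v ≠ 0)
    (ha : qdet (castVec a) v = 0) (hb : qdet (castVec b) v = 0) : vdet a b = 0 := by
  simp only [qdet, castVec] at ha hb
  have h : ((vdet a b : ℤ) : ℚ) = 0 := by
    simp only [vdet]
    push_cast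
    obtain ⟨i, hi⟩ : ∃ i, v i ≠ 0 := Function.ne_iff.mp hv
    refine (mul_eq_zero.mp (?_ : ((a 0 : ℚ) * b 1 - a 1 * b 0) * v i = 0)).resolve_right hi
    fin_cases i <;> simp only [Fin.zero_eta, Fin.mk_one]
    · linear_combination -(b 0 : ℚ) * ha * 0 + (a 0 : ℚ) * 0 + ((b 0 : ℚ) * ha - (a 0 : ℚ) * hb)
    · linear_combination ((b 1 : ℚ) * ha - (a 1 : ℚ) * hb)
  exact_mod_cast h

theorem crossHom_congr_left {G : Subgroup SL(2, ℤ)} {a a' : ZVec} (ha : a ≠ 0) (ha' : a' ≠ 0)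
    (h : vdet a a' = 0) (b : ZVec) : crossHom G a b = crossHom G a' b := by
  obtain ⟨m, n, hm, hn, e⟩ := exists_smul_of_vdet ha ha' h
  rw [← crossHom_smul_left hm a b, e, crossHom_smul_left hn]

section Symbol

variable {N : ℕ} {V : Type} [AddCommGroup V] (L : GHom (Gamma0 N) ℤ →+ V)

/-- The function on pairs of lines given by a functional. -/
def symb (v w : Fin 2 → ℚ) : V := L (crossHom (Gamma0 N) (clr v) (clr w))

theorem symb_eq {v w : Fin 2 → ℚ} (hv : v ≠ 0) (hw : w ≠ 0) {a b : ZVec} (ha : a ≠ 0) (hb : b ≠ 0)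
    (hav : qdet (castVec a) v = 0) (hbw : qdet (castVec b) w = 0) :
    symb L v w = L (crossHom (Gamma0 N) a b) := by
  rw [symb, crossHom_congr_left (clr_ne_zero hv) ha (vdet_eq_zero_of_qdet hv (qdet_clr v) hav),
    crossHom_swap b, crossHom_congr_left hb (clr_ne_zero hw)
      (vdet_eq_zero_of_qdet hw hbw (qdet_clr w)), ← crossHom_swap (clr w)]

theorem symb_congr {v w v' w' : Fin 2 → ℚ} (hv : v ≠ 0) (hw : w ≠ 0) (hv' : v' ≠ 0) (hw' : w' ≠ 0)
    (h : qdet v v' = 0) (h' : qdet w w' = 0) : symb L v w = symb L v' w' := by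
  refine symb_eq L hv hw (clr_ne_zero hv') (clr_ne_zero hw') ?_ ?_ <;>
  · rw [castVec_clr]
    simp [qdet] at h h' ⊢
    first
    | linear_combination -(((v' 0).den : ℚ) * (v' 1).den) * h
    | linear_combination -(((w' 0).den : ℚ) * (w' 1).den) * h'

theorem symb_cocycle {u v w : Fin 2 → ℚ} (hu : u ≠ 0) (hv : v ≠ 0) (hw : w ≠ 0) :
    symb L u v + symb L v w + symb L w u = 0 := by
  rw [symb, symb, symb, ← map_add, ← map_add,
    crossHom_cocycle (clr_ne_zero hu) (clr_ne_zero hv) (clr_ne_zero hw), map_zero]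

theorem symb_swap (v w : Fin 2 → ℚ) : symb L w v = -symb L v w := by
  rw [symb, symb, crossHom_swap, map_neg]

theorem symb_trans {u v w : Fin 2 → ℚ} (hu : u ≠ 0) (hv : v ≠ 0) (hw : w ≠ 0) :
    symb L u w = symb L u v + symb L v w := by
  have := symb_cocycle L hu hv hw
  rw [symb_swap L u w] at this
  rw [eq_comm, ← sub_eq_zero, ← this]
  abel

theorem mulVec_ne_zero {M : Matrix (Fin 2) (Fin 2) ℚ} (hM : M.det ≠ 0) {v : Fin 2 → ℚ}
    (hv : v ≠ 0) : M.mulVec v ≠ 0 := fun h => hv (by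
  have := congrArg M.adjugate.mulVec h
  rw [Matrix.mulVec_mulVec, Matrix.adjugate_mul, Matrix.mulVec_zero, Matrix.smul_mulVec,
    Matrix.one_mulVec] at this
  exact (smul_eq_zero.mp this).resolve_left hM)

theorem qdet_mulVec (M : Matrix (Fin 2) (Fin 2) ℚ) (v w : Fin 2 → ℚ) :
    qdet (M.mulVec v) (M.mulVec w) = M.det * qdet v w := by
  simp [qdet, Matrix.det_fin_two, Matrix.mulVec, dotProduct, Fin.sum_univ_two]
  ring

/-- The image of an integral matrix. -/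
abbrev qMat (M : ZMat) : Matrix (Fin 2) (Fin 2) ℚ := M.map (Int.cast : ℤ → ℚ)

theorem det_qMat (M : ZMat) : (qMat M).det = (M.det : ℚ) := by
  simp [qMat, Matrix.det_fin_two]

theorem qMat_det_ne (γ : SL(2, ℤ)) : (qMat γ).det ≠ 0 := by
  rw [det_qMat, Matrix.SpecialLinearGroup.det_coe]; simp

theorem symb_mulVec {M : ZMat} (hM : M.det ≠ 0) {v w : Fin 2 → ℚ} (hv : v ≠ 0) (hw : w ≠ 0) :
    symb L ((qMat M).mulVec v) ((qMat M).mulVec w) =
      L (crossHom (Gamma0 N) (M.mulVec (clr v)) (M.mulVec (clr w))) := by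
  have hM' : (qMat M).det ≠ 0 := by rw [det_qMat]; exact_mod_cast hM
  have hne : ∀ {x : Fin 2 → ℚ}, x ≠ 0 → M.mulVec (clr x) ≠ 0 := fun hx h0 => by
    refine mulVec_ne_zero hM' (castVec_ne_zero (clr_ne_zero hx)) ?_
    rw [← castVec_mulVec, h0]
    ext i
    simp [castVec]
  refine symb_eq L (mulVec_ne_zero hM' hv) (mulVec_ne_zero hM' hw) (hne hv) (hne hw) ?_ ?_ <;>
    rw [castVec_mulVec, qdet_mulVec, qdet_clr, mul_zero]

theorem symb_gamma {γ : SL(2, ℤ)} (hγ : γ ∈ Gamma0 N) {v w : Fin 2 → ℚ} (hv : v ≠ 0) (hw : w ≠ 0) :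
    symb L ((qMat γ).mulVec v) ((qMat γ).mulVec w) = symb L v w := by
  rw [symb_mulVec L (by simp) hv hw, crossHom_smul_gamma ⟨γ, hγ⟩, symb]

end Symbol

theorem exists_fixed_vector {γ : SL(2, ℤ)}
    (h : ((γ : SL(2, ℤ)) : ZMat).trace ^ 2 = 4) :
    ∃ (s : ZVec) (t : ℤ), s ≠ 0 ∧ (t = 1 ∨ t = -1) ∧ (γ : ZMat).mulVec s = t • s := by
  obtain ⟨t, ht, htr⟩ : ∃ t : ℤ, (t = 1 ∨ t = -1) ∧ (γ : ZMat).trace = 2 * t := by
    have h2 : ((γ : ZMat).trace - 2) * ((γ : ZMat).trace + 2) = 0 := by linear_combination h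
    rcases mul_eq_zero.mp h2 with h2 | h2
    · exact ⟨1, Or.inl rfl, by linarith⟩
    · exact ⟨-1, Or.inr rfl, by linarith⟩
  have hdet := det_two γ
  rw [Matrix.trace_fin_two] at htr
  have ht2 : t * t = 1 := by rcases ht with rfl | rfl <;> norm_num
  by_cases hc : (γ : ZMat) 1 0 = 0
  · refine ⟨![1, 0], t, by simp, ht, ?_⟩
    have ha : (γ : ZMat) 0 0 = t := by
      rw [hc, mul_zero, sub_zero] at hdet
      rcases Int.eq_one_or_neg_one_of_mul_eq_one' hdet with ⟨e1, e2⟩ | ⟨e1, e2⟩ <;>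
        rcases ht with rfl | rfl <;> omega
    ext i; fin_cases i <;> simp [hc, ha]
  · refine ⟨![(γ : ZMat) 0 0 - t, (γ : ZMat) 1 0], t, fun h0 => hc (by
      simpa using congrFun h0 1), ht, ?_⟩
    ext i
    fin_cases i <;> simp [Matrix.mulVec, dotProduct, Fin.sum_univ_two]
    · linear_combination (γ : ZMat) 0 0 * htr - hdet + ht2
    · linear_combination (γ : ZMat) 1 0 * htr

theorem exists_sl_col {a c : ℤ} (h : IsCoprime a c) :
    ∃ α : SL(2, ℤ), (α : ZMat) 0 0 = a ∧ (α : ZMat) 1 0 = c := by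
  obtain ⟨u, v, huv⟩ := h
  exact ⟨mkSL a (-v) c u (by linear_combination huv), mkSL_00 _ _ _ _ _, mkSL_10 _ _ _ _ _⟩

/-- A Hecke representative moves a cusp within its `Γ₀(N)`-orbit when `ℓ ≡ 1 (mod N)`. -/
theorem exists_gamma_move {N ℓ : ℕ} (hℓ : ℓ.Prime) (hℓ1 : (N : ℤ) ∣ (ℓ : ℤ) - 1)
    (α : SL(2, ℤ)) (i : Option (Fin ℓ)) :
    ∃ γ ∈ Gamma0 N, vdet ((heckeRep ℓ i).mulVec ((α : ZMat).mulVec ![1, 0]))
      ((γ : ZMat).mulVec ((α : ZMat).mulVec ![1, 0])) = 0 := by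
  have hcol : (α : ZMat).mulVec ![1, 0] = ![(α : ZMat) 0 0, (α : ZMat) 1 0] := by
    ext j; fin_cases j <;> simp
  rw [hcol]
  set a := (α : ZMat) 0 0
  set c := (α : ZMat) 1 0
  set B := (α : ZMat) 0 1
  set d := (α : ZMat) 1 1
  have hdet : a * d - B * c = 1 := det_two α
  obtain ⟨r00, r01, r11, hr, hrℓ, hm0, hm1⟩ : ∃ r00 r01 r11 : ℤ,
      (heckeRep ℓ i = !![r00, r01; 0, r11]) ∧ r00 * r11 = ℓ ∧
      (N : ℤ) ∣ r00 - 1 ∧ (N : ℤ) ∣ r11 - 1 := by
    cases i with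
    | none => exact ⟨ℓ, 0, 1, rfl, mul_one _, hℓ1, by simp⟩
    | some b => exact ⟨1, b, ℓ, rfl, one_mul _, by simp, hℓ1⟩
  set c0 := r00 * a + r01 * c
  set c1 := r11 * c
  have hmv : (heckeRep ℓ i).mulVec ![a, c] = ![c0, c1] := by
    rw [hr]; ext j; fin_cases j <;> simp [c0, c1] <;> ring
  rw [hmv]
  set h : ℤ := (Int.gcd c0 c1 : ℤ)
  have hdvd : h ∣ (ℓ : ℤ) := by
    have e : c0 * (r11 * d) - (r00 * B + r01 * d) * c1 = ℓ := by
      rw [← hrℓ]; simp only [c0, c1]; linear_combination (r00 * r11) * hdet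
    rw [← e]
    exact dvd_sub ((Int.gcd_dvd_left _ _).mul_right _) ((Int.gcd_dvd_right _ _).mul_left _)
  have hN : (N : ℤ) ∣ h - 1 := by
    rcases (Nat.dvd_prime hℓ).mp (Int.natCast_dvd_natCast.mp hdvd) with h1 | h1
    · simp [h, h1]
    · simpa [h, h1] using hℓ1
  have hpos : 0 < Int.gcd c0 c1 := Nat.pos_of_dvd_of_pos (Int.natCast_dvd_natCast.mp hdvd) hℓ.pos
  obtain ⟨a', ha'⟩ : h ∣ c0 := Int.gcd_dvd_left _ _
  obtain ⟨c', hc'⟩ : h ∣ c1 := Int.gcd_dvd_right _ _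
  have hcop : IsCoprime a' c' := by
    refine ⟨Int.gcdA c0 c1, Int.gcdB c0 c1, mul_left_cancel₀
      (Int.natCast_ne_zero.mpr hpos.ne') ?_⟩
    linear_combination -Int.gcd_eq_gcd_ab c0 c1 - Int.gcdA c0 c1 * ha' - Int.gcdB c0 c1 * hc'
  obtain ⟨α', ha2, hc2⟩ := exists_sl_col hcop
  set k : ℤ := (α' : ZMat) 0 1 * d - (α' : ZMat) 1 1 * (B + r01 * d)
  refine ⟨α' * ModularGroup.T ^ (-k) * α⁻¹, mem_gamma0_iff_dvd.mpr ?_, ?_⟩
  · rw [← ZMod.intCast_zmod_eq_zero_iff_dvd] at hm0 hm1 hN ⊢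
    have e0 := congrArg (fun z : ℤ => (z : ZMod N)) ha'
    have e1 := congrArg (fun z : ℤ => (z : ZMod N)) hc'
    have e2 := congrArg (fun z : ℤ => (z : ZMod N)) hdet
    have e3 := congrArg (fun z : ℤ => (z : ZMod N)) (det_two α')
    push_cast at hm0 hm1 hN
    rw [sub_eq_zero] at hm0 hm1 hN
    simp only [c0, c1, ha2, hc2] at e0 e1 e3
    push_cast at e0 e1 e2 e3
    rw [hm0, hN, one_mul, one_mul] at e0
    rw [hm1, hN, one_mul, one_mul] at e1
    rw [Matrix.SpecialLinearGroup.coe_mul, Matrix.SpecialLinearGroup.coe_mul, coe_inv_eq,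
      ModularGroup.coe_T_zpow]
    simp only [Matrix.mul_apply, Fin.sum_univ_two, Matrix.of_apply, Matrix.cons_val', 
      Matrix.cons_val_zero, Matrix.cons_val_one, Matrix.cons_val_fin_one, hc2]
    push_cast [k]
    rw [← e0, ← e1] at e3
    rw [← e1]
    linear_combination (c : ZMod N) * ((α' : ZMat) 1 1 : ZMod N) * e2 -
      (c : ZMod N) * (d : ZMod N) * e3
  · rw [show ((α' * ModularGroup.T ^ (-k) * α⁻¹ : SL(2, ℤ)) : ZMat).mulVec ![a, c] = ![a', c'] by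
      rw [← hcol, Matrix.mulVec_mulVec, ← Matrix.SpecialLinearGroup.coe_mul, inv_mul_cancel_right,
        Matrix.SpecialLinearGroup.coe_mul, ModularGroup.coe_T_zpow]
      ext j
      fin_cases j <;> simp [Matrix.mul_apply, Fin.sum_univ_two, ha2, hc2]]
    simp [vdet, ha', hc']
    ring

namespace LevData

variable {N q : ℕ} (D : LevData N q) [NeZero N]

/-- The functional lemma. -/
theorem coker_eq_zero {V : Type} [AddCommGroup V] (hF : QFree q V)
    (h8 : ∀ v : V, (8 : ℤ) • v = 0 → v = 0) {ℓ : ℕ} (hg : GoodIndex N ℓ) (hℓq : ℓ ≠ q)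
    (hℓbad : ¬ (ℓ : ℤ) ∣ (q : ℤ) ^ (4 * N ^ 2) - 1) {a : ℤ}
    (hne : ∀ v : V, (a ^ 2 - ((ℓ : ℤ) + 1) ^ 2) • v = 0 → v = 0)
    {m : ℕ} (hgB : GoodIndex N m) (hB1 : (N : ℤ) ∣ (m : ℤ) - 1) {b : ℤ}
    (hneB : ∀ v : V, (b - ((m : ℤ) + 1)) • v = 0 → v = 0)
    {L₁ L₂ : GHom (Gamma0 N) ℤ →+ V}
    (hL : ∀ z : GHom (Gamma0 (N * q)) ℤ, L₁ (D.cor z) + L₂ (D.cor (D.wOp z)) = 0)
    (heig : ∀ x, L₂ (transferHom hg x) = a • L₂ x)
    (heigB : ∀ x, L₂ (transferHom hgB x) = b • L₂ x) : L₁ = 0 ∧ L₂ = 0 := by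
  classical
  haveI := Fact.mk D.prime
  have hq0 : (q : ℚ) ≠ 0 := Nat.cast_ne_zero.mpr D.prime.ne_zero
  set W := qMat D.wMat
  have hWdet : W.det ≠ 0 := by rw [det_qMat, D.det_wMat]; exact_mod_cast D.prime.ne_zero
  -- the relation between the two symbols
  have hrel : ∀ a b : ZVec, L₁ (crossHom (Gamma0 N) a b) + L₂ (crossHom (Gamma0 N)
      (D.wMat.adjugate.mulVec a) (D.wMat.adjugate.mulVec b)) = 0 := fun a b => by
    have := hL (crossHom (Gamma0 (N * q)) a b)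
    rwa [D.cor_crossHom, D.wOp_crossHom, D.cor_crossHom] at this
  have hW : ∀ {v w : Fin 2 → ℚ}, v ≠ 0 → w ≠ 0 →
      symb L₂ v w = -symb L₁ (W.mulVec v) (W.mulVec w) := fun {v w} hv hw => by
    rw [symb_mulVec L₁ (by rw [D.det_wMat]; exact_mod_cast D.prime.ne_zero) hv hw, eq_neg_iff_add_eq_zero,
      add_comm]
    convert hrel (D.wMat.mulVec (clr v)) (D.wMat.mulVec (clr w)) using 2
    rw [Matrix.mulVec_mulVec, Matrix.mulVec_mulVec, Matrix.adjugate_mul, D.det_wMat,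
      Matrix.smul_mulVec, Matrix.smul_mulVec, Matrix.one_mulVec, Matrix.one_mulVec,
      crossHom_smul_left (by exact_mod_cast D.prime.ne_zero),
      crossHom_smul_right (by exact_mod_cast D.prime.ne_zero)]
    rfl
  -- invariance
  let Inv : Subgroup SLQ :=
    { carrier := {g | ∀ v w : Fin 2 → ℚ, v ≠ 0 → w ≠ 0 →
        symb L₂ ((g : Matrix (Fin 2) (Fin 2) ℚ).mulVec v)
          ((g : Matrix (Fin 2) (Fin 2) ℚ).mulVec w) = symb L₂ v w}
      one_mem' := fun v w _ _ => by simp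
      mul_mem' := fun {g h} hgm hhm v w hv hw => by
        rw [Matrix.SpecialLinearGroup.coe_mul, ← Matrix.mulVec_mulVec, ← Matrix.mulVec_mulVec,
          hgm _ _ (mulVec_ne_zero (by simp) hv) (mulVec_ne_zero (by simp) hw), hhm v w hv hw]
      inv_mem' := fun {g} hgm v w hv hw => by
        have := hgm _ _ (mulVec_ne_zero (M := ((g⁻¹ : SLQ) : Matrix (Fin 2) (Fin 2) ℚ)) (by rw [Matrix.SpecialLinearGroup.det_coe]; exact one_ne_zero) hv)
          (mulVec_ne_zero (M := ((g⁻¹ : SLQ) : Matrix (Fin 2) (Fin 2) ℚ)) (by rw [Matrix.SpecialLinearGroup.det_coe]; exact one_ne_zero) hw)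
        rw [Matrix.mulVec_mulVec, Matrix.mulVec_mulVec, ← Matrix.SpecialLinearGroup.coe_mul,
          mul_inv_cancel, Matrix.SpecialLinearGroup.coe_one, Matrix.one_mulVec,
          Matrix.one_mulVec] at this
        exact this.symm }
  have htoQ : ∀ γ : SL(2, ℤ), ((toQ γ : SLQ) : Matrix (Fin 2) (Fin 2) ℚ) = qMat γ := fun γ => rfl
  have hinv : gLev q N ≤ Inv := by
    refine gLev_le D.not_dvd (fun γ hγ v w hv hw => by rw [htoQ]; exact symb_gamma L₂ hγ hv hw)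
      fun γ hγ v w hv hw => ?_
    have hdet : ((eQ q γ : SLQ) : Matrix (Fin 2) (Fin 2) ℚ).det ≠ 0 := by simp
    rw [hW (mulVec_ne_zero hdet hv) (mulVec_ne_zero hdet hw), hW hv hw]
    congr 1
    have e : W * ((eQ q γ : SLQ) : Matrix (Fin 2) (Fin 2) ℚ) =
        qMat ((D.g * γ * D.g⁻¹ : SL(2, ℤ)) : ZMat) * W := by
      have e1 : (!![(q : ℚ), 0; 0, 1] : Matrix (Fin 2) (Fin 2) ℚ) *
          ((eQ q γ : SLQ) : Matrix (Fin 2) (Fin 2) ℚ) = qMat γ * !![(q : ℚ), 0; 0, 1] := by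
        ext i j
        fin_cases i <;> fin_cases j <;>
          simp [eQ, qMat, Matrix.mul_apply, Fin.sum_univ_two, toQ_apply, Units.val_inv_eq_inv_val]
        all_goals field_simp
      have hmap : ∀ A B : ZMat, qMat (A * B) = qMat A * qMat B := fun A B => by
        ext i j; simp [qMat, Matrix.mul_apply, Fin.sum_univ_two]
      have hwq : W = qMat (D.g : ZMat) * !![(q : ℚ), 0; 0, 1] := by
        rw [show W = qMat (D.g * !![(q : ℤ), 0; 0, 1] : ZMat) from rfl, hmap]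
        congr 1
        ext i j; fin_cases i <;> fin_cases j <;> simp [qMat]
      rw [hwq, mul_assoc, e1, ← mul_assoc, ← mul_assoc]
      congr 1
      rw [← hmap, ← hmap, ← Matrix.SpecialLinearGroup.coe_mul, ← Matrix.SpecialLinearGroup.coe_mul,
        inv_mul_cancel_right]
    rw [Matrix.mulVec_mulVec, Matrix.mulVec_mulVec, e, ← Matrix.mulVec_mulVec, ← Matrix.mulVec_mulVec]
    exact symb_gamma L₁ (mul_mem (mul_mem D.g_mem hγ) (inv_mem D.g_mem))
      (mulVec_ne_zero hWdet hv) (mulVec_ne_zero hWdet hw)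
  -- the homomorphism on `Γ₀(N)[1/q]`
  let e : Fin 2 → ℚ := ![1, 0]
  have he : e ≠ 0 := by simp [e]
  let gv : SLQ → (Fin 2 → ℚ) := fun g => (g : Matrix (Fin 2) (Fin 2) ℚ).mulVec e
  have hgv : ∀ g, gv g ≠ 0 := fun g => mulVec_ne_zero (by simp) he
  let φ : SLQ → V := fun g => symb L₂ e (gv g)
  have hadd : IsLevHom q N φ := fun g hgm h _ => by
    show symb L₂ e (gv (g * h)) = _
    rw [symb_trans L₂ he (hgv g) (hgv (g * h))]
    congr 1
    simp only [gv, Matrix.SpecialLinearGroup.coe_mul, ← Matrix.mulVec_mulVec]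
    exact hinv hgm e _ he (hgv h)
  have hpar : ∀ γ ∈ Gamma0 N,
      ((γ : SL(2, ℤ)) : ZMat).trace ^ 2 = 4 → φ (toQ γ) = 0 := by
    intro γ hγ htr
    obtain ⟨s, t, hs, ht, hts⟩ := exists_fixed_vector htr
    have hs' := castVec_ne_zero hs
    have hfix : qdet ((qMat γ).mulVec (castVec s)) (castVec s) = 0 := by
      rw [← castVec_mulVec, hts]
      simp [qdet, castVec]
      ring
    have h1 : symb L₂ (castVec s) e = symb L₂ (castVec s) (gv (toQ γ)) := by
      rw [← symb_gamma L₂ hγ hs' he]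
      exact symb_congr L₂ (mulVec_ne_zero (qMat_det_ne γ) hs') (mulVec_ne_zero (qMat_det_ne γ) he) hs' (hgv _)
        hfix (by simp only [gv, htoQ, qdet]; ring)
    show symb L₂ e (gv (toQ γ)) = 0
    rw [symb_trans L₂ he hs' (hgv _), ← h1, symb_swap L₂ e (castVec s), add_neg_cancel]
  -- the Hecke relation
  have hT : ∀ {ℓ : ℕ} (hg : GoodIndex N ℓ) {a : ℤ},
      (∀ x, L₂ (transferHom hg x) = a • L₂ x) → ∀ {v w : Fin 2 → ℚ}, v ≠ 0 → w ≠ 0 →
      ∑ i, symb L₂ ((qMat (heckeRep ℓ i)).mulVec v) ((qMat (heckeRep ℓ i)).mulVec w) =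
        a • symb L₂ v w := fun {ℓ} hg {a} heig {v w} hv hw => by
    rw [symb, ← heig, transferHom_crossHom, map_sum]
    exact Finset.sum_congr rfl fun i _ => symb_mulVec L₂
      (by rw [det_heckeRep]; exact_mod_cast hg.prime.ne_zero) hv hw
  have hdr : ∀ {ℓ : ℕ} (_ : GoodIndex N ℓ) (i : Option (Fin ℓ)), (qMat (heckeRep ℓ i)).det ≠ 0 := fun {ℓ} hg i => by
    rw [det_qMat, det_heckeRep]; exact_mod_cast hg.prime.ne_zero
  have hre : ∀ {ℓ : ℕ} (i : Option (Fin ℓ)), qdet ((qMat (heckeRep ℓ i)).mulVec e) e = 0 := fun i => by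
    simp [qdet, e, qMat, heckeRep_one_zero]
  have heig' : ∀ {ℓ : ℕ} (hg : GoodIndex N ℓ) {a : ℤ},
      (∀ x, L₂ (transferHom hg x) = a • L₂ x) → ∀ γ : Gamma0 N,
      ∑ i, φ (toQ (trCoef hg γ i : SL(2, ℤ))) = a • φ (toQ (γ : SL(2, ℤ))) := fun {ℓ} hg {a} heig γ => by
    rw [show a • φ (toQ (γ : SL(2, ℤ))) = a • symb L₂ e (gv (toQ (γ : SL(2, ℤ)))) from rfl,
      ← hT hg heig he (hgv _)]
    refine Finset.sum_congr rfl fun i _ => symb_congr L₂ he (hgv _) (mulVec_ne_zero (hdr hg i) he)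
      (mulVec_ne_zero (hdr hg i) (hgv _)) ?_ ?_
    · have := hre i
      simp only [qdet] at this ⊢
      linarith
    · have e1 := congrArg qMat (trSpec hg γ i)
      have hmap : ∀ A B : ZMat, qMat (A * B) = qMat A * qMat B := fun A B => by
        ext i j; simp [qMat, Matrix.mul_apply, Fin.sum_univ_two]
      rw [hmap, hmap] at e1
      simp only [gv, htoQ, Matrix.mulVec_mulVec]
      rw [e1, ← Matrix.mulVec_mulVec, qdet_mulVec]
      have := hre (trIdx hg γ i)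
      simp only [qdet] at this ⊢
      rw [show e 0 * (((qMat (heckeRep ℓ (trIdx hg γ i))).mulVec e) 1) -
        e 1 * (((qMat (heckeRep ℓ (trIdx hg γ i))).mulVec e) 0) = 0 by linarith, mul_zero]
  have hx := levHom_eq_zero D.not_dvd hF hadd hpar hg hℓq hℓbad (heig' hg heig) hne hgB hB1 (heig' hgB heigB) hneB
  -- the symbol vanishes
  have hu : ∀ γ ∈ Gamma0 N, ∀ v : Fin 2 → ℚ, v ≠ 0 →
      symb L₂ e ((qMat γ).mulVec v) = symb L₂ e v := fun γ hγ v hv => by
    rw [symb_trans L₂ he (hgv (toQ γ)) (mulVec_ne_zero (qMat_det_ne γ) hv)]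
    have h0 : symb L₂ e (gv (toQ γ)) = 0 := hx γ hγ
    rw [h0, zero_add]
    simp only [gv, htoQ]
    exact symb_gamma L₂ hγ he hv
  have hzero : ∀ v : Fin 2 → ℚ, v ≠ 0 → symb L₂ e v = 0 := by
    intro v hv
    obtain ⟨α, hα⟩ : ∃ α : SL(2, ℤ), qdet v (castVec ((α : ZMat).mulVec ![1, 0])) = 0 := by
      set s := clr v
      obtain ⟨a', ha'⟩ : (Int.gcd (s 0) (s 1) : ℤ) ∣ s 0 := Int.gcd_dvd_left _ _
      obtain ⟨c', hc'⟩ : (Int.gcd (s 0) (s 1) : ℤ) ∣ s 1 := Int.gcd_dvd_right _ _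
      have hgne : (Int.gcd (s 0) (s 1) : ℤ) ≠ 0 := fun h0 => clr_ne_zero hv (funext fun i => by
        fin_cases i
        · simpa [h0] using ha'
        · simpa [h0] using hc')
      have hcop : IsCoprime a' c' := by
        refine ⟨Int.gcdA (s 0) (s 1), Int.gcdB (s 0) (s 1), mul_left_cancel₀ hgne ?_⟩
        linear_combination -Int.gcd_eq_gcd_ab (s 0) (s 1) - Int.gcdA (s 0) (s 1) * ha' -
          Int.gcdB (s 0) (s 1) * hc'
      obtain ⟨α, ea, ec⟩ := exists_sl_col hcop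
      refine ⟨α, ?_⟩
      have h1 := qdet_clr v
      simp [qdet, castVec, ea, ec, s] at h1 ha' hc' ⊢
      have hg' : ((Int.gcd (clr v 0) (clr v 1) : ℕ) : ℚ) ≠ 0 := by exact_mod_cast hgne
      generalize Int.gcd (clr v 0) (clr v 1) = G at ha' hc' hg'
      rw [ha', hc'] at h1
      push_cast at h1
      refine (mul_eq_zero.mp (?_ : (G : ℚ) *
        (v 0 * (c' : ℚ) - v 1 * (a' : ℚ)) = 0)).resolve_left hg'
      linear_combination -h1
    set r : ZVec := (α : ZMat).mulVec ![1, 0]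
    have hr : r ≠ 0 := fun h0 => by
      have := congrArg (((α⁻¹ : SL(2, ℤ))) : ZMat).mulVec h0
      rw [Matrix.mulVec_mulVec, ← Matrix.SpecialLinearGroup.coe_mul, inv_mul_cancel,
        Matrix.SpecialLinearGroup.coe_one, Matrix.one_mulVec, Matrix.mulVec_zero] at this
      simp at this
    rw [symb_congr L₂ he hv he (castVec_ne_zero hr) (by simp [qdet]; ring) hα]
    have hsum := hT hgB heigB he (castVec_ne_zero hr)
    have hterm : ∀ i, symb L₂ ((qMat (heckeRep m i)).mulVec e)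
        ((qMat (heckeRep m i)).mulVec (castVec r)) = symb L₂ e (castVec r) := fun i => by
      obtain ⟨γ, hγ, hmove⟩ := exists_gamma_move hgB.prime hB1 α i
      rw [symb_congr L₂ (mulVec_ne_zero (hdr hgB i) he) (mulVec_ne_zero (hdr hgB i) (castVec_ne_zero hr)) he
        (mulVec_ne_zero (qMat_det_ne γ) (castVec_ne_zero hr)) (hre i) ?_, hu γ hγ _ (castVec_ne_zero hr)]
      rw [← castVec_mulVec, ← castVec_mulVec]
      simp only [qdet, castVec]
      simp only [vdet] at hmove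
      exact_mod_cast hmove
    rw [Finset.sum_congr rfl fun i _ => hterm i, Finset.sum_const, Finset.card_univ,
      Fintype.card_option, Fintype.card_fin, ← natCast_zsmul, Nat.cast_add, Nat.cast_one] at hsum
    exact hneB _ (by rw [sub_smul, ← hsum, sub_self])
  have h2 : ∀ v w : Fin 2 → ℚ, v ≠ 0 → w ≠ 0 → symb L₂ v w = 0 := fun v w hv hw => by
    rw [symb_trans L₂ hv he hw, symb_swap L₂ e v, hzero v hv, hzero w hw]
    simp
  have hZ : ∀ a b : ZVec, a ≠ 0 → b ≠ 0 → L₂ (crossHom (Gamma0 N) a b) = 0 := fun a b ha hb => by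
    rw [← symb_eq L₂ (castVec_ne_zero ha) (castVec_ne_zero hb) ha hb (by simp [qdet]; ring)
      (by simp [qdet]; ring)]
    exact h2 _ _ (castVec_ne_zero ha) (castVec_ne_zero hb)
  have hadj : ∀ {a : ZVec}, a ≠ 0 → D.wMat.adjugate.mulVec a ≠ 0 := fun {a} ha h0 => ha (by
    have := congrArg D.wMat.mulVec h0
    rw [Matrix.mulVec_mulVec, Matrix.mul_adjugate, Matrix.smul_mulVec, Matrix.one_mulVec,
      Matrix.mulVec_zero, D.det_wMat] at this
    exact (smul_eq_zero.mp this).resolve_left (by exact_mod_cast D.prime.ne_zero))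
  haveI : (Gamma0 N).FiniteIndex :=
    IsCongruenceSubgroup.finiteIndex (Gamma0_is_congruence N)
  have kill : ∀ L : GHom (Gamma0 N) ℤ →+ V,
      (∀ a b : ZVec, a ≠ 0 → b ≠ 0 → L (crossHom (Gamma0 N) a b) = 0) → L = 0 := fun L hLz => by
    refine AddMonoidHom.ext fun x => h8 _ ?_
    rw [← map_zsmul]
    refine AddMonoidHom.mem_ker.mp ((AddSubgroup.closure_le _).mpr ?_ (eight_smul_mem _ x))
    rintro _ ⟨a, b, ha, hb, rfl⟩
    exact hLz a b ha hb
  refine ⟨kill L₁ fun a b ha hb => ?_, kill L₂ hZ⟩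
  have := hrel a b
  rwa [hZ _ _ (hadj ha) (hadj hb), add_zero] at this

end LevData

end Fermat.Agent.Raise
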