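/-
A class with a non-Eisenstein eigenvalue at a prime `ℓ ≡ 1 (mod M)` kills parabolic elements.
-/
import Fermat.Agent.Raise.Coker
import Fermat.Agent.Period.MaxPrinciple

set_option autoImplicit false

noncomputable section

namespace Fermat.Agent.Raise

open CongruenceSubgroup
open Fermat.Agent.GalRep (GoodIndex heckeRep transferHom transferHom_apply trCoef trIdx trSpec
  tr_unique det_heckeRep heckeRep_one_zero gMat)
open scoped MatrixGroups

/-- The multiplier of the content of `rep · (a, c)`. -/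
def repDiv (ℓ : ℕ) (w : ZVec) (i : Option (Fin ℓ)) : ℤ :=
  if (ℓ : ℤ) ∣ ((heckeRep ℓ i).mulVec w) 0 ∧ (ℓ : ℤ) ∣ ((heckeRep ℓ i).mulVec w) 1 then (ℓ : ℤ)
  else 1

theorem sum_repDiv_sq {ℓ : ℕ} (hℓ : ℓ.Prime) {a c : ℤ} (hco : IsCoprime a c) :
    ∑ i, repDiv ℓ ![a, c] i ^ 2 = (ℓ : ℤ) ^ 2 + ℓ := by
  classical
  haveI := Fact.mk hℓ
  have hpr := Nat.prime_iff_prime_int.mp hℓ
  have hsome : ∀ b : Fin ℓ, ((ℓ : ℤ) ∣ ((heckeRep ℓ (some b)).mulVec ![a, c]) 0 ∧
      (ℓ : ℤ) ∣ ((heckeRep ℓ (some b)).mulVec ![a, c]) 1) ↔ (ℓ : ℤ) ∣ a + (b : ℕ) * c := by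
    intro b
    simp [heckeRep, mul_comm c]
  have hnone : ((ℓ : ℤ) ∣ ((heckeRep ℓ none).mulVec ![a, c]) 0 ∧
      (ℓ : ℤ) ∣ ((heckeRep ℓ none).mulVec ![a, c]) 1) ↔ (ℓ : ℤ) ∣ c := by
    simp [heckeRep]
  obtain ⟨i₀, h₀⟩ : ∃ i₀, ∀ i, ((ℓ : ℤ) ∣ ((heckeRep ℓ i).mulVec ![a, c]) 0 ∧
      (ℓ : ℤ) ∣ ((heckeRep ℓ i).mulVec ![a, c]) 1) ↔ i = i₀ := by
    by_cases hc : (ℓ : ℤ) ∣ c
    · refine ⟨none, fun i => ?_⟩
      cases i with
      | none => rw [hnone]; simpa using hc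
      | some b =>
        rw [hsome]
        simp only [reduceCtorEq, iff_false]
        intro h
        obtain ⟨u, v, huv⟩ := hco
        exact hpr.not_dvd_one (huv ▸ dvd_add
          (((dvd_add_left (hc.mul_left _)).mp h).mul_left u) (hc.mul_left v))
    · have hc' : (c : ZMod ℓ) ≠ 0 := fun h =>
        hc ((ZMod.intCast_zmod_eq_zero_iff_dvd _ _).mp h)
      refine ⟨some ⟨(-(a : ZMod ℓ) / (c : ZMod ℓ)).val, ZMod.val_lt _⟩, fun i => ?_⟩
      cases i with
      | none => rw [hnone]; simpa using hc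
      | some b =>
        rw [hsome, Option.some_inj, Fin.ext_iff, ← ZMod.intCast_zmod_eq_zero_iff_dvd]
        push_cast
        constructor
        · intro h
          rw [← ZMod.val_cast_of_lt b.2]
          congr 1
          field_simp
          linear_combination h
        · intro h
          rw [h, ZMod.natCast_zmod_val]
          field_simp
          ring
  simp only [repDiv, h₀, ite_pow, one_pow]
  rw [Finset.sum_ite, Finset.filter_eq' Finset.univ i₀, Finset.filter_ne' Finset.univ i₀,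
    if_pos (Finset.mem_univ _), Finset.sum_singleton, Finset.sum_const,
    Finset.card_erase_of_mem (Finset.mem_univ _), Finset.card_univ, Fintype.card_option,
    Fintype.card_fin]
  simp

theorem sl_mul_upper {s x y m k : ℤ} (h : m * y = s * k) :
    (!![s, x; 0, y] : ZMat) * !![1, k; 0, 1] = !![1, m; 0, 1] * !![s, x; 0, y] := by
  ext i j
  fin_cases i <;> fin_cases j <;> simp [Matrix.mul_apply, Fin.sum_univ_two]
  linear_combination -h

variable {M : ℕ}

set_option maxHeartbeats 1000000 in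
/-- The eigen equation at an upper unipotent element conjugate into `Γ₀(M)`. -/
theorem sum_trans_parabolic {ℓ : ℕ} (hg : GoodIndex M ℓ) (hℓ1 : (M : ℤ) ∣ (ℓ : ℤ) - 1)
    (v : GHom (Gamma0 M) ℂ) (α : SL(2, ℤ)) (k : ℤ)
    (hγ : α * ModularGroup.T ^ k * α⁻¹ ∈ Gamma0 M) :
    transferHom hg v (Additive.ofMul ((⟨_, hγ⟩ : Gamma0 M) ^ ℓ)) =
      ((ℓ : ℂ) ^ 2 + ℓ) * v (Additive.ofMul ⟨_, hγ⟩) := by
  classical
  set γ : Gamma0 M := ⟨_, hγ⟩ with hγdef
  set a := (α : ZMat) 0 0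
  set c := (α : ZMat) 1 0
  have hco : IsCoprime a c := by
    refine ⟨(α : ZMat) 1 1, -(α : ZMat) 0 1, ?_⟩
    linear_combination det_two α
  have hcol : (α : ZMat).mulVec ![1, 0] = ![a, c] := by
    ext j; fin_cases j <;> simp [a, c]
  have key : ∀ i, v (Additive.ofMul (trCoef hg (γ ^ ℓ) i)) =
      ((repDiv ℓ ![a, c] i ^ 2 : ℤ) : ℂ) * v (Additive.ofMul γ) := by
    intro i
    obtain ⟨η, hη, hmove⟩ := exists_gamma_move hg.prime hℓ1 α i
    rw [hcol] at hmove
    set B : ZMat := ((η * α)⁻¹ : SL(2, ℤ)) * (heckeRep ℓ i * (α : ZMat)) with hBdef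
    have hηα : ((η * α : SL(2, ℤ)) : ZMat) * B = heckeRep ℓ i * (α : ZMat) := by
      rw [hBdef, ← mul_assoc, ← Matrix.SpecialLinearGroup.coe_mul, mul_inv_cancel,
        Matrix.SpecialLinearGroup.coe_one, one_mul]
    have hB10 : B 1 0 = 0 := by
      simp only [vdet, Matrix.mulVec, dotProduct, Fin.sum_univ_two, Matrix.cons_val_zero,
        Matrix.cons_val_one, Matrix.cons_val_fin_one] at hmove
      simp only [hBdef, coe_inv_eq, Matrix.SpecialLinearGroup.coe_mul, Matrix.mul_apply,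
        Fin.sum_univ_two, Matrix.of_apply, Matrix.cons_val', Matrix.cons_val_zero,
        Matrix.cons_val_one, Matrix.cons_val_fin_one]
      simp only [a, c] at hmove
      linear_combination -hmove
    have hBdet : B.det = ℓ := by
      rw [hBdef, Matrix.det_mul, Matrix.det_mul, det_heckeRep, Matrix.SpecialLinearGroup.det_coe,
        Matrix.SpecialLinearGroup.det_coe, one_mul, mul_one]
    have hsy : B 0 0 * B 1 1 = ℓ := by
      rw [Matrix.det_fin_two, hB10, mul_zero, sub_zero] at hBdet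
      exact hBdet
    have hs : B 0 0 ^ 2 = repDiv ℓ ![a, c] i ^ 2 := by
      set w := (heckeRep ℓ i).mulVec ![a, c]
      have e : ∀ r, w r = ((η * α : SL(2, ℤ)) : ZMat) r 0 * B 0 0 := fun r => by
        have e1 := congrFun (congrFun hηα r) 0
        rw [Matrix.mul_apply, Fin.sum_univ_two, hB10, mul_zero, add_zero] at e1
        rw [e1, Matrix.mul_apply, Fin.sum_univ_two]
        fin_cases r <;> simp [w, Matrix.mulVec, dotProduct, Fin.sum_univ_two, a, c]
      have hpr := Nat.prime_iff_prime_int.mp hg.prime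
      rcases (Nat.dvd_prime hg.prime).mp
          (Int.natAbs_dvd_natAbs.mpr (show B 0 0 ∣ (ℓ : ℤ) from ⟨B 1 1, hsy.symm⟩)) with h1 | h1
      · have h1' : B 0 0 ^ 2 = 1 := by
          rw [← Int.natAbs_sq, h1]; norm_num
        rw [h1', repDiv, if_neg, one_pow]
        rintro ⟨d0, d1⟩
        have hunit : IsUnit (B 0 0) := Int.isUnit_iff_natAbs_eq.mpr h1
        change (ℓ : ℤ) ∣ w 0 at d0
        change (ℓ : ℤ) ∣ w 1 at d1
        rw [e, hunit.dvd_mul_right] at d0 d1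
        have := det_two (η * α)
        exact hpr.not_dvd_one (this ▸ dvd_sub (d0.mul_right _) (d1.mul_left _))
      · have hd : ∀ r, (ℓ : ℤ) ∣ w r := fun r => by
          rw [e]; exact (Int.natCast_dvd.mpr h1.symm.dvd).mul_left _
        rw [repDiv, if_pos ⟨hd 0, hd 1⟩, ← Int.natAbs_sq, h1]
    have hm : B 0 0 ^ 2 * k * B 1 1 = B 0 0 * (k * ℓ) := by
      linear_combination (B 0 0 * k) * hsy
    set g : Gamma0 M := ⟨η, hη⟩ * γ ^ (B 0 0 ^ 2) * ⟨η, hη⟩⁻¹
    have hpow : ∀ n : ℤ, ((γ ^ n : Gamma0 M) : SL(2, ℤ)) =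
        α * ModularGroup.T ^ (k * n) * α⁻¹ := fun n => by
      rw [SubgroupClass.coe_zpow, zpow_mul]
      exact conj_zpow
    have hspec : heckeRep ℓ i * gMat (γ ^ ℓ) = gMat g * heckeRep ℓ i := by
      have hBB : B = !![B 0 0, B 0 1; 0, B 1 1] := by
        ext r s; fin_cases r <;> fin_cases s <;> simp [hB10]
      have hT : B * ((ModularGroup.T ^ (k * ℓ) : SL(2, ℤ)) : ZMat) =
          ((ModularGroup.T ^ (k * B 0 0 ^ 2) : SL(2, ℤ)) : ZMat) * B := by
        rw [ModularGroup.coe_T_zpow, ModularGroup.coe_T_zpow, hBB]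
        exact sl_mul_upper (by simp; linear_combination hm)
      have h1 : heckeRep ℓ i = ((η * α : SL(2, ℤ)) : ZMat) * B * ((α⁻¹ : SL(2, ℤ)) : ZMat) := by
        rw [hηα, mul_assoc, ← Matrix.SpecialLinearGroup.coe_mul, mul_inv_cancel,
          Matrix.SpecialLinearGroup.coe_one, mul_one]
      have e1 : gMat (γ ^ ℓ) = ((α * ModularGroup.T ^ (k * ℓ) * α⁻¹ : SL(2, ℤ)) : ZMat) := by
        rw [← hpow, zpow_natCast]
      have e2 : gMat g =
          ((η * (α * ModularGroup.T ^ (k * B 0 0 ^ 2) * α⁻¹) * η⁻¹ : SL(2, ℤ)) : ZMat) := by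
        rw [← hpow]; rfl
      rw [e1, e2, h1]
      calc ((η * α : SL(2, ℤ)) : ZMat) * B * ((α⁻¹ : SL(2, ℤ)) : ZMat) *
            ((α * ModularGroup.T ^ (k * ℓ) * α⁻¹ : SL(2, ℤ)) : ZMat)
          = ((η * α : SL(2, ℤ)) : ZMat) * B *
            ((α⁻¹ * (α * ModularGroup.T ^ (k * ℓ) * α⁻¹) : SL(2, ℤ)) : ZMat) := by
            rw [mul_assoc _ _ ((_ : SL(2, ℤ)) : ZMat), ← Matrix.SpecialLinearGroup.coe_mul]
        _ = ((η * α : SL(2, ℤ)) : ZMat) *
            (B * ((ModularGroup.T ^ (k * ℓ) : SL(2, ℤ)) : ZMat)) * ((α⁻¹ : SL(2, ℤ)) : ZMat) := by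
            rw [← mul_assoc α⁻¹, ← mul_assoc α⁻¹, inv_mul_cancel, one_mul,
              Matrix.SpecialLinearGroup.coe_mul (ModularGroup.T ^ _)]
            simp only [mul_assoc]
        _ = ((η * α * ModularGroup.T ^ (k * B 0 0 ^ 2) : SL(2, ℤ)) : ZMat) * B *
            ((α⁻¹ : SL(2, ℤ)) : ZMat) := by
            rw [hT, Matrix.SpecialLinearGroup.coe_mul _ (ModularGroup.T ^ _)]
            simp only [mul_assoc]
        _ = _ := by
            simp only [← mul_assoc]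
            congr 2
            rw [← Matrix.SpecialLinearGroup.coe_mul]
            refine congrArg Subtype.val ?_
            simp only [mul_assoc, inv_mul_cancel_left, inv_mul_cancel, mul_one]
    rw [(tr_unique hg hspec).2, ofMul_mul, ofMul_mul, ofMul_inv, map_add, map_add, map_neg,
      ofMul_zpow, map_zsmul, zsmul_eq_mul, hs]
    ring
  rw [transferHom_apply, Finset.sum_congr rfl fun i _ => key i, ← Finset.sum_mul, ← Int.cast_sum,
    sum_repDiv_sq hg.prime hco]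
  push_cast
  rfl

/-- A class with eigenvalue `≠ ℓ + 1` at `ℓ ≡ 1 (mod M)` is parabolic. -/
theorem mem_parHom_of_eigen {ℓ : ℕ} (hg : GoodIndex M ℓ) (hℓ1 : (M : ℤ) ∣ (ℓ : ℤ) - 1) {lam : ℂ}
    (hlam : lam ≠ (ℓ : ℂ) + 1) {v : GHom (Gamma0 M) ℂ} (h : transferHom hg v = lam • v) :
    v ∈ GalRep.ParHom M ℂ := by
  intro γ hγ
  obtain ⟨α, hα⟩ := Period.exists_conj_upper_of_trace_sq (γ : SL(2, ℤ)) hγ
  set d := α⁻¹ * (γ : SL(2, ℤ)) * α
  have htr : (d : ZMat).trace ^ 2 = 4 := by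
    rw [show (d : ZMat) = ((α⁻¹ : SL(2, ℤ)) : ZMat) * ((γ : SL(2, ℤ)) : ZMat) * (α : ZMat) from rfl,
      Matrix.trace_mul_comm, ← mul_assoc, ← Matrix.SpecialLinearGroup.coe_mul, mul_inv_cancel,
      Matrix.SpecialLinearGroup.coe_one, one_mul]
    exact hγ
  have hd := det_two d
  rw [hα, mul_zero, sub_zero] at hd
  obtain ⟨k, hk⟩ : ∃ k : ℤ, d * d = ModularGroup.T ^ k := by
    refine ⟨(d * d : SL(2, ℤ)) 0 1, Matrix.SpecialLinearGroup.ext _ _ fun i j => ?_⟩
    rcases Int.mul_eq_one_iff_eq_one_or_neg_one.mp hd with ⟨e0, e1⟩ | ⟨e0, e1⟩ <;>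
    · fin_cases i <;> fin_cases j <;>
        simp [ModularGroup.coe_T_zpow, Matrix.mul_apply, Fin.sum_univ_two, hα, e0, e1]
  have e2 : ((γ * γ : Gamma0 M) : SL(2, ℤ)) = α * ModularGroup.T ^ k * α⁻¹ := by
    rw [← hk, Subgroup.coe_mul]
    simp only [d]
    group
  have hmem : α * ModularGroup.T ^ k * α⁻¹ ∈ Gamma0 M := e2 ▸ (γ * γ).2
  have hz : v (Additive.ofMul ⟨_, hmem⟩) = 0 := by
    have h2 := sum_trans_parabolic hg hℓ1 v α k hmem
    rw [h, AddMonoidHom.smul_apply, ofMul_pow, map_nsmul, smul_eq_mul, nsmul_eq_mul] at h2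
    have h3 : ((ℓ : ℂ) * ((ℓ : ℂ) + 1 - lam)) * v (Additive.ofMul ⟨_, hmem⟩) = 0 := by
      linear_combination -h2
    refine (mul_eq_zero.mp h3).resolve_left (mul_ne_zero ?_ (sub_ne_zero.mpr hlam.symm))
    exact Nat.cast_ne_zero.mpr hg.prime.ne_zero
  rw [show (⟨_, hmem⟩ : Gamma0 M) = γ * γ from Subtype.ext e2.symm, ofMul_mul, map_add, ← two_mul]
    at hz
  exact (mul_eq_zero.mp hz).resolve_left two_ne_zero

end Fermat.Agent.Raise
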