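/-
Auxiliary primes for level raising: an irreducible `E[p]` is not Eisenstein along a congruence
class, nor up to sign.
-/
import Fermat.Agent.GalRep.Wild.NonEisenstein
import Fermat.Agent.EC.TraceVC
import Fermat.Agent.EC.DetCyclo

set_option autoImplicit false
set_option linter.style.haveILetI false

noncomputable section

namespace Fermat.Agent.Raise

open WeierstrassCurve WeierstrassCurve.Affine.Point
open scoped WeierstrassCurve.Affine
open Fermat.Agent.GalRep (frobPoly map_frobPoly pow_add_pow_eq_frobPoly)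
open Fermat.Agent.Galois (GQ)

local notation "Qb" => AlgebraicClosure ℚ

/-- `T² + d = t T` for an endomorphism of a plane. -/
theorem sq_add_det_eq {F M : Type*} [Field F] [AddCommGroup M] [Module F M]
    (hM : Module.finrank F M = 2) (T : Module.End F M) :
    T * T + LinearMap.det T • 1 = LinearMap.trace F M T • T := by
  classical
  haveI : Module.Finite F M := Module.finite_of_finrank_pos (by omega)
  set bs := Module.finBasisOfFinrankEq F M hM
  set e := LinearMap.toMatrixAlgEquiv bs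
  set X := e T with hX
  have d2 : X.det = LinearMap.det T := LinearMap.det_toMatrix bs _
  have d1 : X.trace = LinearMap.trace F M T := (LinearMap.trace_eq_matrix_trace F bs _).symm
  apply e.injective
  rw [map_add, map_smul, map_smul, map_one, map_mul, ← hX, ← d1, ← d2]
  ext i j
  fin_cases i <;> fin_cases j <;>
    simp [Matrix.mul_apply, Fin.sum_univ_two, Matrix.det_fin_two, Matrix.trace_fin_two] <;> ring

section Aux

variable (E : WeierstrassCurve ℚ) [E.IsElliptic] (p : ℕ) [Fact p.Prime]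

/-- The mod `p` representation of `E`. -/
abbrev rhoE := galoisRepModuleEnd (K := Qb) ℚ E.toAffine p

/-- The module `E[p]`. -/
abbrev TorsE : Type := Submodule.torsionBy ℤ (E⁄Qb).toAffine.Point p

/-- The trace on `E[p]`. -/
def trE (g : GQ) : ZMod p := LinearMap.trace (ZMod p) (TorsE E p) (rhoE E p g)

/-- The determinant on `E[p]`. -/
def dtE (g : GQ) : ZMod p := LinearMap.det (rhoE E p g)

instance isElliptic_bar : (E⁄Qb : WeierstrassCurve Qb).IsElliptic :=
  inferInstanceAs (E.map (algebraMap ℚ Qb)).IsElliptic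

theorem finrank_torsE : Module.finrank (ZMod p) (TorsE E p) = 2 :=
  EC.finrank_torsionBy (K := Qb) E.toAffine p

theorem rhoE_rel (g : GQ) :
    rhoE E p g + dtE E p g • rhoE E p g⁻¹ = trE E p g • 1 := by
  have hsq := sq_add_det_eq (finrank_torsE E p) (rhoE E p g)
  have h := congrArg (· * rhoE E p g⁻¹) hsq
  simp only [add_mul, mul_assoc, smul_mul_assoc, ← map_mul, mul_inv_cancel, map_one, mul_one,
    one_mul] at h
  exact h

theorem trE_sq (g : GQ) : trE E p (g * g) = trE E p g ^ 2 - 2 * dtE E p g := by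
  haveI : Module.Finite (ZMod p) (TorsE E p) :=
    Module.finite_of_finrank_eq_succ (finrank_torsE E p)
  have h := congrArg (LinearMap.trace (ZMod p) (TorsE E p))
    (sq_add_det_eq (finrank_torsE E p) (rhoE E p g))
  rw [map_add, map_smul, map_smul, LinearMap.trace_one, finrank_torsE, ← map_mul,
    smul_eq_mul, smul_eq_mul] at h
  push_cast at h
  show LinearMap.trace (ZMod p) (TorsE E p) (rhoE E p (g * g)) = _
  rw [trE, dtE]
  linear_combination h

theorem trE_pow {σ : GQ} {a : ZMod p} {l : ℕ} (ha : trE E p σ = a) (hl : dtE E p σ = l) (b : ℕ) :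
    trE E p (σ ^ b) = frobPoly a (l : ZMod p) b := by
  haveI : Nontrivial (TorsE E p) := EC.nontrivial_torsionBy (K := Qb) E.toAffine p
  have h1 := rhoE_rel E p σ
  rw [ha, hl, Nat.cast_smul_eq_nsmul, nsmul_eq_mul] at h1
  have h2 := pow_add_pow_eq_frobPoly (F := rhoE E p σ) (G := rhoE E p σ⁻¹)
    (by rw [← map_mul, mul_inv_cancel, map_one]) (by rw [← map_mul, inv_mul_cancel, map_one]) h1 b
  have hω : dtE E p (σ ^ b) = (l : ZMod p) ^ b := by
    rw [dtE, map_pow, map_pow, ← hl]; rfl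
  have h3 := rhoE_rel E p (σ ^ b)
  rw [hω, map_pow, ← inv_pow, map_pow, ← Nat.cast_pow, Nat.cast_smul_eq_nsmul, nsmul_eq_mul,
    Nat.cast_pow, h2] at h3
  have h4 := map_frobPoly (algebraMap (ZMod p) (Module.End (ZMod p) (TorsE E p))) a (l : ZMod p) b
  rw [map_natCast, Algebra.algebraMap_eq_smul_one, Algebra.algebraMap_eq_smul_one, h3] at h4
  exact (smul_left_injective (ZMod p) one_ne_zero h4).symm

theorem dtE_pow (σ : GQ) (b : ℕ) : dtE E p (σ ^ b) = dtE E p σ ^ b := by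
  rw [dtE, dtE, map_pow, map_pow]

theorem dtE_mul (σ τ : GQ) : dtE E p (σ * τ) = dtE E p σ * dtE E p τ := by
  rw [dtE, dtE, dtE, map_mul, map_mul]

theorem trE_congr {g h : GQ} (e : rhoE E p g = rhoE E p h) :
    trE E p g = trE E p h ∧ dtE E p g = dtE E p h := by
  rw [trE, trE, dtE, dtE, e]; exact ⟨rfl, rfl⟩

end Aux

section Main

variable (E : WeierstrassCurve ℚ) [E.IsElliptic] {W : WeierstrassCurve ℤ}
  (hW : W.IsIntegralModelOf E) (p : ℕ) [Fact p.Prime] (hp2 : p ≠ 2)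

include hW in
theorem delta_ne_zero : W.Δ ≠ 0 := by
  obtain ⟨C, hC⟩ := hW
  intro h
  have h1 : (C • E).Δ = 0 := by rw [hC, WeierstrassCurve.map_Δ, h, _root_.map_zero]
  exact (C • E).isUnit_Δ.ne_zero h1

include hW hp2

theorem trE_frobenius {ℓ : ℕ} (hℓ : ℓ.Prime) (hgood : W.IsGoodPrimeFor ℓ) (hℓp : ℓ ≠ p)
    {A : ValuationSubring Qb} (hA : A.LiesOverPrime ℓ) {σ : GQ} (hσ : A.IsFrobeniusAt σ ℓ) :
    trE E p σ = (W.apOfModel ℓ : ZMod p) := by
  obtain ⟨C, hC⟩ := hW
  have h := (EC.galoisTrace_frobenius W hℓ hgood hA hσ (Fact.out : p.Prime) hp2 hℓp.symm).1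
  rw [EC.galoisTrace_variableChange C p σ hC, galoisTrace_def] at h
  exact h

/-- The determinant is the cyclotomic character. -/
theorem dtE_eq_cyc (g : GQ) : dtE E p g = PadicInt.toZMod (GalRep.cyc p g : ℤ_[p]) := by
  obtain ⟨C, hC⟩ := id hW
  have hΔ := delta_ne_zero E hW
  haveI : (W.map (Int.castRingHom ℚ)).IsElliptic := by rw [← hC]; infer_instance
  have ht : ∀ σ : GQ, trE (W.map (Int.castRingHom ℚ)) p σ = trE E p σ := fun σ => by
    have h := EC.galoisTrace_variableChange C p σ hC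
    rw [galoisTrace_def, galoisTrace_def] at h
    exact h
  have h1 := trE_sq E p g
  have h2 := trE_sq (W.map (Int.castRingHom ℚ)) p g
  rw [ht, ht, h1] at h2
  have h2' : (2 : ZMod p) ≠ 0 := fun h => hp2 ((Nat.prime_dvd_prime_iff_eq Fact.out Nat.prime_two).mp
    ((ZMod.natCast_eq_zero_iff 2 p).mp (by exact_mod_cast h)))
  have h3 : dtE E p g = dtE (W.map (Int.castRingHom ℚ)) p g :=
    mul_left_cancel₀ h2' (by linear_combination -h2)
  rw [h3]
  exact EC.det_torsion_eq_cyc W p hp2 hΔ g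

theorem dtE_frobenius {ℓ : ℕ} (hℓ : ℓ.Prime) (hℓp : ℓ ≠ p)
    {A : ValuationSubring Qb} (hA : A.LiesOverPrime ℓ) {σ : GQ} (hσ : A.IsFrobeniusAt σ ℓ) :
    dtE E p σ = (ℓ : ZMod p) := by
  rw [dtE_eq_cyc E hW p hp2, GalRep.cyc_frobenius p hℓ hℓp hA hσ, map_natCast]

theorem dtE_one_iff {g : GQ} : dtE E p g = 1 ↔ ∀ z : Qb, z ^ p = 1 → g z = z := by
  have hp : p.Prime := Fact.out
  haveI : NeZero p := ⟨hp.ne_zero⟩
  rw [dtE_eq_cyc E hW p hp2]
  constructor
  · intro h z hz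
    have h1 : PadicInt.toZModPow 1 (GalRep.cyc p g : ℤ_[p]) = ((1 : ℕ) : ZMod (p ^ 1)) :=
      EC.toZModPow_eq_of_toZMod (by rw [Nat.cast_one]; exact h)
    rw [GalRep.cyc_spec p g (k := 1) z (by rwa [pow_one]), h1, Nat.cast_one]
    haveI : Fact (1 < p ^ 1) := ⟨by rw [pow_one]; exact hp.one_lt⟩
    rw [ZMod.val_one, pow_one]
  · intro h
    obtain ⟨z, hz⟩ := HasEnoughRootsOfUnity.exists_primitiveRoot Qb p
    have := EC.toZMod_eq_of_toZModPow
      (GalRep.toZModPow_cyc_eq p g (k := 1) one_ne_zero (by rw [pow_one]; exact hz)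
        (show g z = z ^ 1 by rw [pow_one]; exact h z hz.pow_eq_one))
    simpa using this

theorem dtE_conj_ne_one : dtE E p GalRep.Semistable.conjQ ≠ 1 := fun h => by
  have hp : p.Prime := Fact.out
  haveI : NeZero p := ⟨hp.ne_zero⟩
  obtain ⟨z, hz⟩ := HasEnoughRootsOfUnity.exists_primitiveRoot Qb p
  have h1 := (dtE_one_iff E hW p hp2).mp h z hz.pow_eq_one
  rw [GalRep.Semistable.conjQ_root_of_unity hp.ne_zero hz.pow_eq_one] at h1
  have hz0 : z ≠ 0 := hz.ne_zero hp.ne_zero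
  have h2 : z ^ 2 = 1 := by
    rw [sq]
    conv_lhs => arg 1; rw [← h1]
    exact inv_mul_cancel₀ hz0
  have := Nat.le_of_dvd two_pos (hz.dvd_of_pow_eq_one 2 h2)
  have := hp.two_le
  omega

/-- An abelian image is reducible. -/
theorem false_of_comm (hirr : GaloisRepIsIrreducible (K := Qb) ℚ E p)
    (hcomm : ∀ g h : GQ, rhoE E p g * rhoE E p h = rhoE E p h * rhoE E p g) : False := by
  set c := GalRep.Semistable.conjQ
  have hcc : rhoE E p c * rhoE E p c = 1 := by
    rw [← map_mul, GalRep.Semistable.conjQ_mul_self, map_one]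
  let N : Submodule (ZMod p) (TorsE E p) := LinearMap.ker (rhoE E p c - 1)
  have hstab : ∀ σ : GQ, ∀ x ∈ N, σ • x ∈ N := fun σ x hx => by
    rw [LinearMap.mem_ker, LinearMap.sub_apply, Module.End.one_apply, sub_eq_zero] at hx ⊢
    show rhoE E p c (rhoE E p σ x) = rhoE E p σ x
    rw [← Module.End.mul_apply, hcomm, Module.End.mul_apply, hx]
  refine dtE_conj_ne_one E hW p hp2 ?_
  rcases hirr.2 N hstab with hN | hN
  · have hneg : rhoE E p c = (-1 : ZMod p) • 1 := LinearMap.ext fun x => by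
      have hmem : rhoE E p c x + x ∈ N := by
        rw [LinearMap.mem_ker, LinearMap.sub_apply, Module.End.one_apply, map_add,
          ← Module.End.mul_apply, hcc, Module.End.one_apply]
        abel
      rw [hN, Submodule.mem_bot] at hmem
      rw [LinearMap.smul_apply, Module.End.one_apply, neg_one_smul]
      exact eq_neg_of_add_eq_zero_left hmem
    rw [dtE, hneg, LinearMap.det_smul, finrank_torsE, map_one, mul_one]
    ring
  · rw [dtE, show rhoE E p c = 1 from LinearMap.ext fun x =>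
      sub_eq_zero.mp (LinearMap.mem_ker.mp (hN ▸ Submodule.mem_top : x ∈ N)), map_one]

/-- A unipotent normal subgroup acts trivially. -/
theorem trivial_of_unipotent (hirr : GaloisRepIsIrreducible (K := Qb) ℚ E p) (H : Subgroup GQ)
    [H.Normal] (hdt : ∀ g ∈ H, dtE E p g = 1) (htr : ∀ g ∈ H, trE E p g = 2) :
    ∀ g ∈ H, rhoE E p g = 1 := by
  haveI : NeZero p := ⟨(Fact.out : p.Prime).ne_zero⟩
  have hrk := finrank_torsE E p
  haveI : Module.Finite (ZMod p) (TorsE E p) := Module.finite_of_finrank_eq_succ hrk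
  haveI : Finite (TorsE E p) := Module.finite_of_finite (ZMod p)
  let rZ : H →* Module.End ℤ (TorsE E p) :=
    { toFun := fun g => (rhoE E p (g : GQ)).restrictScalars ℤ
      map_one' := LinearMap.ext fun x => one_smul GQ x
      map_mul' := fun g h => LinearMap.ext fun x => mul_smul (g : GQ) (h : GQ) x }
  obtain ⟨x₀, hx₀⟩ : ∃ x : TorsE E p, x ≠ 0 := by
    haveI := hirr.1
    exact exists_ne 0
  obtain ⟨y, -, hy0, hy⟩ := GalRep.Wild.exists_fixed_of_unipotent (p := p) rZ ⊤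
    (fun x => by
      rw [← Nat.cast_smul_eq_nsmul (ZMod p) p x, ZMod.natCast_self, zero_smul])
    (fun _ _ _ => AddSubgroup.mem_top _)
    (fun g x _ => by
      have h := LinearMap.congr_fun (rhoE_rel E p (g : GQ)) x
      rw [hdt g g.2, htr g g.2, one_smul, LinearMap.add_apply, LinearMap.smul_apply,
        Module.End.one_apply, two_smul] at h
      rw [two_nsmul]
      exact h)
    (AddSubgroup.mem_top x₀) hx₀
  let X : Submodule (ZMod p) (TorsE E p) := ⨅ g : H, LinearMap.ker (rhoE E p (g : GQ) - 1)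
  have hXmem : ∀ x, x ∈ X ↔ ∀ g : H, (g : GQ) • x = x := fun x => by
    simp [X, Submodule.mem_iInf, sub_eq_zero, galoisRepModuleEnd_apply]
  have hXtop : X = ⊤ := (hirr.2 X fun σ x hx => (hXmem _).mpr fun g => by
      have := (hXmem x).mp hx ⟨_, Subgroup.Normal.conj_mem' inferInstance (g : GQ) g.2 σ⟩
      rw [mul_smul, mul_smul, inv_smul_eq_iff] at this
      exact this).resolve_left fun h =>
    hy0 ((Submodule.eq_bot_iff _).mp h y ((hXmem y).mpr fun g => hy g))
  exact fun g hg => LinearMap.ext fun x => (hXmem x).mp (hXtop ▸ Submodule.mem_top) ⟨g, hg⟩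

omit [E.IsElliptic] hW hp2 [Fact p.Prime] in
/-- The fixer of a root of unity. -/
def rootFixer {n : ℕ} {ζ : Qb} (_ : IsPrimitiveRoot ζ n) : Subgroup GQ where
  carrier := {g | g ζ = ζ}
  one_mem' := rfl
  mul_mem' {g h} hg hh := by
    show (g * h) ζ = ζ
    rw [AlgEquiv.mul_apply, show h ζ = ζ from hh, show g ζ = ζ from hg]
  inv_mem' {g} hg := by
    show g⁻¹ ζ = ζ
    conv_lhs => rw [← (show g ζ = ζ from hg)]
    exact g.symm_apply_apply ζ

omit [E.IsElliptic] hW hp2 [Fact p.Prime] in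
theorem exists_pow_root {n : ℕ} [NeZero n] {ζ : Qb} (hζ : IsPrimitiveRoot ζ n) (k : GQ) :
    ∃ i, ζ ^ i = k ζ := by
  obtain ⟨i, -, hi⟩ := hζ.eq_pow_of_pow_eq_one (show (k ζ) ^ n = 1 by
    rw [← map_pow, hζ.pow_eq_one, map_one])
  exact ⟨i, hi⟩

omit [E.IsElliptic] hW hp2 [Fact p.Prime] in
theorem rootFixer_normal {n : ℕ} [NeZero n] {ζ : Qb} (hζ : IsPrimitiveRoot ζ n) :
    (rootFixer hζ).Normal := ⟨fun g hg σ => by
  show (σ * g * σ⁻¹) ζ = ζ
  obtain ⟨i, hi⟩ := exists_pow_root hζ σ⁻¹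
  rw [AlgEquiv.mul_apply, AlgEquiv.mul_apply, ← hi, map_pow, show g ζ = ζ from hg, hi]
  exact σ.apply_symm_apply ζ⟩

/-- A Frobenius congruent to a given element fixing the `pM`-th roots of unity. -/
theorem exists_frob_data (M : ℕ) [NeZero M] (S : Finset ℕ) {ζ : Qb}
    (hζ : IsPrimitiveRoot ζ (p * M)) {g : GQ} (hg : g ζ = ζ) :
    ∃ ℓ : ℕ, ℓ.Prime ∧ ℓ ∉ S ∧ W.IsGoodPrimeFor ℓ ∧ ℓ ≠ p ∧ (ℓ : ZMod M) = 1 ∧ (ℓ : ZMod p) = 1 ∧
      ∃ b : ℕ, trE E p g = frobPoly (W.apOfModel ℓ : ZMod p) 1 b ∧ dtE E p g = 1 := by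
  classical
  have hp : p.Prime := Fact.out
  haveI : NeZero (p * M) := ⟨Nat.mul_ne_zero hp.ne_zero (NeZero.ne M)⟩
  obtain ⟨L, hL, hLfix⟩ := EC.exists_finite_level ℚ E.toAffine (K := Qb) p hp.one_le
  haveI := hL
  haveI : FiniteDimensional ℚ (IntermediateField.adjoin ℚ ({ζ} : Set Qb)) :=
    IntermediateField.adjoin.finiteDimensional (IsIntegral.tower_top (R := ℤ)
      (hζ.isIntegral (NeZero.pos _)))
  set F := L ⊔ IntermediateField.adjoin ℚ ({ζ} : Set Qb) with hF
  have hζF : ζ ∈ F := (le_sup_right : _ ≤ F) (IntermediateField.mem_adjoin_simple_self ℚ ζ)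
  obtain ⟨ℓ, hℓ, hbad, A, hA, σ, hσ, hσfix, b, hb⟩ := Density.exists_frobenius_cyclic F
    (S ∪ (p * M).primeFactors ∪ W.Δ.natAbs.primeFactors) g
  simp only [Finset.mem_union, not_or] at hbad
  obtain ⟨⟨hS, hbad⟩, hΔ⟩ := hbad
  have hℓM : ¬ ℓ ∣ p * M := fun h => hbad (Nat.mem_primeFactors.mpr ⟨hℓ, h, NeZero.ne _⟩)
  have hgood : W.IsGoodPrimeFor ℓ := fun h => hΔ (Nat.mem_primeFactors.mpr
    ⟨hℓ, Int.natCast_dvd.mp h, Int.natAbs_ne_zero.mpr (delta_ne_zero E hW)⟩)
  have hℓp : ℓ ≠ p := fun h => hℓM (h ▸ dvd_mul_right p M)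
  have h1 := GalRep.Wild.natCast_eq_one_of_frobenius_fix hℓ hA hℓM hσ hζ (hσfix ζ hζF hg)
  have hℓ1 : (ℓ : ZMod M) = 1 := by
    simpa using congrArg (ZMod.castHom (Dvd.intro_left p rfl) (ZMod M)) h1
  have hℓp1 : (ℓ : ZMod p) = 1 := by
    simpa using congrArg (ZMod.castHom (Dvd.intro M rfl) (ZMod p)) h1
  refine ⟨ℓ, hℓ, hS, hgood, hℓp, hℓ1, hℓp1, b, ?_⟩
  have e2 : rhoE E p ((σ ^ b)⁻¹ * g) = 1 := LinearMap.ext fun Q => hLfix _ (fun x hx => by
    rw [AlgEquiv.mul_apply, ← hb x ((le_sup_left : L ≤ F) hx)]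
    exact (σ ^ b).symm_apply_apply x) Q
  have e3 : rhoE E p g = rhoE E p (σ ^ b) := by
    conv_lhs => rw [← mul_inv_cancel_left (σ ^ b) g, map_mul, e2, mul_one]
  obtain ⟨et, ed⟩ := trE_congr E p e3
  have hd := dtE_frobenius E hW p hp2 hℓ hℓp hA hσ
  refine ⟨?_, by rw [ed, dtE_pow, hd, hℓp1, one_pow]⟩
  rw [et, trE_pow E p (trE_frobenius E hW p hp2 hℓ hgood hℓp hA hσ) hd b, hℓp1]

omit [E.IsElliptic] hW hp2 in
theorem frobPoly_eps {ε : ZMod p} (hε : ε * ε = 1) (b : ℕ) :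
    frobPoly (2 * ε) (1 : ZMod p) b = 2 * ε ^ b := by
  have := pow_add_pow_eq_frobPoly (R := ZMod p) (F := ε) (G := ε) (t := 2 * ε) (l := 1) hε hε
    (by rw [Nat.cast_one, one_mul, two_mul]) b
  rw [Nat.cast_one, one_pow, one_mul] at this
  rw [← this, two_mul]

variable (hirr : GaloisRepIsIrreducible (K := Qb) ℚ E p)
include hirr

/-- An irreducible `E[p]` is not Eisenstein at primes `≡ 1` mod `M`. -/
theorem exists_prime_nonEis (M : ℕ) [NeZero M] (S : Finset ℕ) :
    ∃ ℓ : ℕ, ℓ.Prime ∧ ℓ ∉ S ∧ W.IsGoodPrimeFor ℓ ∧ ℓ ≠ p ∧ (ℓ : ZMod M) = 1 ∧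
      (W.apOfModel ℓ : ZMod p) ≠ (ℓ : ZMod p) + 1 := by
  classical
  by_contra hcon
  push Not at hcon
  haveI : NeZero (p * M) := ⟨Nat.mul_ne_zero (Fact.out : p.Prime).ne_zero (NeZero.ne M)⟩
  obtain ⟨ζ, hζ⟩ := HasEnoughRootsOfUnity.exists_primitiveRoot Qb (p * M)
  haveI := rootFixer_normal hζ
  have hdata : ∀ g ∈ rootFixer hζ, dtE E p g = 1 ∧ trE E p g = 2 := fun g hg => by
    obtain ⟨ℓ, hℓ, hS, hgood, hℓp, hℓ1, hℓp1, b, ht, hd⟩ := exists_frob_data E hW p hp2 M S hζ hg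
    refine ⟨hd, ?_⟩
    rw [ht, hcon ℓ hℓ hS hgood hℓp hℓ1, hℓp1]
    have := frobPoly_eps p (ε := 1) (mul_one 1) b
    rw [mul_one, one_pow, mul_one] at this
    rw [one_add_one_eq_two, this]
  have htriv := trivial_of_unipotent E hW p hp2 hirr _ (fun g hg => (hdata g hg).1)
    fun g hg => (hdata g hg).2
  refine false_of_comm E hW p hp2 hirr fun g h => ?_
  have hmem : (h * g)⁻¹ * (g * h) ∈ rootFixer hζ := by
    show ((h * g)⁻¹ * (g * h)) ζ = ζ
    obtain ⟨i, hi⟩ := exists_pow_root hζ g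
    obtain ⟨j, hj⟩ := exists_pow_root hζ h
    have e : (g * h) ζ = (h * g) ζ := by
      rw [AlgEquiv.mul_apply, AlgEquiv.mul_apply, ← hi, ← hj, map_pow, map_pow, ← hi, ← hj,
        ← pow_mul, ← pow_mul, mul_comm]
    rw [AlgEquiv.mul_apply, e]
    exact (h * g).symm_apply_apply ζ
  rw [← map_mul, ← map_mul, ← mul_inv_cancel_left (h * g) (g * h), map_mul _ (h * g),
    htriv _ hmem, mul_one]

/-- An irreducible `E[p]` is not Eisenstein up to sign. -/
theorem exists_prime_not_sign (S : Finset ℕ) :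
    ∃ ℓ : ℕ, ℓ.Prime ∧ ℓ ∉ S ∧ W.IsGoodPrimeFor ℓ ∧ ℓ ≠ p ∧
      (((W.apOfModel ℓ) ^ 2 - ((ℓ : ℤ) + 1) ^ 2 : ℤ) : ZMod p) ≠ 0 := by
  classical
  by_contra hcon
  push Not at hcon
  have hp : p.Prime := Fact.out
  haveI : NeZero p := ⟨hp.ne_zero⟩
  haveI : NeZero (p * 1) := ⟨by rw [mul_one]; exact hp.ne_zero⟩
  have h2' : (2 : ZMod p) ≠ 0 := fun h => hp2 ((Nat.prime_dvd_prime_iff_eq hp Nat.prime_two).mp
    ((ZMod.natCast_eq_zero_iff 2 p).mp (by exact_mod_cast h)))
  obtain ⟨ζ, hζ⟩ := HasEnoughRootsOfUnity.exists_primitiveRoot Qb (p * 1)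
  have hfix : ∀ g : GQ, dtE E p g = 1 → g ζ = ζ := fun g hg =>
    (dtE_one_iff E hW p hp2).mp hg ζ (by simpa using hζ.pow_eq_one)
  have hsq : ∀ g : GQ, dtE E p g = 1 → trE E p g = 2 ∨ trE E p g = -2 := fun g hg => by
    obtain ⟨ℓ, hℓ, hS, hgood, hℓp, -, hℓp1, b, ht, -⟩ :=
      exists_frob_data E hW p hp2 1 S hζ (hfix g hg)
    have h := hcon ℓ hℓ hS hgood hℓp
    push_cast at h
    rw [hℓp1, one_add_one_eq_two, sub_eq_zero, sq_eq_sq_iff_eq_or_eq_neg] at h
    obtain ⟨ε, hε, ha⟩ : ∃ ε : ZMod p, (ε = 1 ∨ ε = -1) ∧ (W.apOfModel ℓ : ZMod p) = 2 * ε := by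
      rcases h with h | h
      · exact ⟨1, Or.inl rfl, by rw [h, mul_one]⟩
      · exact ⟨-1, Or.inr rfl, by rw [h]; ring⟩
    have hεε : ε * ε = 1 := by rcases hε with rfl | rfl <;> ring
    rw [ht, ha, frobPoly_eps p hεε]
    rcases Nat.even_or_odd b with hb | hb <;> rcases hε with rfl | rfl <;>
      simp [hb.neg_one_pow]
  -- the unipotent elements form a normal subgroup
  have hrk := finrank_torsE E p
  haveI : Module.Finite (ZMod p) (TorsE E p) := Module.finite_of_finrank_eq_succ hrk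
  have h0tr : ∀ g, dtE E p g = 1 → trE E p g = 2 →
      LinearMap.trace (ZMod p) (TorsE E p) (rhoE E p g - 1) = 0 ∧
      rhoE E p (g * g) = rhoE E p g + rhoE E p g - 1 := fun g hd ht => by
    refine ⟨by rw [map_sub, LinearMap.trace_one, hrk]; exact sub_eq_zero.mpr ht, ?_⟩
    have h := sq_add_det_eq hrk (rhoE E p g)
    rw [show LinearMap.det (rhoE E p g) = 1 from hd,
      show LinearMap.trace (ZMod p) (TorsE E p) (rhoE E p g) = 2 from ht, one_smul, two_smul] at h
    rw [map_mul, eq_sub_iff_add_eq]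
    exact h
  let U : Subgroup GQ :=
    { carrier := {g | dtE E p g = 1 ∧ trE E p g = 2}
      one_mem' := ⟨by simp [dtE], by
        show LinearMap.trace (ZMod p) (TorsE E p) (rhoE E p 1) = 2
        rw [map_one, LinearMap.trace_one, hrk]; norm_num⟩
      mul_mem' := fun {g h} hg hh => ⟨by rw [dtE_mul, hg.1, hh.1, one_mul], by
        obtain ⟨g0, gsq⟩ := h0tr g hg.1 hg.2
        set t := LinearMap.trace (ZMod p) (TorsE E p) ((rhoE E p g - 1) * (rhoE E p h - 1)) with hdef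
        have e1 : trE E p (g * h) = 2 + t := by
          show LinearMap.trace (ZMod p) (TorsE E p) (rhoE E p (g * h)) = _
          rw [map_mul, hdef, sub_mul, mul_sub, mul_one, one_mul, map_sub, map_sub, map_sub,
            LinearMap.trace_one, hrk]
          have := hg.2; have := hh.2
          simp only [trE] at *
          push_cast
          linear_combination hg.2 + hh.2
        have e2 : trE E p (g * g * h) = 2 + (t + t) := by
          show LinearMap.trace (ZMod p) (TorsE E p) (rhoE E p (g * g * h)) = _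
          rw [map_mul, gsq, hdef, sub_mul (rhoE E p g + rhoE E p g), add_mul, one_mul, map_sub,
            map_add, sub_mul (rhoE E p g) 1, mul_sub, mul_one, one_mul, map_sub, map_sub, map_sub,
            LinearMap.trace_one, hrk]
          have := hg.2; have := hh.2
          simp only [trE] at *
          push_cast
          linear_combination 2 * hg.2 + hh.2
        rcases hsq (g * h) (by rw [dtE_mul, hg.1, hh.1, one_mul]) with k1 | k1
        · exact k1
        exfalso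
        rcases hsq (g * g * h) (by rw [dtE_mul, dtE_mul, hg.1, hh.1, one_mul, one_mul]) with k2 | k2
        · have h8 : (2 : ZMod p) * (2 * 2) = 0 := by linear_combination (e2 - k2) - 2 * (e1 - k1)
          rcases mul_eq_zero.mp h8 with h | h
          · exact h2' h
          · exact (mul_eq_zero.mp h).elim h2' h2'
        · have h4 : (2 : ZMod p) * 2 = 0 := by linear_combination (e2 - k2) - 2 * (e1 - k1)
          exact (mul_eq_zero.mp h4).elim h2' h2'⟩
      inv_mem' := fun {g} hg => by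
        have hd : dtE E p g⁻¹ = 1 := by
          have := dtE_mul E p g g⁻¹
          rw [mul_inv_cancel, hg.1, one_mul] at this
          rw [← this]; simp [dtE]
        refine ⟨hd, ?_⟩
        have h := congrArg (LinearMap.trace (ZMod p) (TorsE E p)) (rhoE_rel E p g)
        rw [hg.1, one_smul, map_add, map_smul, LinearMap.trace_one, hrk, smul_eq_mul] at h
        show trE E p g⁻¹ = 2
        simp only [trE] at *
        push_cast at h
        linear_combination h + hg.2 }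
  haveI : U.Normal := ⟨fun g hg σ => by
    have hσσ : rhoE E p σ⁻¹ * rhoE E p σ = 1 := by rw [← map_mul, inv_mul_cancel, map_one]
    refine ⟨?_, ?_⟩
    · rw [dtE_mul, dtE_mul, hg.1, mul_one, ← dtE_mul, mul_inv_cancel]; simp [dtE]
    · show LinearMap.trace (ZMod p) (TorsE E p) (rhoE E p (σ * g * σ⁻¹)) = 2
      rw [map_mul (rhoE E p), map_mul (rhoE E p), LinearMap.trace_mul_comm, ← mul_assoc, hσσ, one_mul]
      exact hg.2⟩
  have hU := trivial_of_unipotent E hW p hp2 hirr U (fun g hg => hg.1) fun g hg => hg.2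
  -- elements of determinant one act by a sign
  have hsign : ∀ g : GQ, dtE E p g = 1 → rhoE E p g = 1 ∨ rhoE E p g = -1 := fun g hd => by
    rcases hsq g hd with ht | ht
    · exact Or.inl (hU g ⟨hd, ht⟩)
    right
    have h1 : rhoE E p (g * g) = 1 :=
      hU _ ⟨by rw [dtE_mul, hd, one_mul], by rw [trE_sq, ht, hd]; ring⟩
    have h := sq_add_det_eq hrk (rhoE E p g)
    rw [← map_mul, h1, show LinearMap.det (rhoE E p g) = 1 from hd,
      show LinearMap.trace (ZMod p) (TorsE E p) (rhoE E p g) = -2 from ht, one_smul] at h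
    have h' : (2 : ZMod p) • (rhoE E p g + 1) = 0 := by
      rw [smul_add, two_smul _ (1 : Module.End (ZMod p) (TorsE E p)), h, ← add_smul,
        add_neg_cancel, zero_smul]
    exact eq_neg_of_add_eq_zero_left ((smul_eq_zero.mp h').resolve_left h2')
  -- the image is abelian
  refine false_of_comm E hW p hp2 hirr fun g h => ?_
  let f : GQ →* (ZMod p)ˣ := (Units.map (LinearMap.det (A := ZMod p) (M := TorsE E p))).comp
    (MonoidHom.toHomUnits (rhoE E p))
  have hf : ∀ σ, ((f σ : (ZMod p)ˣ) : ZMod p) = dtE E p σ := fun σ => rfl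
  obtain ⟨⟨_, σ₀, rfl⟩, hgen⟩ := IsCyclic.exists_generator (α := f.range)
  have key : ∀ σ : GQ, ∃ (k : ℤ) (e : Module.End (ZMod p) (TorsE E p)),
      (e = 1 ∨ e = -1) ∧ rhoE E p σ = rhoE E p (σ₀ ^ k) * e := fun σ => by
    obtain ⟨k, hk⟩ := Subgroup.mem_zpowers_iff.mp (hgen ⟨f σ, σ, rfl⟩)
    have hk' : f σ₀ ^ k = f σ := congrArg Subtype.val hk
    refine ⟨k, rhoE E p ((σ₀ ^ k)⁻¹ * σ), hsign _ ?_, by
      rw [← map_mul, mul_inv_cancel_left]⟩
    rw [← hf, map_mul, map_inv, map_zpow, hk', inv_mul_cancel, Units.val_one]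
  obtain ⟨i, e, he, hg'⟩ := key g
  obtain ⟨j, e', he', hh'⟩ := key h
  have hc : rhoE E p (σ₀ ^ i) * rhoE E p (σ₀ ^ j) = rhoE E p (σ₀ ^ j) * rhoE E p (σ₀ ^ i) := by
    rw [← map_mul, ← map_mul, ← zpow_add, ← zpow_add, add_comm]
  rcases he with rfl | rfl <;> rcases he' with rfl | rfl <;> simp [hg', hh', hc]

end Main

end Fermat.Agent.Raise
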