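/-
An integral parabolic class whose reduction modulo `p` is an eigenclass with the eigenvalues of
a congruence eigenform.
-/
import Fermat.Agent.GalRep.Lattice
import Fermat.Agent.GalRep.EigenChar
import Mathlib.RingTheory.Finiteness.Nakayama

set_option autoImplicit false
set_option linter.style.haveILetI false

noncomputable section

namespace Fermat.Agent.Raise

open CongruenceSubgroup ModularFormClass
open Fermat.Agent.GalRep

/-- An element of a finite module killed by a maximal ideal containing the annihilator. -/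
theorem exists_killed_by_maximal {R M : Type} [CommRing R] [IsNoetherianRing R] [AddCommGroup M]
    [Module R M] [Module.Finite R M] (p : R) (P : Ideal R) [P.IsMaximal]
    (hann : Module.annihilator R M ≤ P) (hp : p ∈ P)
    (hQ : ∀ Q : Ideal R, Q.IsPrime → p ∈ Q → Q.IsMaximal) :
    ∃ y : M, (∀ z : M, y ≠ p • z) ∧ ∀ c ∈ P, ∃ z : M, c • y = p • z := by
  let pL : Submodule R M := LinearMap.range (LinearMap.lsmul R M p)
  have hle : Module.annihilator R (M ⧸ pL) ≤ P := by
    intro c hc
    have htop : (⊤ : Submodule R M).FG := Module.Finite.fg_top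
    by_contra hcP
    obtain ⟨d, hd⟩ := Ideal.IsMaximal.exists_inv ‹P.IsMaximal› hcP
    obtain ⟨e, he, hde⟩ := hd
    have hsub : (⊤ : Submodule R M) ≤ P • ⊤ := fun x _ => by
      have h1 : c • x ∈ pL := by
        rw [← Submodule.Quotient.mk_eq_zero, Submodule.Quotient.mk_smul]
        exact Module.mem_annihilator.mp hc _
      obtain ⟨w, hw⟩ := h1
      have hx : x = (d * p) • w + e • x := by
        rw [mul_smul, show p • w = c • x from hw, ← mul_smul, ← add_smul, hde, one_smul]
      rw [hx]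
      exact add_mem (Submodule.smul_mem_smul (P.mul_mem_left d hp) Submodule.mem_top)
        (Submodule.smul_mem_smul he Submodule.mem_top)
    obtain ⟨r, hr, hr0⟩ :=
      Submodule.exists_sub_one_mem_and_smul_eq_zero_of_fg_of_le_smul P ⊤ htop hsub
    have hrP : r ∈ P := hann (Module.mem_annihilator.mpr fun x => hr0 x Submodule.mem_top)
    exact (Ideal.IsMaximal.ne_top ‹_›) ((Ideal.eq_top_iff_one P).mpr (by
      simpa using P.sub_mem hrP hr))
  have hmin : P ∈ (Module.annihilator R (M ⧸ pL)).minimalPrimes := by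
    refine ⟨⟨Ideal.IsMaximal.isPrime ‹_›, hle⟩, fun Q hQ' hQP => ?_⟩
    have hpQ : p ∈ Q := hQ'.2 (Module.mem_annihilator.mpr fun x => by
      obtain ⟨v, rfl⟩ := Submodule.Quotient.mk_surjective _ x
      rw [← Submodule.Quotient.mk_smul, Submodule.Quotient.mk_eq_zero]
      exact ⟨v, rfl⟩)
    exact ((hQ Q hQ'.1 hpQ).eq_of_le (Ideal.IsMaximal.ne_top ‹_›) hQP).ge
  obtain ⟨-, y, hy⟩ := isAssociatedPrime_iff.1
    (Module.associatedPrimes.minimalPrimes_annihilator_subset_associatedPrimes _ _ hmin)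
  obtain ⟨x, rfl⟩ := Submodule.Quotient.mk_surjective _ y
  refine ⟨x, fun z hz => ?_, fun c hc => ?_⟩
  · refine Ideal.IsMaximal.ne_top ‹P.IsMaximal› ((Ideal.eq_top_iff_one P).mpr ?_)
    rw [hy, Submodule.mem_colon_singleton, one_smul, Submodule.mem_bot,
      Submodule.Quotient.mk_eq_zero]
    exact ⟨z, hz.symm⟩
  · rw [hy, Submodule.mem_colon_singleton, Submodule.mem_bot, ← Submodule.Quotient.mk_smul,
      Submodule.Quotient.mk_eq_zero] at hc
    obtain ⟨z, hz⟩ := hc
    exact ⟨z, hz.symm⟩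

variable {N p : ℕ} [NeZero N] [Fact p.Prime]

/-- The eigenclass of a congruence eigenform. -/
theorem exists_eigen_class {f : CuspForm (Gamma0 N) 2} (hf : f.IsNormalizedEigenform)
    {𝔪 : Ideal (integralClosure ℤ ℂ)} (h𝔪 : 𝔪.IsMaximal) (hp𝔪 : (p : integralClosure ℤ ℂ) ∈ 𝔪) :
    ∃ y : ParHom N ℤ, parMap (Int.castAddHom (ZMod p)) y ≠ 0 ∧
      ∀ (ℓ : GoodPrime N) (b : ℤ), (∃ a : integralClosure ℤ ℂ,
          (a : ℂ) = qCoeff ⇑f (ℓ : ℕ) ∧ a - (b : integralClosure ℤ ℂ) ∈ 𝔪) →
        heckeHomAt ℓ (parMap (Int.castAddHom (ZMod p)) y) =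
          b • parMap (Int.castAddHom (ZMod p)) y := by
  classical
  obtain ⟨χ, hχ⟩ := exists_eigenCharacter hf (∅ : Set ℕ)
  let θ₀ : HeckePoly N →+* integralClosure ℤ ℂ ⧸ 𝔪 :=
    ((Ideal.Quotient.mk 𝔪).comp χ).comp (evForms N).toRingHom
  let R := (heckePolyHom N ℤ).range
  have hcomm : IsMulCommutative R := ⟨⟨fun x y => by
    obtain ⟨a, ha⟩ := x.2
    obtain ⟨b, hb⟩ := y.2
    refine Subtype.ext ?_
    show (x : Module.End ℤ (ParHom N ℤ)) * y = y * x
    rw [← ha, ← hb, ← map_mul, mul_comm, map_mul]⟩⟩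
  letI : CommRing R := open scoped IsMulCommutative in inferInstance
  let red : HeckePoly N →+* R := (heckePolyHom N ℤ).rangeRestrict.toRingHom
  have hred : Function.Surjective red := (heckePolyHom N ℤ).rangeRestrict_surjective
  have hker : RingHom.ker red ≤ RingHom.ker θ₀ := fun P hP => by
    have h0 : heckePolyHom N ℤ P = 0 := congrArg Subtype.val (RingHom.mem_ker.mp hP)
    rw [RingHom.mem_ker]
    show Ideal.Quotient.mk 𝔪 (χ (evForms N P)) = 0
    rw [evForms_eq_zero h0, map_zero, map_zero]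
  let θ : R →+* integralClosure ℤ ℂ ⧸ 𝔪 := RingHom.liftOfSurjective red hred ⟨θ₀, hker⟩
  have hθ : ∀ P, θ (red P) = θ₀ P := fun P => RingHom.liftOfSurjective_comp_apply red hred ⟨θ₀, hker⟩ P
  haveI : Module.Finite ℤ R := Module.Finite.of_injective R.val.toLinearMap Subtype.val_injective
  haveI : IsNoetherianRing R := IsNoetherianRing.of_finite ℤ _
  letI : Module R (ParHom N ℤ) := Module.compHom _ R.val.toRingHom
  haveI : IsScalarTower ℤ R (ParHom N ℤ) := ⟨fun n r x => by
    show (n • (r : Module.End ℤ (ParHom N ℤ))) x = n • (r : Module.End ℤ (ParHom N ℤ)) x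
    rfl⟩
  haveI : Module.Finite R (ParHom N ℤ) := Module.Finite.of_restrictScalars_finite ℤ _ _
  have hp0 : θ (p : R) = 0 := by
    rw [map_natCast, ← map_natCast (Ideal.Quotient.mk 𝔪), Ideal.Quotient.eq_zero_iff_mem]
    exact hp𝔪
  letI := Ideal.Quotient.field 𝔪
  haveI hPprime : (RingHom.ker θ).IsPrime := RingHom.ker_isPrime _
  have hmax : ∀ Q : Ideal R, Q.IsPrime → (p : R) ∈ Q → Q.IsMaximal := fun Q hQ hpQ => by
    haveI := hQ
    haveI : Algebra.IsIntegral ℤ R := Algebra.IsIntegral.of_finite _ _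
    have hc : Q.comap (algebraMap ℤ R) = Ideal.span {(p : ℤ)} := by
      refine ((Ideal.span_singleton_prime (Int.natCast_ne_zero.mpr (Fact.out : p.Prime).ne_zero)).mpr
        (Nat.prime_iff_prime_int.mp Fact.out) |>.isMaximal (by
          simpa [Ideal.span_singleton_eq_bot] using (Fact.out : p.Prime).ne_zero)).eq_of_le
          (Ideal.IsPrime.ne_top inferInstance) ?_ |>.symm
      rw [Ideal.span_singleton_le_iff_mem, Ideal.mem_comap, map_natCast]
      exact hpQ
    haveI : (Q.comap (algebraMap ℤ R)).IsMaximal := hc ▸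
      ((Ideal.span_singleton_prime (Int.natCast_ne_zero.mpr (Fact.out : p.Prime).ne_zero)).mpr
        (Nat.prime_iff_prime_int.mp Fact.out)).isMaximal (by
          simpa [Ideal.span_singleton_eq_bot] using (Fact.out : p.Prime).ne_zero)
    exact Ideal.isMaximal_of_isIntegral_of_isMaximal_comap (R := ℤ) Q inferInstance
  haveI : (RingHom.ker θ).IsMaximal := hmax _ hPprime hp0
  have hann : Module.annihilator R (ParHom N ℤ) ≤ RingHom.ker θ := fun c hc => by
    have : c = 0 := Subtype.ext (LinearMap.ext fun x => Module.mem_annihilator.mp hc x)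
    rw [RingHom.mem_ker, this, map_zero]
  obtain ⟨y, hy0, hy⟩ := exists_killed_by_maximal (M := ParHom N ℤ) (p : R) (RingHom.ker θ) hann hp0 hmax
  have hp : ∀ z : ParHom N ℤ, ((p : R) : Module.End ℤ (ParHom N ℤ)) z = p • z := fun z => by
    rw [show ((p : R) : Module.End ℤ (ParHom N ℤ)) = (p : Module.End ℤ (ParHom N ℤ)) from
      map_natCast R.val p, Module.End.natCast_apply]
  refine ⟨y, fun h => ?_, fun ℓ b hb => ?_⟩
  · have hdvd : ∀ t, (p : ℤ) ∣ (y : Additive (Gamma0 N) →+ ℤ) t := fun t => by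
      rw [← ZMod.intCast_zmod_eq_zero_iff_dvd]
      exact DFunLike.congr_fun (congrArg Subtype.val h) t
    choose z hz using hdvd
    have hp' : (p : ℤ) ≠ 0 := Int.natCast_ne_zero.mpr (Fact.out : p.Prime).ne_zero
    refine hy0 ⟨AddMonoidHom.mk' z fun s t => mul_left_cancel₀ hp' (by
        rw [mul_add, ← hz, ← hz, ← hz, map_add]), fun γ hγ => mul_left_cancel₀ hp' (by
        show (p : ℤ) * z (Additive.ofMul γ) = _
        rw [← hz, y.2 γ hγ, mul_zero])⟩ ?_
    show _ = ((p : R) : Module.End ℤ (ParHom N ℤ)) _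
    rw [hp]
    exact Subtype.ext (AddMonoidHom.ext fun t => (hz t).trans (nsmul_eq_mul _ _).symm)
  · obtain ⟨a, ha, ham⟩ := hb
    have hmem : red (MvPolynomial.X ℓ - (b : HeckePoly N)) ∈ RingHom.ker θ := by
      rw [RingHom.mem_ker, hθ, map_sub, map_intCast, sub_eq_zero]
      show Ideal.Quotient.mk 𝔪 (χ (evForms N (MvPolynomial.X ℓ))) = _
      rw [evForms, MvPolynomial.aeval_X,
        show χ (CuspForm.heckeAlgebra.T ℓ.1.2 ℓ.2 (Set.notMem_empty _)) = a from
          Subtype.ext ((hχ _ ℓ.1.2 ℓ.2 (Set.notMem_empty _)).trans ha.symm),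
        ← map_intCast (Ideal.Quotient.mk 𝔪), Ideal.Quotient.eq]
      exact ham
    obtain ⟨z, hz⟩ := hy _ hmem
    replace hz := hz.trans (hp z)
    change heckePolyHom N ℤ (MvPolynomial.X ℓ - (b : HeckePoly N)) y = p • z at hz
    have h2 := congrArg (parMap (Int.castAddHom (ZMod p))) hz
    rw [← heckePolyHom_natural, map_sub, map_intCast, heckePolyHom_X, LinearMap.sub_apply,
      Module.End.intCast_apply, map_nsmul] at h2
    rw [← sub_eq_zero, h2]
    exact Subtype.ext (AddMonoidHom.ext fun t => by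
      show (p : ℕ) • (((parMap (Int.castAddHom (ZMod p)) z : ParHom N (ZMod p)) :
        Additive (Gamma0 N) →+ ZMod p) t) = 0
      rw [nsmul_eq_mul, ZMod.natCast_self, zero_mul])

end Fermat.Agent.Raise
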