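/-
The lattice argument: an eigenclass modulo `p` of level `N` with `a_q ≡ ±(q + 1)` produces a
complex eigenclass of level `N q` killed by both corestrictions, congruent to it.
-/
import Fermat.Agent.Raise.Coker
import Fermat.Agent.Raise.Parabolic
import Fermat.Agent.GalRep.Lattice
import Fermat.Agent.Hecke.Eigenvector
import Mathlib.RingTheory.Finiteness.Nakayama

set_option autoImplicit false
set_option linter.style.haveILetI false
set_option linter.unusedSectionVars false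

noncomputable section

namespace Fermat.Agent.Raise

open CongruenceSubgroup
open Fermat.Agent.GalRep (GoodIndex polyHom polyHom_X transferHom transferHom_add transferHom_comp
  transferHom_comm ParHom parMap exists_generators hom_eq_zero_of_generators)
open scoped MatrixGroups

/-! ## Polynomials in the good operators -/

section Act

variable {N : ℕ} {ι : Type} {l : ι → ℕ} (hl : ∀ i, GoodIndex N (l i))
  (A : Type) [AddCommGroup A]

/-- The transfer as an endomorphism. -/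
def tEnd (i : ι) : Module.End ℤ (GHom (Gamma0 N) A) :=
  (AddMonoidHom.mk' (transferHom (hl i)) (transferHom_add (hl i))).toIntLinearMap

theorem tEnd_apply (i : ι) (z : GHom (Gamma0 N) A) : tEnd hl A i z = transferHom (hl i) z := rfl

theorem tEnd_commute (i j : ι) : Commute (tEnd hl A i) (tEnd hl A j) :=
  LinearMap.ext fun z => transferHom_comm (hl i) (hl j) z

/-- The action of polynomials. -/
def act : MvPolynomial ι ℤ →ₐ[ℤ] Module.End ℤ (GHom (Gamma0 N) A) :=
  polyHom (tEnd hl A) (tEnd_commute hl A)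

theorem act_X (i : ι) (z : GHom (Gamma0 N) A) :
    act hl A (MvPolynomial.X i) z = transferHom (hl i) z := by
  rw [act, polyHom_X, tEnd_apply]

variable {A}

theorem act_natural {N' : ℕ} {B : Type} [AddCommGroup B] (hl' : ∀ i, GoodIndex N' (l i))
    (F : GHom (Gamma0 N) A →+ GHom (Gamma0 N') B)
    (hF : ∀ i z, F (transferHom (hl i) z) = transferHom (hl' i) (F z))
    (P : MvPolynomial ι ℤ) (z : GHom (Gamma0 N) A) : F (act hl A P z) = act hl' B P (F z) := by
  induction P using MvPolynomial.induction_on generalizing z with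
  | C c =>
    rw [← MvPolynomial.algebraMap_eq, AlgHom.commutes, AlgHom.commutes,
      Module.algebraMap_end_apply, Module.algebraMap_end_apply, map_zsmul]
  | add P Q hP hQ =>
    rw [map_add, map_add, LinearMap.add_apply, LinearMap.add_apply, map_add, hP, hQ]
  | mul_X P i hP =>
    rw [map_mul, map_mul, Module.End.mul_apply, Module.End.mul_apply, hP, act_X, act_X, hF]

theorem act_eigen {R : Type} [CommRing R] [Module R A] {c : ι → R} {z : GHom (Gamma0 N) A}
    (h : ∀ i, transferHom (hl i) z = c i • z) (P : MvPolynomial ι ℤ) :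
    act hl A P z = MvPolynomial.eval₂ (Int.castRingHom R) c P • z := by
  induction P using MvPolynomial.induction_on with
  | C k =>
    rw [← MvPolynomial.algebraMap_eq, AlgHom.commutes, Module.algebraMap_end_apply,
      MvPolynomial.algebraMap_eq, MvPolynomial.eval₂_C, eq_intCast, Int.cast_smul_eq_zsmul]
  | add P Q hP hQ => rw [map_add, LinearMap.add_apply, hP, hQ, MvPolynomial.eval₂_add, add_smul]
  | mul_X P i hP =>
    have hsmul : ∀ (r : R) (w : GHom (Gamma0 N) A),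
        act hl A P (r • w) = r • act hl A P w := fun r w =>
      (act_natural hl hl (DistribSMul.toAddMonoidHom _ r)
        (fun i z => (transferHom_comp (hl i) (DistribSMul.toAddMonoidHom A r) z).symm) P w).symm
    rw [map_mul, Module.End.mul_apply, act_X, h, hsmul, hP, MvPolynomial.eval₂_mul,
      MvPolynomial.eval₂_X, ← mul_smul, mul_comm]

end Act

/-! ## Reduction of coefficients -/

theorem exists_nsmul_of_cast {G : Subgroup SL(2, ℤ)} {p : ℕ} (hp : p ≠ 0) {w : GHom G ℤ}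
    (h : (Int.castAddHom (ZMod p)).comp w = 0) : ∃ w' : GHom G ℤ, w = p • w' := by
  have hdvd : ∀ t, (p : ℤ) ∣ w t := fun t => by
    rw [← ZMod.intCast_zmod_eq_zero_iff_dvd]
    exact DFunLike.congr_fun h t
  choose z hz using hdvd
  have hp' : (p : ℤ) ≠ 0 := Int.natCast_ne_zero.mpr hp
  exact ⟨AddMonoidHom.mk' z fun s t => mul_left_cancel₀ hp' (by
      rw [mul_add, ← hz, ← hz, ← hz, map_add]),
    AddMonoidHom.ext fun t => (hz t).trans (nsmul_eq_mul _ _).symm⟩

theorem ghom_finite (N : ℕ) [NeZero N] (R A : Type) [CommRing R] [IsNoetherianRing R]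
    [AddCommGroup A] [Module R A] [Module.Finite R A] :
    Module.Finite R (GHom (Gamma0 N) A) := by
  obtain ⟨s, hs⟩ := exists_generators N
  let ev : GHom (Gamma0 N) A →ₗ[R] (s → A) :=
    { toFun := fun χ g => χ (Additive.ofMul (g : Gamma0 N))
      map_add' := fun _ _ => rfl
      map_smul' := fun _ _ => rfl }
  exact Module.Finite.of_injective ev ((injective_iff_map_eq_zero ev).mpr fun χ hχ =>
    hom_eq_zero_of_generators hs _ fun g hg => congrFun hχ ⟨g, hg⟩)

theorem exists_dual_ne_zero {K G : Type} [Field K] [AddCommGroup G] [Module K G] {u : G} (hu : u ≠ 0) :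
    ∃ φ : G →+ K, φ u ≠ 0 := by
  by_contra hall
  push Not at hall
  exact hu ((Module.forall_dual_apply_eq_zero_iff K u).mp fun φ => hall φ.toAddMonoidHom)

theorem exists_hom_ne_zero {p : ℕ} [Fact p.Prime] {G : Type} [AddCommGroup G]
    (h : ∀ u : G, p • u = 0) {u : G} (hu : u ≠ 0) : ∃ φ : G →+ ZMod p, φ u ≠ 0 :=
  @exists_dual_ne_zero (ZMod p) G _ _ (AddCommGroup.zmodModule h) u hu

/-- An eigenvector of commuting operators whose character has kernel in a given prime. -/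
theorem exists_eigen_of_ker_le {T : Type} [CommRing T] {V : Type} [AddCommGroup V] [Module ℂ V]
    [FiniteDimensional ℂ V] (ρ : T →+* Module.End ℂ V) (P : Ideal T) [P.IsPrime]
    (hker : RingHom.ker ρ ≤ P) :
    ∃ v : V, v ≠ 0 ∧ ∃ χ : T →+* ℂ, (∀ t, ρ t v = χ t • v) ∧ RingHom.ker χ ≤ P := by
  haveI : (P.map (Ideal.Quotient.mk (RingHom.ker ρ))).IsPrime :=
    Ideal.map_isPrime_of_surjective Ideal.Quotient.mk_surjective (by rwa [Ideal.mk_ker])
  obtain ⟨v, hv, χ, hχ, hle⟩ := Hecke.exists_eigenvector_ker_le (RingHom.kerLift ρ)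
    (RingHom.kerLift_injective ρ) (P.map (Ideal.Quotient.mk (RingHom.ker ρ)))
  refine ⟨v, hv, χ.comp (Ideal.Quotient.mk (RingHom.ker ρ)), fun t => hχ (Ideal.Quotient.mk (RingHom.ker ρ) t), fun t ht => ?_⟩
  have h1 := Ideal.mem_comap.mpr (hle (RingHom.mem_ker.mpr (RingHom.mem_ker.mp ht :
    χ (Ideal.Quotient.mk _ t) = 0)))
  rwa [Ideal.comap_map_of_surjective _ Ideal.Quotient.mk_surjective, ← RingHom.ker_eq_comap_bot,
    Ideal.mk_ker, sup_eq_left.mpr hker] at h1

namespace LevData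

variable {N q : ℕ} (D : LevData N q)

/-- The two corestrictions. -/
def jMap (A : Type) [AddCommGroup A] :
    GHom (Gamma0 (N * q)) A →+ GHom (Gamma0 N) A × GHom (Gamma0 N) A :=
  (D.cor (A := A)).prod ((D.cor (A := A)).comp D.wOp)

theorem jMap_apply {A : Type} [AddCommGroup A] (z : GHom (Gamma0 (N * q)) A) :
    D.jMap A z = (D.cor z, D.cor (D.wOp z)) := rfl

theorem cor_coeff {A B : Type} [AddCommGroup A] [AddCommGroup B] (f : A →+ B)
    (z : GHom (Gamma0 (N * q)) A) : D.cor (f.comp z) = f.comp (D.cor z) :=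
  D.isFam_cos.trans_comp_coeff f z

theorem wOp_coeff {A B : Type} [AddCommGroup A] [AddCommGroup B] (f : A →+ B)
    (z : GHom (Gamma0 (N * q)) A) : D.wOp (f.comp z) = f.comp (D.wOp z) :=
  D.isFam_w.trans_comp_coeff f z

theorem res_coeff {A B : Type} [AddCommGroup A] [AddCommGroup B] (f : A →+ B)
    (z : GHom (Gamma0 N) A) : D.res (f.comp z) = f.comp (D.res z) :=
  D.isFam_res.trans_comp_coeff f z

/-- The two degeneracy maps. -/
def iMap {A : Type} [AddCommGroup A] (x y : GHom (Gamma0 N) A) : GHom (Gamma0 (N * q)) A :=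
  D.res x + D.wOp (D.res y)

theorem cor_iMap {A : Type} [AddCommGroup A] (x y : GHom (Gamma0 N) A) :
    D.cor (D.iMap x y) = (q + 1) • x + transferHom ⟨D.prime, D.not_dvd⟩ y := by
  rw [iMap, map_add, D.cor_res, D.cor_wOp_res]

theorem cor_wOp_iMap {A : Type} [AddCommGroup A] (x y : GHom (Gamma0 N) A) :
    D.cor (D.wOp (D.iMap x y)) = transferHom ⟨D.prime, D.not_dvd⟩ x + (q + 1) • y := by
  rw [iMap, map_add, D.wOp_wOp, map_add, D.cor_wOp_res, D.cor_res]

variable [NeZero N] [NeZero (N * q)] {ι : Type} {l : ι → ℕ}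

omit [NeZero N] in
theorem fst_act (hN : ∀ i, GoodIndex N (l i)) (hM : ∀ i, GoodIndex (N * q) (l i)) {A : Type}
    [AddCommGroup A] (P : MvPolynomial ι ℤ) (z : GHom (Gamma0 (N * q)) A) :
    D.jMap A (act hM A P z) = (act hN A P (D.cor z), act hN A P (D.cor (D.wOp z))) := by
  refine Prod.ext ?_ ?_
  · exact act_natural hM hN D.cor (fun i z => D.cor_transfer (hM i) (hN i) z) P z
  · exact act_natural hM hN ((D.cor (A := A)).comp D.wOp) (fun i z => by
      rw [AddMonoidHom.comp_apply, D.wOp_transfer (hM i), D.cor_transfer (hM i) (hN i)]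
      rfl) P z

variable {p : ℕ} [Fact p.Prime]

local notation "ev" => fun (a : ι → ℤ) (P : MvPolynomial ι ℤ) =>
  MvPolynomial.eval₂ (Int.castRingHom (ZMod p)) (fun i => (a i : ZMod p)) P

/-- Some polynomial outside the maximal ideal carries everything into the image of the
corestrictions. -/
theorem exists_into_image (hM : ∀ i, GoodIndex (N * q) (l i)) (hN : ∀ i, GoodIndex N (l i))
    (a : ι → ℤ) (hQF : QFree q (ZMod p)) (h8 : ∀ v : ZMod p, (8 : ℤ) • v = 0 → v = 0)
    (iA : ι) (hqA : l iA ≠ q) (hAbad : ¬ (l iA : ℤ) ∣ (q : ℤ) ^ (4 * N ^ 2) - 1)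
    (hA : ∀ v : ZMod p, (a iA ^ 2 - ((l iA : ℤ) + 1) ^ 2) • v = 0 → v = 0)
    (iB : ι) (hB1N : (N : ℤ) ∣ (l iB : ℤ) - 1)
    (hB : ∀ v : ZMod p, (a iB - ((l iB : ℤ) + 1)) • v = 0 → v = 0) :
    ∃ R : MvPolynomial ι ℤ, ev a R = 1 ∧ ∀ s t : GHom (Gamma0 N) ℤ, ∃ z,
      D.jMap ℤ z = (act hN ℤ R s, act hN ℤ R t) := by
  classical
  haveI := Fact.mk D.prime
  set abar : MvPolynomial ι ℤ →+* ZMod p :=
    MvPolynomial.eval₂Hom (Int.castRingHom (ZMod p)) fun i => (a i : ZMod p)
  have habar : ∀ P, abar P =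
      MvPolynomial.eval₂ (Int.castRingHom (ZMod p)) (fun i => (a i : ZMod p)) P := fun P => rfl
  haveI hmax : (RingHom.ker abar).IsMaximal :=
    RingHom.ker_isMaximal_of_surjective abar fun z => by
      obtain ⟨k, rfl⟩ := ZMod.intCast_surjective z
      exact ⟨k, map_intCast abar k⟩
  let H2 := GHom (Gamma0 N) ℤ × GHom (Gamma0 N) ℤ
  let ρ2 : MvPolynomial ι ℤ →+* Module.End ℤ H2 :=
    { toFun := fun P => (act hN ℤ P).prodMap (act hN ℤ P)
      map_one' := by rw [map_one]; rfl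
      map_mul' := fun P Q => by rw [map_mul]; rfl
      map_zero' := by rw [map_zero]; rfl
      map_add' := fun P Q => by rw [map_add]; rfl }
  letI : Module (MvPolynomial ι ℤ) H2 := Module.compHom H2 ρ2
  have hsmul : ∀ (P : MvPolynomial ι ℤ) (u : H2),
      P • u = (act hN ℤ P u.1, act hN ℤ P u.2) := fun P u => rfl
  let J : Submodule (MvPolynomial ι ℤ) H2 :=
    { carrier := Set.range (D.jMap ℤ)
      add_mem' := by rintro _ _ ⟨s, rfl⟩ ⟨t, rfl⟩; exact ⟨s + t, map_add _ _ _⟩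
      zero_mem' := ⟨0, map_zero _⟩
      smul_mem' := by
        rintro P _ ⟨s, rfl⟩
        exact ⟨act hM ℤ P s, by rw [D.fst_act hN hM, hsmul]; rfl⟩ }
  have hK : J ⊔ RingHom.ker abar • ⊤ = ⊤ := by
    by_contra hne
    set K := J ⊔ RingHom.ker abar • (⊤ : Submodule (MvPolynomial ι ℤ) H2) with hKdef
    have hpK : ∀ u : H2 ⧸ K, p • u = 0 := fun u => by
      obtain ⟨u, rfl⟩ := Submodule.Quotient.mk_surjective _ u
      rw [← Nat.cast_smul_eq_nsmul (MvPolynomial ι ℤ), ← Submodule.Quotient.mk_smul,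
        Submodule.Quotient.mk_eq_zero]
      exact Submodule.mem_sup_right (Submodule.smul_mem_smul
        (RingHom.mem_ker.mpr (by rw [map_natCast, ZMod.natCast_self])) Submodule.mem_top)
    haveI : Nontrivial (H2 ⧸ K) := Submodule.Quotient.nontrivial_iff.mpr hne
    obtain ⟨u, hu⟩ := exists_ne (0 : H2 ⧸ K)
    obtain ⟨φ, hφ⟩ := exists_hom_ne_zero hpK hu
    let L : H2 →+ ZMod p := φ.comp K.mkQ.toAddMonoidHom
    have hLK : ∀ u ∈ K, L u = 0 := fun u hu => by
      show φ (K.mkQ u) = 0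
      rw [show K.mkQ u = 0 from (Submodule.Quotient.mk_eq_zero K).mpr hu, map_zero]
    have hLT : ∀ i (u : H2), L (MvPolynomial.X i • u) = a i • L u := fun i u => by
      have h1 : (MvPolynomial.X i - (a i : MvPolynomial ι ℤ)) • u ∈ K :=
        Submodule.mem_sup_right (Submodule.smul_mem_smul (RingHom.mem_ker.mpr (by
          rw [map_sub, map_intCast, habar, MvPolynomial.eval₂_X, sub_self])) Submodule.mem_top)
      have h2 := hLK _ h1
      rw [sub_smul, Int.cast_smul_eq_zsmul, map_sub, map_zsmul, sub_eq_zero] at h2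
      exact h2
    let L₁ := L.comp (AddMonoidHom.inl (GHom (Gamma0 N) ℤ) (GHom (Gamma0 N) ℤ))
    let L₂ := L.comp (AddMonoidHom.inr (GHom (Gamma0 N) ℤ) (GHom (Gamma0 N) ℤ))
    have hsplit : ∀ s t, L₁ s + L₂ t = L (s, t) := fun s t => by
      simp only [L₁, L₂, AddMonoidHom.comp_apply, AddMonoidHom.inl_apply, AddMonoidHom.inr_apply]
      rw [← map_add]
      exact congrArg L (Prod.ext (add_zero s) (zero_add t))
    have hLi : ∀ i s, L₂ (transferHom (hN i) s) = a i • L₂ s := fun i s => by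
      show L _ = a i • L _
      rw [← hLT, hsmul]
      congr 1
      refine Prod.ext ?_ ?_
      · show 0 = act hN ℤ _ 0
        rw [map_zero]
      · exact (act_X hN ℤ i s).symm
    obtain ⟨h1, h2⟩ := D.coker_eq_zero hQF h8 (hN iA) hqA hAbad (a := a iA) hA (hN iB) hB1N
      (b := a iB) hB (L₁ := L₁) (L₂ := L₂)
      (fun z => by rw [hsplit]; exact hLK _ (Submodule.mem_sup_left ⟨z, rfl⟩)) (hLi iA) (hLi iB)
    obtain ⟨⟨s, t⟩, rfl⟩ := Submodule.Quotient.mk_surjective _ u
    refine hφ ?_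
    show L (s, t) = 0
    rw [← hsplit, h1, h2]
    simp
  obtain ⟨R, hR, hR0⟩ : ∃ R : MvPolynomial ι ℤ,
      R - 1 ∈ RingHom.ker abar ∧ ∀ u : H2, R • u ∈ J := by
    haveI : Module.Finite ℤ (GHom (Gamma0 N) ℤ) := ghom_finite N ℤ ℤ
    haveI : IsScalarTower ℤ (MvPolynomial ι ℤ) H2 := ⟨fun n P u => by
      show ρ2 (n • P) u = n • ρ2 P u
      rw [map_zsmul]; rfl⟩
    haveI : Module.Finite (MvPolynomial ι ℤ) H2 := Module.Finite.of_restrictScalars_finite ℤ _ _
    obtain ⟨R, hR, hR0⟩ := Submodule.exists_sub_one_mem_and_smul_eq_zero_of_fg_of_le_smul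
      (RingHom.ker abar) (⊤ : Submodule (MvPolynomial ι ℤ) (H2 ⧸ J)) Module.Finite.fg_top (by
        have h := congrArg (Submodule.map J.mkQ) hK
        rw [Submodule.map_sup, Submodule.mkQ_map_self, bot_sup_eq, Submodule.map_smul'',
          Submodule.map_top, Submodule.range_mkQ] at h
        exact h.ge)
    refine ⟨R, hR, fun u => ?_⟩
    have := hR0 (Submodule.Quotient.mk u) Submodule.mem_top
    rwa [← Submodule.Quotient.mk_smul, Submodule.Quotient.mk_eq_zero] at this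
  refine ⟨R, ?_, fun s t => ?_⟩
  · rw [RingHom.mem_ker, map_sub, map_one, sub_eq_zero] at hR
    exact hR
  · obtain ⟨z, hz⟩ := hR0 (s, t)
    exact ⟨z, hz.trans (hsmul R (s, t))⟩

/-- Polynomials killing the kernel of the corestrictions vanish at the eigenvalues modulo `p`. -/
theorem eval_eq_zero_of_kill (hp2 : p ≠ 2) (hqp : q ≠ p)
    (hM : ∀ i, GoodIndex (N * q) (l i)) (hN : ∀ i, GoodIndex N (l i)) (a : ι → ℤ) {ε : ℤ}
    (hε : ε * ε = 1) (y : ParHom N ℤ)
    (hy0 : parMap (Int.castAddHom (ZMod p)) y ≠ 0)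
    (heig : ∀ i, transferHom (hN i) ((Int.castAddHom (ZMod p)).comp (y : GHom (Gamma0 N) ℤ)) =
      a i • (Int.castAddHom (ZMod p)).comp (y : GHom (Gamma0 N) ℤ))
    (heigq : transferHom ⟨D.prime, D.not_dvd⟩
        ((Int.castAddHom (ZMod p)).comp (y : GHom (Gamma0 N) ℤ)) =
      (ε * ((q : ℤ) + 1)) • (Int.castAddHom (ZMod p)).comp (y : GHom (Gamma0 N) ℤ))
    (iA : ι) (hAbad : ¬ (l iA : ℤ) ∣ (q : ℤ) ^ (4 * N ^ 2) - 1)
    (hA : ((a iA ^ 2 - ((l iA : ℤ) + 1) ^ 2 : ℤ) : ZMod p) ≠ 0)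
    (iB : ι) (hB1 : ((N * q : ℕ) : ℤ) ∣ (l iB : ℤ) - 1)
    (hB : ((a iB - ((l iB : ℤ) + 1) : ℤ) : ZMod p) ≠ 0)
    (P : MvPolynomial ι ℤ) (hP : ∀ z, D.jMap ℤ z = 0 → act hM ℤ P z = 0) : ev a P = 0 := by
  classical
  haveI := Fact.mk D.prime
  have hp : p.Prime := Fact.out
  have hQF : QFree q (ZMod p) := fun v hv => by
    rw [nsmul_eq_mul] at hv
    exact (mul_eq_zero.mp hv).resolve_left fun h => hqp
      ((Nat.prime_dvd_prime_iff_eq hp D.prime).mp ((ZMod.natCast_eq_zero_iff q p).mp h)).symm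
  have hzne : ∀ {c : ℤ}, (c : ZMod p) ≠ 0 → ∀ v : ZMod p, c • v = 0 → v = 0 :=
    fun {c} hc v hv => by
    rw [zsmul_eq_mul] at hv
    exact (mul_eq_zero.mp hv).resolve_left hc
  have h8 : ∀ v : ZMod p, (8 : ℤ) • v = 0 → v = 0 := hzne fun h => hp2 (by
    have h1 := (ZMod.intCast_zmod_eq_zero_iff_dvd 8 p).mp h
    have h2 : p ∣ 2 ^ 3 := by exact_mod_cast h1
    exact (Nat.prime_dvd_prime_iff_eq hp Nat.prime_two).mp (hp.dvd_of_dvd_pow h2))
  have hqA : l iA ≠ q := fun h => (hM iA).not_dvd (h ▸ dvd_mul_left q N)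
  have hB1N : (N : ℤ) ∣ (l iB : ℤ) - 1 :=
    (Int.natCast_dvd_natCast.mpr (dvd_mul_right N q)).trans hB1
  -- the class modulo `p`
  set c := Int.castAddHom (ZMod p)
  set x : GHom (Gamma0 N) (ZMod p) := c.comp (y : GHom (Gamma0 N) ℤ) with hx
  set Z := D.iMap (y : GHom (Gamma0 N) ℤ) (-(ε • (y : GHom (Gamma0 N) ℤ))) with hZ
  set zb := D.iMap x (-(ε • x)) with hzb
  have hcomp : ∀ {G : Subgroup SL(2, ℤ)} (z : GHom G ℤ), c.comp (-(ε • z)) = -(ε • c.comp z) :=
    fun z => AddMonoidHom.ext fun t => by simp [c, map_zsmul]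
  have hZz : c.comp Z = zb := by
    rw [hZ, hzb, iMap, iMap, AddMonoidHom.comp_add, ← D.res_coeff, ← D.wOp_coeff, ← D.res_coeff,
      hcomp]
  have hTneg : transferHom ⟨D.prime, D.not_dvd⟩ (-(ε • x)) = -(ε • (ε * ((q : ℤ) + 1)) • x) := by
    rw [← heigq]
    have := map_neg (AddMonoidHom.mk' (transferHom (⟨D.prime, D.not_dvd⟩ : GoodIndex N q))
      (transferHom_add (A := ZMod p) ⟨D.prime, D.not_dvd⟩)) (ε • x)
    rw [map_zsmul] at this
    exact this
  have hq1 : ∀ w : GHom (Gamma0 N) (ZMod p), (q + 1) • w = ((q : ℤ) + 1) • w := fun w => by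
    rw [← natCast_zsmul, Nat.cast_add, Nat.cast_one]
  have hcorz : D.cor zb = 0 := by
    rw [hzb, D.cor_iMap, hTneg, hq1, ← mul_smul, ← mul_assoc, hε, one_mul, add_neg_cancel]
  have hcorWz : D.cor (D.wOp zb) = 0 := by
    rw [hzb, D.cor_wOp_iMap, heigq, hq1, smul_neg, ← mul_smul, mul_comm ε, add_neg_cancel]
  have hxpar : x ∈ ParHom N (ZMod p) := (parMap c y).2
  have hzb0 : zb ≠ 0 := fun h0 => by
    have hypar : -(ε • x) ∈ ParHom N (ZMod p) := neg_mem (zsmul_mem hxpar ε)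
    refine hy0 (Subtype.ext (kernel_eq_zero D.not_dvd hQF (hN iA) hqA hAbad (a := a iA)
      (hzne hA) (hN iB) hB1N (b := a iB) (hzne hB) hxpar hypar (heig iA) (heig iB) ?_).1)
    intro γ γ' hγγ'
    obtain ⟨hγ, hW⟩ := D.wOp_res_of_conj (-(ε • x)) hγγ'
    have h1 := DFunLike.congr_fun h0 (Additive.ofMul ⟨_, hγ⟩)
    rw [hzb, iMap, AddMonoidHom.add_apply, hW, D.res_apply] at h1
    exact h1
  have hzeig : ∀ i, transferHom (hM i) zb = a i • zb := fun i => by
    have he2 : transferHom (hN i) (-(ε • x)) = a i • -(ε • x) := by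
      have := map_neg (AddMonoidHom.mk' (transferHom (hN i))
        (transferHom_add (A := ZMod p) (hN i))) (ε • x)
      rw [map_zsmul] at this
      refine this.trans ?_
      show -(ε • transferHom (hN i) x) = _
      rw [heig i, smul_neg, smul_comm]
    rw [hzb, iMap, transferHom_add, ← D.res_transfer (hM i) (hN i), ← D.wOp_transfer (hM i),
      ← D.res_transfer (hM i) (hN i), heig i, he2]
    simp only [map_zsmul, smul_add]
  obtain ⟨w₁, hw₁⟩ := exists_nsmul_of_cast hp.ne_zero (w := D.cor Z)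
    (by rw [← D.cor_coeff, hZz, hcorz])
  obtain ⟨w₂, hw₂⟩ := exists_nsmul_of_cast hp.ne_zero (w := D.cor (D.wOp Z))
    (by rw [← D.cor_coeff, ← D.wOp_coeff, hZz, hcorWz])
  obtain ⟨R, hR, hR0⟩ := D.exists_into_image hM hN a hQF h8 iA hqA hAbad (hzne hA) iB hB1N (hzne hB)
  obtain ⟨Z', hZ'⟩ := hR0 w₁ w₂
  have hjζ : D.jMap ℤ (act hM ℤ R Z - p • Z') = 0 := by
    rw [map_sub, map_nsmul, hZ', D.fst_act hN hM, hw₁, hw₂, sub_eq_zero]
    exact Prod.ext (map_nsmul _ _ _) (map_nsmul _ _ _)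
  have h1 := congrArg c.comp (hP _ hjζ)
  have hnat : ∀ (P : MvPolynomial ι ℤ) (z : GHom (Gamma0 (N * q)) ℤ),
      c.comp (act hM ℤ P z) = act hM (ZMod p) P (c.comp z) := fun P z =>
    act_natural hM hM
      (AddMonoidHom.mk' (fun w => c.comp w) (fun _ _ => AddMonoidHom.comp_add _ _ _))
      (fun i z => (transferHom_comp (hM i) c z).symm) P z
  rw [hnat, AddMonoidHom.comp_zero] at h1
  have hsub : c.comp (act hM ℤ R Z - p • Z') = act hM (ZMod p) R zb := by
    rw [← hZz, ← hnat]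
    refine AddMonoidHom.ext fun t => ?_
    simp [c, nsmul_eq_mul]
  rw [hsub, ← Module.End.mul_apply, ← map_mul] at h1
  have h2 := act_eigen hM (R := ZMod p) (c := fun i => (a i : ZMod p)) (z := zb)
    (fun i => by rw [hzeig i, Int.cast_smul_eq_zsmul]) (P * R)
  rw [h1, MvPolynomial.eval₂_mul] at h2
  simp only [hR] at h2
  rw [mul_one] at h2
  exact (smul_eq_zero.mp h2.symm).resolve_right hzb0

/-- The kernel of the corestrictions over `ℂ`. -/
def kerJ : Submodule ℂ (GHom (Gamma0 (N * q)) ℂ) :=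
    { carrier := {z | D.jMap ℂ z = 0}
      add_mem' := fun {s t} hs ht => by
        show D.jMap ℂ (s + t) = 0
        rw [map_add, hs, ht, add_zero]
      zero_mem' := map_zero _
      smul_mem' := fun r z hz => by
        obtain ⟨h1, h2⟩ := Prod.mk.inj hz
        have e : r • z = (DistribSMul.toAddMonoidHom ℂ r).comp z := rfl
        show (D.cor (r • z), D.cor (D.wOp (r • z))) = 0
        rw [e, D.cor_coeff, D.wOp_coeff, D.cor_coeff,
          show D.cor z = 0 from h1, show D.cor (D.wOp z) = 0 from h2, AddMonoidHom.comp_zero]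
        rfl }

/-- A good operator on the kernel. -/
def tKer (hM : ∀ i, GoodIndex (N * q) (l i)) (hN : ∀ i, GoodIndex N (l i)) (i : ι) :
    Module.End ℂ D.kerJ :=
    { toFun := fun z => ⟨transferHom (hM i) (z : GHom (Gamma0 (N * q)) ℂ), by
        have h1 := D.fst_act hN hM (MvPolynomial.X i) (z : GHom (Gamma0 (N * q)) ℂ)
        rw [act_X] at h1
        show D.jMap ℂ _ = 0
        rw [h1]
        obtain ⟨e1, e2⟩ := Prod.mk.inj z.2
        rw [show D.cor (z : GHom (Gamma0 (N * q)) ℂ) = 0 from e1,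
          show D.cor (D.wOp (z : GHom (Gamma0 (N * q)) ℂ)) = 0 from e2, map_zero]
        rfl⟩
      map_add' := fun s t => Subtype.ext (transferHom_add _ _ _)
      map_smul' := fun r z => Subtype.ext
        (transferHom_comp (hM i) (DistribSMul.toAddMonoidHom ℂ r) (z : GHom (Gamma0 (N * q)) ℂ)) }

/-- Polynomials on the kernel. -/
def kAct (hM : ∀ i, GoodIndex (N * q) (l i)) (hN : ∀ i, GoodIndex N (l i)) :
    MvPolynomial ι ℤ →ₐ[ℤ] Module.End ℂ D.kerJ :=
  polyHom (D.tKer hM hN) fun i j =>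
    LinearMap.ext fun z => Subtype.ext (transferHom_comm (hM i) (hM j) _)

theorem coe_kAct (hM : ∀ i, GoodIndex (N * q) (l i)) (hN : ∀ i, GoodIndex N (l i)) :
    ∀ P (z : D.kerJ), (D.kAct hM hN P z : GHom (Gamma0 (N * q)) ℂ) = act hM ℂ P z := by
  intro P
  induction P using MvPolynomial.induction_on with
  | C k =>
    intro z
    rw [← MvPolynomial.algebraMap_eq, AlgHom.commutes, AlgHom.commutes,
      Module.algebraMap_end_apply, Module.algebraMap_end_apply]
    rfl
  | add P Q hP hQ =>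
    intro z
    rw [map_add, map_add, LinearMap.add_apply, LinearMap.add_apply, Submodule.coe_add, hP, hQ]
  | mul_X P i hP =>
    intro z
    rw [map_mul, map_mul, Module.End.mul_apply, Module.End.mul_apply, hP, act_X]
    congr 1
    rw [kAct, polyHom_X]
    rfl

instance kerJ_finite : Module.Finite ℂ D.kerJ :=
  haveI : Module.Finite ℂ (GHom (Gamma0 (N * q)) ℂ) := ghom_finite (N * q) ℂ ℂ
  inferInstance

set_option maxHeartbeats 1000000 in
/-- A complex common eigenvector in the kernel of the corestrictions. -/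
theorem exists_eigen_in_kernel (hM : ∀ i, GoodIndex (N * q) (l i)) (hN : ∀ i, GoodIndex N (l i))
    (a : ι → ℤ) (hkill : ∀ P, (∀ z, D.jMap ℤ z = 0 → act hM ℤ P z = 0) → ev a P = 0) :
    ∃ v : GHom (Gamma0 (N * q)) ℂ, v ≠ 0 ∧ D.jMap ℂ v = 0 ∧
      ∃ lam : ι → ℂ, (∀ i, transferHom (hM i) v = lam i • v) ∧
        ∀ P : MvPolynomial ι ℤ, MvPolynomial.eval₂ (Int.castRingHom ℂ) lam P = 0 → ev a P = 0 := by
  classical
  set abar : MvPolynomial ι ℤ →+* ZMod p :=
    MvPolynomial.eval₂Hom (Int.castRingHom (ZMod p)) fun i => (a i : ZMod p)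
  have habar : ∀ P, abar P =
      MvPolynomial.eval₂ (Int.castRingHom (ZMod p)) (fun i => (a i : ZMod p)) P := fun P => rfl
  let V := D.kerJ
  let ρV := D.kAct hM hN
  have hρV := D.coe_kAct hM hN
  let cC : ℤ →+ ℂ := Int.castAddHom ℂ
  have hker : RingHom.ker ρV.toRingHom ≤ RingHom.ker abar := fun P hP => by
    have h0 : ρV P = 0 := RingHom.mem_ker.mp hP
    refine RingHom.mem_ker.mpr (hkill P fun z hz => ?_)
    obtain ⟨e1, e2⟩ := Prod.mk.inj hz
    have hzV : cC.comp z ∈ V := by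
      show D.jMap ℂ _ = 0
      rw [jMap_apply, D.wOp_coeff, D.cor_coeff, D.cor_coeff,
        show D.cor z = 0 from e1, show D.cor (D.wOp z) = 0 from e2, AddMonoidHom.comp_zero]
      rfl
    have h1 := hρV P ⟨_, hzV⟩
    rw [h0, LinearMap.zero_apply] at h1
    have h2 : cC.comp (act hM ℤ P z) = act hM ℂ P (cC.comp z) :=
      act_natural hM hM
        (AddMonoidHom.mk' (fun w => cC.comp w) (fun _ _ => AddMonoidHom.comp_add _ _ _))
        (fun i z => (transferHom_comp (hM i) cC z).symm) P z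
    refine AddMonoidHom.ext fun t => ?_
    have h3 := DFunLike.congr_fun (h1.trans h2.symm) t
    exact Int.cast_injective (α := ℂ) (h3.symm.trans Int.cast_zero.symm)
  haveI : (RingHom.ker abar).IsPrime := RingHom.ker_isPrime abar
  obtain ⟨v, hv0, χ, hχ, hle⟩ := exists_eigen_of_ker_le ρV.toRingHom (RingHom.ker abar) hker
  set lam : ι → ℂ := fun i => χ (MvPolynomial.X i)
  have hlam : ∀ P, MvPolynomial.eval₂ (Int.castRingHom ℂ) lam P = χ P := fun P => by
    have e : MvPolynomial.eval₂Hom (Int.castRingHom ℂ) lam = χ :=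
      MvPolynomial.ringHom_ext (fun r => by simp) (fun i => by simp [lam])
    exact RingHom.congr_fun e P
  have heigv : ∀ i, transferHom (hM i) (v : GHom (Gamma0 (N * q)) ℂ) =
      lam i • (v : GHom (Gamma0 (N * q)) ℂ) := fun i => by
    rw [← act_X hM ℂ i (v : GHom (Gamma0 (N * q)) ℂ), ← hρV]
    exact congrArg Subtype.val (hχ (MvPolynomial.X i))
  have hzero : ∀ P, MvPolynomial.eval₂ (Int.castRingHom ℂ) lam P = 0 →
      MvPolynomial.eval₂ (Int.castRingHom (ZMod p)) (fun i => (a i : ZMod p)) P = 0 := fun P hP => by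
    rw [hlam] at hP
    have := hle (RingHom.mem_ker.mpr hP)
    rwa [RingHom.mem_ker, habar] at this
  exact ⟨(v : GHom (Gamma0 (N * q)) ℂ), fun h => hv0 (Subtype.ext h), v.2, lam, heigv, hzero⟩

/-- The complex class. -/
theorem exists_kernel_class (hp2 : p ≠ 2) (hqp : q ≠ p)
    (hM : ∀ i, GoodIndex (N * q) (l i)) (hN : ∀ i, GoodIndex N (l i)) (a : ι → ℤ) {ε : ℤ}
    (hε : ε * ε = 1) (y : ParHom N ℤ)
    (hy0 : parMap (Int.castAddHom (ZMod p)) y ≠ 0)
    (heig : ∀ i, transferHom (hN i) ((Int.castAddHom (ZMod p)).comp (y : GHom (Gamma0 N) ℤ)) =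
      a i • (Int.castAddHom (ZMod p)).comp (y : GHom (Gamma0 N) ℤ))
    (heigq : transferHom ⟨D.prime, D.not_dvd⟩
        ((Int.castAddHom (ZMod p)).comp (y : GHom (Gamma0 N) ℤ)) =
      (ε * ((q : ℤ) + 1)) • (Int.castAddHom (ZMod p)).comp (y : GHom (Gamma0 N) ℤ))
    (iA : ι) (hAbad : ¬ (l iA : ℤ) ∣ (q : ℤ) ^ (4 * N ^ 2) - 1)
    (hA : ((a iA ^ 2 - ((l iA : ℤ) + 1) ^ 2 : ℤ) : ZMod p) ≠ 0)
    (iB : ι) (hB1 : ((N * q : ℕ) : ℤ) ∣ (l iB : ℤ) - 1)
    (hB : ((a iB - ((l iB : ℤ) + 1) : ℤ) : ZMod p) ≠ 0) :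
    ∃ v : GHom (Gamma0 (N * q)) ℂ, v ∈ ParHom (N * q) ℂ ∧ v ≠ 0 ∧ D.uOp (D.uOp v) = v ∧
      ∃ lam : ι → ℂ, (∀ i, transferHom (hM i) v = lam i • v) ∧
        ∀ P : MvPolynomial ι ℤ, MvPolynomial.eval₂ (Int.castRingHom ℂ) lam P = 0 →
          MvPolynomial.eval₂ (Int.castRingHom (ZMod p)) (fun i => (a i : ZMod p)) P = 0 := by
  obtain ⟨v, hv0, hv, lam, heigv, hzero⟩ := D.exists_eigen_in_kernel (p := p) hM hN a
    (D.eval_eq_zero_of_kill hp2 hqp hM hN a hε y hy0 heig heigq iA hAbad hA iB hB1 hB)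
  refine ⟨v, ?_, hv0, ?_, lam, heigv, hzero⟩
  · refine mem_parHom_of_eigen (hM iB) hB1 (fun h => hB ?_) (heigv iB)
    have := hzero (MvPolynomial.X iB - MvPolynomial.C ((l iB : ℤ) + 1)) (by simp [h])
    simpa using this
  · obtain ⟨e1, e2⟩ := Prod.mk.inj hv
    have h1 := D.res_cor v
    rw [show D.cor v = 0 from e1, map_zero] at h1
    have h2 := D.res_cor (D.wOp v)
    rw [show D.cor (D.wOp v) = 0 from e2, map_zero, D.wOp_wOp] at h2
    rw [eq_neg_of_add_eq_zero_left h2.symm, map_neg] at h1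
    exact (add_neg_eq_zero.mp h1.symm).symm

end LevData

end Fermat.Agent.Raise
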