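/-
`U_q` on periods, and common eigenforms from a class in the image of the periods.
-/
import Fermat.Agent.Raise.Ops
import Fermat.Agent.Hecke.Lifting
import Fermat.Agent.GalRep.EigenChar
import Fermat.Agent.Newform.Eigen

set_option autoImplicit false

noncomputable section

namespace Fermat.Agent.Raise

open UpperHalfPlane CongruenceSubgroup Filter Topology ModularFormClass
open Fermat.Agent.GalRep (GoodIndex heckeRep transferHom exists_eq_mul_heckeRep det_heckeRep repGL
  repGL_mul_eq hasDerivAt_comp_repGL tendsto_repGL_smul periodParHom periodMap_heckeTLin)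
open scoped MatrixGroups ModularForm

variable {N q : ℕ} [NeZero (N * q)]

namespace LevData

variable (D : LevData N q)
include D

/-- The primitive of `U_q f` built from that of `f`. -/
theorem hasEquivariantPrimitive_u (f : CuspForm (Gamma0 (N * q)) 2) {F : ℍ → ℂ}
    (hF : ModularCurve.HasEquivariantPrimitive (N * q) f F) :
    ModularCurve.HasEquivariantPrimitive (N * q) (CuspForm.heckeULin 2 (dvd_mul_left q N) f)
      (fun τ => ∑ b : Fin q, F (repGL q (some b) • τ)) := by
  have hq := D.prime.ne_zero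
  refine ⟨fun τ => ?_, ?_, fun γ => ?_, fun δ => ?_⟩
  · have hsum := HasDerivAt.fun_sum (u := (Finset.univ : Finset (Fin q)))
      fun b _ => hasDerivAt_comp_repGL hq hF.1 (some b) τ
    have heq : ((fun τ => ∑ b : Fin q, F (repGL q (some b) • τ)) ∘ ofComplex) =
        fun z => ∑ b : Fin q, ((fun τ => F (repGL q (some b) • τ)) ∘ ofComplex) z := rfl
    rw [heq]
    refine hsum.congr_deriv ?_
    rw [CuspForm.heckeULin_apply_apply, ModularForm.heckeU_def, Finset.sum_apply]
    exact Fin.sum_univ_eq_sum_range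
      (fun j => ((f : ℍ → ℂ) ∣[(2 : ℤ)] ModularForm.heckeMatrix q j) τ) q
  · simpa using tendsto_finsetSum (Finset.univ : Finset (Fin q))
      fun b _ => hF.2.1.comp (tendsto_repGL_smul hq (some b))
  · refine ⟨∑ b, hF.2.2.1.period (D.isFam_u.coef γ b), fun z => ?_⟩
    have key : ∀ b, F (repGL q (some b) • ((γ : SL(2, ℤ)) • z)) =
        hF.2.2.1.period (D.isFam_u.coef γ b) + F (repGL q (some (D.isFam_u.idx γ b)) • z) :=
      fun b => by
      rw [repGL_mul_eq hq (i := some b) (j := some (D.isFam_u.idx γ b))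
        (δ := (D.isFam_u.coef γ b : SL(2, ℤ))) (D.isFam_u.spec γ b) z]
      linear_combination
        hF.2.2.1.sub_eq_period (D.isFam_u.coef γ b) (repGL q (some (D.isFam_u.idx γ b)) • z)
    simp only [key, Finset.sum_add_distrib]
    rw [D.isFam_u.sum_idx γ (fun b => F (repGL q (some b) • z)), add_sub_cancel_right]
  · have hstep : ∀ b : Fin q, ∃ (j : Option (Fin q)) (δ' : SL(2, ℤ)),
        heckeRep q (some b) * (δ : ZMat) = (δ' : ZMat) * heckeRep q j := by
      intro b
      obtain ⟨j, M, hM⟩ := exists_eq_mul_heckeRep D.prime (heckeRep q (some b) * (δ : ZMat))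
        ⟨1, by rw [Matrix.det_mul, det_heckeRep, δ.2]⟩
      have hdet : M.det = 1 := by
        have := congrArg Matrix.det hM
        rw [Matrix.det_mul, Matrix.det_mul, det_heckeRep, det_heckeRep, δ.2, mul_one] at this
        exact mul_right_cancel₀ (Int.natCast_ne_zero.mpr hq) (this.symm.trans (one_mul _).symm)
      exact ⟨j, ⟨M, hdet⟩, hM⟩
    choose j δ' hj using hstep
    choose L hL using fun b => hF.2.2.2 (δ' b)
    refine ⟨∑ b, L b, tendsto_finsetSum _ fun b _ => ?_⟩
    have : (fun w => F (repGL q (some b) • (δ • w))) =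
        (fun w => F (δ' b • w)) ∘ fun w => repGL q (j b) • w :=
      funext fun w => by rw [Function.comp_apply, repGL_mul_eq hq (hj b) w]
    rw [this]
    exact (hL b).comp (tendsto_repGL_smul hq (j b))

/-- The period map intertwines `U_q`. -/
theorem periodMap_heckeULin (f : CuspForm (Gamma0 (N * q)) 2) :
    ModularCurve.periodMap (N * q) (CuspForm.heckeULin 2 (dvd_mul_left q N) f) =
      D.uOp (ModularCurve.periodMap (N * q) f) := by
  have hq := D.prime.ne_zero
  obtain ⟨F, hF⟩ := Period.exists_hasEquivariantPrimitive f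
  refine AddMonoidHom.ext fun x => ?_
  obtain ⟨γ, rfl⟩ := Additive.ofMul.surjective x
  rw [uOp, IsFam.trans_apply,
    Period.periodMap_apply _ (D.hasEquivariantPrimitive_u f hF) γ I]
  have key : ∀ b, ModularCurve.periodMap (N * q) f (Additive.ofMul (D.isFam_u.coef γ b)) =
      F (repGL q (some b) • ((γ : SL(2, ℤ)) • I)) -
        F (repGL q (some (D.isFam_u.idx γ b)) • I) := fun b => by
    rw [repGL_mul_eq hq (i := some b) (j := some (D.isFam_u.idx γ b))
        (δ := (D.isFam_u.coef γ b : SL(2, ℤ))) (D.isFam_u.spec γ b) I,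
      Period.periodMap_apply f hF (D.isFam_u.coef γ b) (repGL q (some (D.isFam_u.idx γ b)) • I)]
  simp only [key, Finset.sum_sub_distrib]
  rw [D.isFam_u.sum_idx γ (fun b => F (repGL q (some b) • I))]

end LevData

/-- The period map and its conjugate are jointly injective. -/
theorem periods_indep {M : ℕ} [NeZero M] {a b : CuspForm (Gamma0 M) 2}
    (h : (periodParHom M a : Additive (Gamma0 M) →+ ℂ) +
      ModularCurve.Period.charInvolution M ℤ ℂ (periodParHom M b : Additive (Gamma0 M) →+ ℂ) = 0) :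
    a = 0 ∧ b = 0 := by
  obtain ⟨pml, hpml, hdef⟩ :=
    ModularCurve.periodHomPair_def M (Period.existsPeriodMapLinear M)
  have hz : ModularCurve.periodHomPair M ((1 / 2 : ℂ) • (a + b), (1 / 2 : ℂ) • (a - b)) = 0 := by
    rw [hdef, LinearMap.coprod_apply]
    refine AddMonoidHom.ext fun x => ?_
    have e := DFunLike.congr_fun h x
    simp only [periodParHom, GalRep.periodPar, AddMonoidHom.mk'_apply,
      AddMonoidHom.add_apply, AddMonoidHom.zero_apply,
      ModularCurve.Period.charInvolution_apply] at e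
    rw [← hpml, ← hpml] at e
    simp only [map_smul, map_add, map_sub, LinearMap.comp_apply, LinearMap.add_apply,
      LinearMap.sub_apply, LinearMap.id_apply, LinearMap.smul_apply, AddMonoidHom.add_apply,
      AddMonoidHom.sub_apply, AddMonoidHom.smul_apply,
      ModularCurve.Period.charInvolution_apply, smul_eq_mul, AddMonoidHom.zero_apply]
    linear_combination e
  have h0 := (LinearMap.ker_eq_bot.mp (LinearMap.ker_eq_bot.mpr
    (Period.periodHomPair_injective (N := M)))) (hz.trans (map_zero _).symm)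
  rw [Prod.mk_eq_zero, smul_eq_zero, smul_eq_zero] at h0
  have e1 := h0.1.resolve_left (by norm_num)
  have e2 := h0.2.resolve_left (by norm_num)
  rw [sub_eq_zero] at e2
  rw [← e2, ← two_smul ℂ, smul_eq_zero] at e1
  exact ⟨e1.resolve_left two_ne_zero, by rw [← e2]; exact e1.resolve_left two_ne_zero⟩

namespace LevData

variable (D : LevData N q)

/-- A parabolic class fixed by `U_q²` with good eigenvalues `lam` gives an eigenform. -/
theorem exists_eigenform_of_class {ι : Type} (l : ι → ℕ) (hl : ∀ i, GoodIndex (N * q) (l i))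
    (lam : ι → ℂ) {v : GHom (Gamma0 (N * q)) ℂ} (hv : v ∈ GalRep.ParHom (N * q) ℂ) (hv0 : v ≠ 0)
    (hU : D.uOp (D.uOp v) = v) (hT : ∀ i, transferHom (hl i) v = lam i • v) :
    ∃ g : CuspForm (Gamma0 (N * q)) 2, g.IsNormalizedEigenform ∧ qCoeff ⇑g q ^ 2 = 1 ∧
      (∀ i, qCoeff ⇑g (l i) = lam i) ∧
      ∃ χ : CuspForm.heckeAlgebra (N * q) 2 (∅ : Set ℕ) →+* ℂ,
        ∀ i, χ (CuspForm.heckeAlgebra.T (hl i).prime (hl i).not_dvd (Set.notMem_empty _)) = lam i := by
  classical
  haveI : FiniteDimensional ℂ (CuspForm (Gamma0 (N * q)) 2) := inferInstance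
  obtain ⟨u, w, huw⟩ := NewVec.exists_periods (⟨v, hv⟩ : GalRep.ParHom (N * q) ℂ)
  have e : v = (periodParHom (N * q) u : GHom (Gamma0 (N * q)) ℂ) +
      ModularCurve.Period.charInvolution (N * q) ℤ ℂ (periodParHom (N * q) w :) :=
    congrArg Subtype.val huw
  set U := CuspForm.heckeULin 2 (N := N * q) (dvd_mul_left q N)
  set per : CuspForm (Gamma0 (N * q)) 2 → GHom (Gamma0 (N * q)) ℂ :=
    fun f => (periodParHom (N * q) f :)
  have hperU : ∀ f, D.uOp (per f) = per (U f) := fun f => (D.periodMap_heckeULin f).symm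
  have hperT : ∀ i f, transferHom (hl i) (per f) =
      per (CuspForm.heckeTLin 2 (hl i).prime (hl i).not_dvd f) := fun i f =>
    (periodMap_heckeTLin (hl i) f).symm
  obtain ⟨pml, hpml⟩ := Period.existsPeriodMapLinear (N * q)
  have hpsub : ∀ f g, per (f - g) = per f - per g := fun f g => by
    show ModularCurve.periodMap (N * q) (f - g) = ModularCurve.periodMap (N * q) f - _
    rw [← hpml, ← hpml, map_sub, hpml g]
    rfl
  have hpsmul : ∀ (c : ℂ) f, per (c • f) = c • per f := fun c f => by
    show ModularCurve.periodMap (N * q) (c • f) = c • ModularCurve.periodMap (N * q) f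
    rw [← hpml, ← hpml, map_smul]
  have hU1 : U (U u) = u ∧ U (U w) = w := by
    have h1 := hU
    rw [e, map_add, map_add, D.uOp_charInvolution, D.uOp_charInvolution] at h1
    change D.uOp (D.uOp (per u)) + ModularCurve.Period.charInvolution (N * q) ℤ ℂ
      (D.uOp (D.uOp (per w))) = per u + ModularCurve.Period.charInvolution (N * q) ℤ ℂ (per w) at h1
    rw [hperU, hperU, hperU, hperU] at h1
    have h2 : per (U (U u) - u) +
        ModularCurve.Period.charInvolution (N * q) ℤ ℂ (per (U (U w) - w)) = 0 := by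
      rw [hpsub, hpsub, map_sub]
      linear_combination (norm := abel) h1
    obtain ⟨a, b⟩ := periods_indep h2
    exact ⟨sub_eq_zero.mp a, sub_eq_zero.mp b⟩
  have hT1 : ∀ i, CuspForm.heckeTLin 2 (hl i).prime (hl i).not_dvd u = lam i • u ∧
      CuspForm.heckeTLin 2 (hl i).prime (hl i).not_dvd w = lam i • w := fun i => by
    have h1 := hT i
    rw [e, GalRep.transferHom_add, NewVec.transferHom_charInvolution] at h1
    change transferHom (hl i) (per u) + ModularCurve.Period.charInvolution (N * q) ℤ ℂ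
      (transferHom (hl i) (per w)) =
        lam i • (per u + ModularCurve.Period.charInvolution (N * q) ℤ ℂ (per w)) at h1
    rw [hperT, hperT, smul_add] at h1
    have h2 : per (CuspForm.heckeTLin 2 (hl i).prime (hl i).not_dvd u - lam i • u) +
        ModularCurve.Period.charInvolution (N * q) ℤ ℂ
          (per (CuspForm.heckeTLin 2 (hl i).prime (hl i).not_dvd w - lam i • w)) = 0 := by
      rw [hpsub, hpsub, map_sub, hpsmul, hpsmul,
        show ModularCurve.Period.charInvolution (N * q) ℤ ℂ (lam i • per w) =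
          lam i • ModularCurve.Period.charInvolution (N * q) ℤ ℂ (per w) from rfl]
      linear_combination (norm := abel) h1
    obtain ⟨a, b⟩ := periods_indep h2
    exact ⟨sub_eq_zero.mp a, sub_eq_zero.mp b⟩
  let ρ : CuspForm.heckeAlgebra (N * q) 2 (∅ : Set ℕ) →+*
      Module.End ℂ (CuspForm (Gamma0 (N * q)) 2) :=
    (CuspForm.heckeAlgebra (N * q) 2 (∅ : Set ℕ)).val.toRingHom
  let tU := CuspForm.heckeAlgebra.U (N := N * q) (k := 2) D.prime (dvd_mul_left q N)
    (Set.notMem_empty q)
  let tT : ι → CuspForm.heckeAlgebra (N * q) 2 (∅ : Set ℕ) := fun i =>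
    CuspForm.heckeAlgebra.T (hl i).prime (hl i).not_dvd (Set.notMem_empty _)
  let W₀ : Submodule ℂ (CuspForm (Gamma0 (N * q)) 2) :=
    LinearMap.ker (ρ (tU * tU) - 1) ⊓ ⨅ i, LinearMap.ker (ρ (tT i) - lam i • 1)
  have hmem : ∀ h, U (U h) = h →
      (∀ i, CuspForm.heckeTLin 2 (hl i).prime (hl i).not_dvd h = lam i • h) → h ∈ W₀ :=
    fun h h1 h2 => by
    refine ⟨?_, ?_⟩
    · rw [SetLike.mem_coe, LinearMap.mem_ker, LinearMap.sub_apply, sub_eq_zero]
      exact h1
    · rw [SetLike.mem_coe, Submodule.mem_iInf]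
      intro i
      rw [LinearMap.mem_ker, LinearMap.sub_apply, sub_eq_zero]
      exact h2 i
  have hW : W₀ ≠ ⊥ := fun hb => hv0 (by
    have hu : u ∈ W₀ := hmem u hU1.1 fun i => (hT1 i).1
    have hw : w ∈ W₀ := hmem w hU1.2 fun i => (hT1 i).2
    rw [hb, Submodule.mem_bot] at hu hw
    rw [e, hu, hw, map_zero]
    simp)
  have hstab : ∀ t, ∀ h ∈ W₀, ρ t h ∈ W₀ := by
    rintro t h ⟨h1, h2⟩
    rw [SetLike.mem_coe, LinearMap.mem_ker, LinearMap.sub_apply, sub_eq_zero] at h1
    rw [SetLike.mem_coe, Submodule.mem_iInf] at h2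
    refine ⟨?_, ?_⟩
    · rw [SetLike.mem_coe, LinearMap.mem_ker, LinearMap.sub_apply, sub_eq_zero,
        ← Module.End.mul_apply, ← map_mul, mul_comm (tU * tU) t, map_mul, Module.End.mul_apply, h1]
      rfl
    · rw [SetLike.mem_coe, Submodule.mem_iInf]
      intro i
      have h3 := h2 i
      rw [LinearMap.mem_ker, LinearMap.sub_apply, sub_eq_zero] at h3
      rw [LinearMap.mem_ker, LinearMap.sub_apply, sub_eq_zero, ← Module.End.mul_apply, ← map_mul,
        mul_comm (tT i) t, map_mul, Module.End.mul_apply, h3]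
      exact (ρ t).map_smul _ _
  obtain ⟨g₀, hg₀W, hg₀, heig⟩ := Hecke.exists_common_eigenvector ρ _ W₀ rfl hW hstab
  obtain ⟨χ, hχ⟩ := Hecke.exists_character ρ hg₀ heig
  obtain ⟨g, hg, ⟨c, hc, rfl⟩, hcoef⟩ := Hecke.exists_eigenform_smul_of_character hg₀ χ hχ
  have hlam : ∀ i, χ (tT i) = lam i := fun i => by
    have h2 := hg₀W.2
    rw [SetLike.mem_coe, Submodule.mem_iInf] at h2
    have h3 := h2 i
    rw [LinearMap.mem_ker, LinearMap.sub_apply, sub_eq_zero, hχ] at h3
    exact smul_left_injective ℂ hg₀ h3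
  refine ⟨c • g₀, hg, ?_, fun i => (hcoef _ (hl i).prime (hl i).not_dvd).trans (hlam i), χ, hlam⟩
  have hUg : U (U (c • g₀)) = c • g₀ := by
    rw [map_smul, map_smul]
    congr 1
    have h1 := hg₀W.1
    rw [SetLike.mem_coe, LinearMap.mem_ker, LinearMap.sub_apply, sub_eq_zero] at h1
    exact h1
  have hne : c • g₀ ≠ 0 := smul_ne_zero hc hg₀
  refine smul_left_injective ℂ hne ?_
  show qCoeff ⇑(c • g₀) q ^ 2 • (c • g₀) = (1 : ℂ) • (c • g₀)
  conv_rhs => rw [one_smul, ← hUg, GalRep.heckeULin_eigenform hg D.prime (dvd_mul_left q N),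
    map_smul, GalRep.heckeULin_eigenform hg D.prime (dvd_mul_left q N), smul_smul, ← sq]

end LevData

end Fermat.Agent.Raise
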